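import Mathlib

/-!
# Two commuting endomorphisms with the same cohomology on a subgroup of finite index
-/

set_option autoImplicit false

namespace FLTAgent.Lowering.P1.Loc

variable {A : Type*} [CommGroup A]

theorem relIndex_step (f g : A →* A) {U W : Subgroup A} (hWU : W ≤ U) (hfU : U.map f ≤ U)
    (hfW : W.map f ≤ W) (hgf : ∀ u ∈ U, g (f u) = 1) (exg : W ⊓ g.ker ≤ W.map f) :
    W.relIndex U = (W.map f).relIndex (U.map f) * (U.map f).relIndex (U ⊓ g.ker) *
      (W.map g).relIndex (U.map g) := by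
  have h1 : U.map f ≤ U ⊓ g.ker := by
    rintro _ ⟨u, hu, rfl⟩
    exact ⟨hfU ⟨u, hu, rfl⟩, hgf u hu⟩
  have h2 : W ⊓ (U ⊓ g.ker) = W.map f := by
    refine le_antisymm ((inf_le_inf_left W inf_le_right).trans exg) (le_inf hfW ?_)
    exact (Subgroup.map_mono hWU).trans h1
  have h3 : (W.map f).relIndex (U.map f) * (U.map f).relIndex (U ⊓ g.ker) =
      W.relIndex (W ⊔ (U ⊓ g.ker)) := by
    rw [Subgroup.relIndex_sup_left, ← Subgroup.inf_relIndex_right W, h2,
      Subgroup.relIndex_mul_relIndex _ _ _ (Subgroup.map_mono hWU) h1]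
  have h4 : (W.map g).relIndex (U.map g) = (W ⊔ (U ⊓ g.ker)).relIndex U := by
    rw [Subgroup.relIndex_map_map]
    have hmod : (W ⊔ g.ker) ⊓ U = W ⊔ (U ⊓ g.ker) := by
      rw [inf_comm U, sup_inf_assoc_of_le _ hWU]
    rw [show U ⊔ g.ker = U ⊔ (W ⊔ g.ker) by rw [← sup_assoc, sup_eq_left.2 hWU],
      Subgroup.relIndex_sup_right, ← Subgroup.inf_relIndex_right, hmod]
  rw [h3, h4, Subgroup.relIndex_mul_relIndex _ _ _ le_sup_left (sup_le hWU inf_le_left)]

/-- Kernels modulo images agree if they are trivial on a subgroup of finite index. -/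
theorem relIndex_eq_of_exact (f g : A →* A) {U W : Subgroup A} (hWU : W ≤ U)
    (hfU : U.map f ≤ U) (hgU : U.map g ≤ U) (hfW : W.map f ≤ W) (hgW : W.map g ≤ W)
    (hgf : ∀ u ∈ U, g (f u) = 1) (hfg : ∀ u ∈ U, f (g u) = 1) (hfin : W.relIndex U ≠ 0)
    (exf : W ⊓ f.ker ≤ W.map g) (exg : W ⊓ g.ker ≤ W.map f) :
    (U.map g).relIndex (U ⊓ f.ker) = (U.map f).relIndex (U ⊓ g.ker) := by
  have e1 := relIndex_step f g hWU hfU hfW hgf exg
  have e2 := relIndex_step g f hWU hgU hgW hfg exf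
  rw [e1] at hfin e2
  simp only [mul_ne_zero_iff] at hfin
  obtain ⟨⟨h1, -⟩, h3⟩ := hfin
  have : (W.map f).relIndex (U.map f) * (W.map g).relIndex (U.map g) *
      (U.map f).relIndex (U ⊓ g.ker) = (W.map f).relIndex (U.map f) *
      (W.map g).relIndex (U.map g) * (U.map g).relIndex (U ⊓ f.ker) := by
    linarith
  exact (mul_left_cancel₀ (mul_ne_zero h1 h3) this).symm

end FLTAgent.Lowering.P1.Loc
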