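import Fermat.Agent.Lowering.P1.Local.Power
import Fermat.Agent.Lowering.P1.Local.Herbrand

/-!
# Cyclic extensions of prime degree of a local field: Hilbert 90 and the norm index
-/

set_option autoImplicit false
set_option linter.style.haveILetI false
set_option linter.unusedSectionVars false

noncomputable section

open scoped Pointwise

namespace FLTAgent.Lowering.P1.Loc

local notation "LL" => AlgebraicClosure ℚ
local notation "GG" => (AlgebraicClosure ℚ ≃ₐ[ℚ] AlgebraicClosure ℚ)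

/-- A cyclic extension of degree `p` which does not split at `V`, with a generator. -/
structure Cyc (p : ℕ) (V : ValuationSubring LL) (L K : IntermediateField ℚ LL) (σ : GG) : Prop where
  le : L ≤ K
  conj : ∀ g ∈ galOf L, ∀ τ ∈ galOf K, g * τ * g⁻¹ ∈ galOf K
  index : (galOf K).relIndex (galOf L) = p
  mem : σ ∈ galOf L ⊓ V.decompositionSubgroup ℚ
  notMem : σ ∉ galOf K

/-- The map `y ↦ σ y / y`. -/
def bd (σ : GG) : LLˣ →* LLˣ :=
  Units.map ((σ : LL →+* LL).toMonoidHom) / MonoidHom.id _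

/-- The norm for a cyclic group. -/
def nm (σ : GG) (p : ℕ) : LLˣ →* LLˣ :=
  ∏ i ∈ Finset.range p, Units.map (((σ ^ i : GG) : LL →+* LL).toMonoidHom)

theorem coe_bd (σ : GG) (u : LLˣ) : ((bd σ u : LLˣ) : LL) = σ (u : LL) / u := by
  simp [bd, MonoidHom.div_apply, div_eq_mul_inv]

theorem coe_nm (σ : GG) (p : ℕ) (u : LLˣ) :
    ((nm σ p u : LLˣ) : LL) = ∏ i ∈ Finset.range p, (σ ^ i) (u : LL) := by
  simp [nm, MonoidHom.finsetProd_apply, Units.coe_prod]

theorem prod_succ_eq {M : Type*} [CommMonoid M] (f : ℕ → M) {n : ℕ} (hn : f n = f 0) :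
    ∏ i ∈ Finset.range n, f (i + 1) = ∏ i ∈ Finset.range n, f i := by
  cases n with
  | zero => rfl
  | succ n =>
    rw [Finset.prod_range_succ (fun i => f (i + 1)), hn, ← Finset.prod_range_succ']

theorem sum_succ_eq {M : Type*} [AddCommMonoid M] (f : ℕ → M) {n : ℕ} (hn : f n = f 0) :
    ∑ i ∈ Finset.range n, f (i + 1) = ∑ i ∈ Finset.range n, f i := by
  cases n with
  | zero => rfl
  | succ n =>
    rw [Finset.sum_range_succ (fun i => f (i + 1)), hn, ← Finset.sum_range_succ']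

namespace Cyc

variable {p : ℕ} [hp : Fact p.Prime] {V : ValuationSubring LL} {L K : IntermediateField ℚ LL}
  {σ : GG} (h : Cyc p V L K σ)

include h hp

theorem memD : σ ∈ V.decompositionSubgroup ℚ := h.mem.2

theorem galOf_le : galOf K ≤ galOf L := IntermediateField.fixingSubgroup_antitone h.le

theorem normal : ((galOf K).subgroupOf (galOf L)).Normal := by
  refine ⟨fun x hx g => ?_⟩
  rw [Subgroup.mem_subgroupOf] at hx ⊢
  exact h.conj g g.2 x hx

theorem cover {g : GG} (hg : g ∈ galOf L) : ∃ i < p, (σ ^ i)⁻¹ * g ∈ galOf K := by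
  haveI := h.normal
  have hcard : Nat.card (galOf L ⧸ (galOf K).subgroupOf (galOf L)) = p := h.index
  haveI : Finite (galOf L ⧸ (galOf K).subgroupOf (galOf L)) :=
    Nat.finite_of_card_ne_zero (by rw [hcard]; exact hp.out.ne_zero)
  set s : galOf L ⧸ (galOf K).subgroupOf (galOf L) := QuotientGroup.mk ⟨σ, h.mem.1⟩
  have hs : s ≠ 1 := fun e => h.notMem (Subgroup.mem_subgroupOf.1 ((QuotientGroup.eq_one_iff _).1 e))
  have hord : orderOf s = p := by
    rcases (Nat.dvd_prime hp.out).1 (hcard ▸ orderOf_dvd_natCard s) with h1 | h1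
    · exact absurd (orderOf_eq_one_iff.1 h1) hs
    · exact h1
  have hmem : QuotientGroup.mk ⟨g, hg⟩ ∈ Subgroup.zpowers s := mem_zpowers_of_prime_card hcard hs
  obtain ⟨k, hk⟩ := Subgroup.mem_zpowers_iff.1 hmem
  refine ⟨(k % p).toNat, ?_, ?_⟩
  · exact (Int.toNat_lt (Int.emod_nonneg k (by exact_mod_cast hp.out.ne_zero))).2
      (Int.emod_lt_of_pos k (by exact_mod_cast hp.out.pos))
  · rw [← zpow_mod_orderOf, hord, ← Int.toNat_of_nonneg
      (Int.emod_nonneg k (by exact_mod_cast hp.out.ne_zero)), zpow_natCast,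
      ← QuotientGroup.mk_pow, QuotientGroup.eq] at hk
    exact hk

theorem pow_mem_galOf : σ ^ p ∈ galOf K := by
  haveI := h.normal
  have hcard : Nat.card (galOf L ⧸ (galOf K).subgroupOf (galOf L)) = p := h.index
  have h0 := pow_card_eq_one' (x := (QuotientGroup.mk ⟨σ, h.mem.1⟩ :
    galOf L ⧸ (galOf K).subgroupOf (galOf L)))
  have h1 : (QuotientGroup.mk ⟨σ, h.mem.1⟩ : galOf L ⧸ (galOf K).subgroupOf (galOf L)) ^ p = 1 :=
    (congrArg (fun n : ℕ => (QuotientGroup.mk ⟨σ, h.mem.1⟩ :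
      galOf L ⧸ (galOf K).subgroupOf (galOf L)) ^ n) hcard).symm.trans h0
  rw [← QuotientGroup.mk_pow, QuotientGroup.eq_one_iff] at h1
  exact h1

theorem pow_notMem {k : ℕ} (hk : ¬ p ∣ k) : σ ^ k ∉ galOf K := by
  intro hmem
  refine h.notMem ?_
  obtain ⟨a, b, hab⟩ := Nat.isCoprime_iff_coprime.2 (((hp.out.coprime_iff_not_dvd).2 hk))
  have : σ = (σ ^ p) ^ a * (σ ^ k) ^ b := by
    rw [← zpow_natCast, ← zpow_natCast, ← zpow_mul, ← zpow_mul, ← zpow_add, mul_comm (p : ℤ),
      mul_comm (k : ℤ), hab, zpow_one]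
  rw [this]
  exact mul_mem (zpow_mem h.pow_mem_galOf a) (zpow_mem hmem b)

theorem map_mem {g : GG} (hg : g ∈ galOf L ⊓ V.decompositionSubgroup ℚ) {y : LL}
    (hy : y ∈ localField K V) : g y ∈ localField K V := by
  refine mem_localField.2 fun τ hτ => ?_
  obtain ⟨hgL, hgD⟩ := Subgroup.mem_inf.1 hg
  obtain ⟨hτK, hτD⟩ := Subgroup.mem_inf.1 hτ
  have hτ' : g⁻¹ * τ * g ∈ galOf K ⊓ V.decompositionSubgroup ℚ :=
    Subgroup.mem_inf.2 ⟨by simpa using h.conj g⁻¹ (inv_mem hgL) τ hτK,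
      mul_mem (mul_mem (inv_mem hgD) hτD) hgD⟩
  conv_rhs => rw [← mem_localField.1 hy _ hτ']
  rw [← AlgEquiv.mul_apply, ← AlgEquiv.mul_apply]
  congr 1
  group

theorem pow_map_mem (i : ℕ) {y : LL} (hy : y ∈ localField K V) : (σ ^ i) y ∈ localField K V :=
  h.map_mem (pow_mem h.mem i) hy

theorem pow_apply_mod (i : ℕ) {y : LL} (hy : y ∈ localField K V) :
    (σ ^ i) y = (σ ^ (i % p)) y := by
  conv_lhs => rw [← Nat.mod_add_div i p, pow_add, AlgEquiv.mul_apply, pow_mul,
    mem_localField.1 hy _ ⟨pow_mem h.pow_mem_galOf _, pow_mem (pow_mem h.memD p) _⟩]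

theorem localField_le : localField L V ≤ localField K V := fun _ hx =>
  mem_localField.2 fun τ hτ => mem_localField.1 hx τ ⟨h.galOf_le hτ.1, hτ.2⟩

theorem mem_base {y : LL} (hy : y ∈ localField K V) (hσy : σ y = y) : y ∈ localField L V := by
  refine mem_localField.2 fun g hg => ?_
  obtain ⟨i, -, hi⟩ := h.cover hg.1
  have h1 : ((σ ^ i)⁻¹ * g) y = y :=
    mem_localField.1 hy _ (Subgroup.mem_inf.2 ⟨hi, mul_mem (inv_mem (pow_mem h.memD i)) (Subgroup.mem_inf.1 hg).2⟩)
  have h2 : ∀ n : ℕ, (σ ^ n) y = y := by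
    intro n
    induction n with
    | zero => rfl
    | succ n ih => rw [pow_succ, AlgEquiv.mul_apply, hσy, ih]
  conv_rhs => rw [← h2 i, ← h1]
  rw [← AlgEquiv.mul_apply, mul_inv_cancel_left]

theorem fixed_pow {y : LL} (hy : y ∈ localField L V) (i : ℕ) : (σ ^ i) y = y :=
  mem_localField.1 hy _ (pow_mem h.mem i)

theorem period {y : LL} (hy : y ∈ localField K V) : (σ ^ p) y = (σ ^ 0) y := by
  rw [h.pow_apply_mod p hy, Nat.mod_self]

theorem bd_mem {u : LLˣ} (hu : u ∈ fieldUnits K V) : bd σ u ∈ fieldUnits K V := by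
  rw [mem_fieldUnits, coe_bd]
  exact div_mem (h.map_mem h.mem hu) hu

theorem nm_mem {u : LLˣ} (hu : u ∈ fieldUnits K V) : nm σ p u ∈ fieldUnits L V := by
  rw [mem_fieldUnits, coe_nm]
  refine h.mem_base (prod_mem fun i _ => h.pow_map_mem i hu) ?_
  rw [map_prod]
  conv_lhs => arg 2; ext i; rw [← AlgEquiv.mul_apply, ← pow_succ']
  exact prod_succ_eq (fun i => (σ ^ i) (u : LL)) (h.period hu)

theorem val_bd {u : LLˣ} : V.valuation ((bd σ u : LLˣ) : LL) = 1 := by
  rw [coe_bd, map_div₀, val_map h.memD, div_self ((Valuation.ne_zero_iff _).2 u.ne_zero)]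

theorem val_nm {u : LLˣ} :
    V.valuation ((nm σ p u : LLˣ) : LL) = V.valuation (u : LL) ^ p := by
  rw [coe_nm, map_prod, Finset.prod_congr rfl fun i _ => val_map (pow_mem h.memD i) _,
    Finset.prod_const, Finset.card_range]

theorem bd_eq_one_iff {u : LLˣ} (hu : u ∈ fieldUnits K V) :
    bd σ u = 1 ↔ u ∈ fieldUnits L V := by
  rw [Units.ext_iff, coe_bd, Units.val_one, div_eq_one_iff_eq u.ne_zero]
  exact ⟨h.mem_base hu, fun hF => by simpa using h.fixed_pow hF 1⟩

theorem nm_of_mem_base {u : LLˣ} (hu : u ∈ fieldUnits L V) : nm σ p u = u ^ p := by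
  refine Units.ext ?_
  rw [coe_nm, Finset.prod_congr rfl fun i _ => h.fixed_pow hu i, Finset.prod_const,
    Finset.card_range, Units.val_pow_eq_pow_val]

theorem nm_bd {u : LLˣ} (hu : u ∈ fieldUnits K V) : nm σ p (bd σ u) = 1 := by
  refine Units.ext ?_
  rw [coe_nm, coe_bd, Units.val_one, Finset.prod_congr rfl fun i _ =>
    show (σ ^ i) (σ (u : LL) / u) = (σ ^ (i + 1)) (u : LL) / (σ ^ i) (u : LL) by
      rw [map_div₀, pow_succ, AlgEquiv.mul_apply],
    Finset.prod_div_distrib, prod_succ_eq (fun i => (σ ^ i) (u : LL)) (h.period hu)]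
  exact div_self (Finset.prod_ne_zero_iff.2 fun i _ => (map_ne_zero_iff _ (σ ^ i).injective).2 u.ne_zero)

theorem bd_nm {u : LLˣ} (hu : u ∈ fieldUnits K V) : bd σ (nm σ p u) = 1 :=
  (h.bd_eq_one_iff (h.localField_le (h.nm_mem hu))).2 (h.nm_mem hu)

/-- A norm for the chosen generator is a norm. -/
theorem isNormOn {u : LLˣ} (hu : u ∈ fieldUnits K V) :
    IsNormOn p L K (V.decompositionSubgroup ℚ) ((nm σ p u : LLˣ) : LL) := by
  refine ⟨(u : LL), u.ne_zero, fun τ hτ => mem_localField.1 hu τ hτ, fun τ hτ hτK => ?_⟩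
  obtain ⟨j, hj, hjg⟩ := h.cover hτ.1
  have hj0 : ¬ p ∣ j := fun hd => hτK (by
    rcases Nat.eq_zero_or_pos j with rfl | hj'
    · simpa using hjg
    · exact absurd (Nat.le_of_dvd hj' hd) (by omega))
  have hstep : ∀ i : ℕ, (τ ^ i) (u : LL) = (σ ^ (i * j)) (u : LL) := by
    intro i
    induction i with
    | zero => simp
    | succ i ih =>
      rw [pow_succ', AlgEquiv.mul_apply, ih, show τ = σ ^ j * ((σ ^ j)⁻¹ * τ) by group,
        AlgEquiv.mul_apply, mem_localField.1 (h.pow_map_mem (i * j) hu) _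
          (Subgroup.mem_inf.2 ⟨hjg, mul_mem (inv_mem (pow_mem h.memD j)) (Subgroup.mem_inf.1 hτ).2⟩),
        ← AlgEquiv.mul_apply, ← pow_add, show j + i * j = (i + 1) * j by ring]
  rw [coe_nm]
  have hinj : Set.InjOn (fun i : ℕ => i * j % p) ↑(Finset.range p) := by
    intro a ha b hb hab
    have ha' := Finset.mem_range.1 (Finset.mem_coe.1 ha)
    have hb' := Finset.mem_range.1 (Finset.mem_coe.1 hb)
    have := Nat.ModEq.cancel_right_of_coprime
      ((hp.out.coprime_iff_not_dvd).2 hj0) (show a * j ≡ b * j [MOD p] from hab)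
    exact this.eq_of_lt_of_lt ha' hb'
  have hmaps : Set.MapsTo (fun i : ℕ => i * j % p) ↑(Finset.range p) ↑(Finset.range p) :=
    fun i _ => Finset.mem_coe.2 (Finset.mem_range.2 (Nat.mod_lt _ hp.out.pos))
  refine Finset.prod_of_injOn (fun i : ℕ => i * j % p) hinj hmaps
    (fun i hi hni => absurd (Finset.surjOn_of_injOn_of_card_le _ hmaps hinj le_rfl hi) hni)
    (fun i _ => ?_)
  rw [hstep, h.pow_apply_mod _ hu]

theorem exists_of_isNormOn {b : LL} (hb : IsNormOn p L K (V.decompositionSubgroup ℚ) b) :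
    ∃ u ∈ fieldUnits K V, ((nm σ p u : LLˣ) : LL) = b := by
  obtain ⟨y, hy0, hy, hprod⟩ := hb
  refine ⟨Units.mk0 y hy0, mem_localField.2 hy, ?_⟩
  rw [coe_nm]
  exact hprod σ h.mem h.notMem

/-- **Hilbert 90**. -/
theorem hilbert90 {u : LLˣ} (hu : u ∈ fieldUnits K V) (hN : nm σ p u = 1) :
    ∃ w ∈ fieldUnits K V, bd σ w = u := by
  classical
  let E := localField K V
  let χ : Fin p → (E →* LL) := fun i =>
    (((σ ^ (i : ℕ) : GG) : LL →+* LL).comp E.val.toRingHom).toMonoidHom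
  have hkey : ∀ i j : Fin p, i < j → χ i ≠ χ j := by
    intro i j hij he
    refine h.pow_notMem (k := (j : ℕ) - i) (fun hd => ?_) ?_
    · have h1 := Fin.lt_def.1 hij
      have h2 := Nat.le_of_dvd (by omega) hd
      have := j.2
      omega
    · refine (mem_of_fixes_localField (V := V) fun x hx => ?_).1
      refine (σ ^ (i : ℕ)).injective ?_
      rw [← AlgEquiv.mul_apply, ← pow_add, Nat.add_sub_cancel' (Fin.lt_def.1 hij).le]
      exact (DFunLike.congr_fun he ⟨x, hx⟩).symm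
  have hχ : Function.Injective χ := by
    intro i j he
    rcases lt_trichotomy i j with hij | hij | hij
    · exact absurd he (hkey i j hij)
    · exact hij
    · exact absurd he.symm (hkey j i hij)
  have hli : LinearIndependent LL fun i : Fin p => (χ i : E → LL) :=
    (linearIndependent_monoidHom E LL).comp χ hχ
  set a : ℕ → LL := fun i => ∏ j ∈ Finset.range i, (σ ^ j) (u : LL) with ha
  obtain ⟨x, hx⟩ : ∃ x : E, ∑ i : Fin p, a i * χ i x ≠ 0 := by
    by_contra hall
    push Not at hall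
    have h0 := Fintype.linearIndependent_iff.1 hli (fun i => a i)
      (funext fun x => by simpa using hall x) ⟨0, hp.out.pos⟩
    simp [ha] at h0
  replace hx : ∑ i ∈ Finset.range p, a i * (σ ^ i) (x : LL) ≠ 0 := by
    rw [← Fin.sum_univ_eq_sum_range (fun i => a i * (σ ^ i) (x : LL)) p]
    exact hx
  set z := ∑ i ∈ Finset.range p, a i * (σ ^ i) (x : LL) with hz
  have hzE : z ∈ E := sum_mem fun i _ =>
    mul_mem (prod_mem fun j _ => h.pow_map_mem j hu) (h.pow_map_mem i x.2)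
  have hua : ∀ i, σ (a i) = a (i + 1) / (u : LL) := fun i => by
    rw [ha, eq_div_iff u.ne_zero]
    simp only
    rw [Finset.prod_range_succ', map_prod, pow_zero, AlgEquiv.one_apply]
    simp only [pow_succ', AlgEquiv.mul_apply]
  have hp1 : a p = a 0 := by
    have := congrArg Units.val hN
    rw [coe_nm, Units.val_one] at this
    simpa [ha] using this
  have hσz : σ z = z / (u : LL) := by
    rw [hz, map_sum, Finset.sum_div,
      ← sum_succ_eq (fun i => a i * (σ ^ i) (x : LL) / (u : LL)) (n := p) (by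
        rw [hp1, h.period x.2])]
    refine Finset.sum_congr rfl fun i _ => ?_
    rw [map_mul, hua, pow_succ', AlgEquiv.mul_apply, div_mul_eq_mul_div]
  refine ⟨(Units.mk0 z hx)⁻¹, inv_mem (show Units.mk0 z hx ∈ fieldUnits K V from hzE),
    Units.ext ?_⟩
  rw [coe_bd, Units.val_inv_eq_inv_val, Units.val_mk0, map_inv₀, hσz, inv_div]
  field_simp

section Count

variable {l : ℕ} (hl : l.Prime) (hV : V.LiesOverPrime l) [hK : FiniteDimensional ℚ K]

include hl hV hK

omit h in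
theorem map_le_intUnits (f : LLˣ →* LLˣ) (hf : ∀ u ∈ intUnits K V, f u ∈ intUnits K V) :
    (intUnits K V).map f ≤ intUnits K V := by
  rintro _ ⟨u, hu, rfl⟩
  exact hf u hu

/-- The index of the units and the base field in the extension. -/
def ramIndex (_h : Cyc p V L K σ) : ℕ :=
  (intUnits K V ⊔ fieldUnits L V).relIndex (fieldUnits K V)

theorem relIndex_bd :
    ((intUnits K V).map (bd σ)).relIndex (intUnits K V ⊓ (nm σ p).ker) =
      (intUnits K V ⊔ fieldUnits L V).relIndex (fieldUnits K V) := by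
  have hker : intUnits K V ⊓ (nm σ p).ker = (fieldUnits K V).map (bd σ) := by
    refine le_antisymm ?_ ?_
    · rintro u ⟨hu, hu'⟩
      obtain ⟨w, hw, hwu⟩ := h.hilbert90 hu.1 hu'
      exact ⟨w, hw, hwu⟩
    · rintro _ ⟨w, hw, rfl⟩
      exact ⟨⟨h.bd_mem hw, h.val_bd⟩, h.nm_bd hw⟩
  rw [hker, Subgroup.relIndex_map_map]
  have hmod : (intUnits K V ⊔ (bd σ).ker) ⊓ fieldUnits K V = intUnits K V ⊔ fieldUnits L V := by
    rw [sup_inf_assoc_of_le _ (intUnits_le K)]
    congr 1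
    ext u
    refine ⟨fun ⟨hu, hu'⟩ => (h.bd_eq_one_iff hu').1 hu, fun hu => ?_⟩
    have huK : u ∈ fieldUnits K V := h.localField_le hu
    exact ⟨(h.bd_eq_one_iff huK).2 hu, huK⟩
  rw [show fieldUnits K V ⊔ (bd σ).ker = fieldUnits K V ⊔ (intUnits K V ⊔ (bd σ).ker) by
      rw [← sup_assoc, sup_eq_left.2 (intUnits_le K)],
    Subgroup.relIndex_sup_right, ← Subgroup.inf_relIndex_right, hmod]

theorem intUnits_inf_ker :
    intUnits K V ⊓ (bd σ).ker = intUnits L V := by
  ext u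
  refine ⟨fun ⟨hu, hu'⟩ => ⟨(h.bd_eq_one_iff hu.1).1 hu', hu.2⟩, fun hu => ?_⟩
  have huK : u ∈ fieldUnits K V := h.localField_le hu.1
  exact ⟨⟨huK, hu.2⟩, (h.bd_eq_one_iff huK).2 hu.1⟩

/-- The norm index, given the equality of the two unit indices. -/
theorem relIndex_nm
    (heq : ((intUnits K V).map (nm σ p)).relIndex (intUnits K V ⊓ (bd σ).ker) =
      ((intUnits K V).map (bd σ)).relIndex (intUnits K V ⊓ (nm σ p).ker)) :
    ((fieldUnits K V).map (nm σ p)).relIndex (fieldUnits L V) = p := by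
  set E := fieldUnits K V
  set F := fieldUnits L V
  set U := intUnits K V
  set N := E.map (nm σ p)
  have hNF : N ≤ F := by
    rintro _ ⟨w, hw, rfl⟩
    exact h.nm_mem hw
  have hFE : F ≤ E := fun u hu => h.localField_le hu
  have hUFF : intUnits L V ≤ F := intUnits_le L
  have e1 : N.relIndex F =
      N.relIndex (N ⊔ intUnits L V) * (N ⊔ intUnits L V).relIndex F :=
    (Subgroup.relIndex_mul_relIndex _ _ _ le_sup_left (sup_le hNF hUFF)).symm
  have hinf : N ⊓ intUnits L V = U.map (nm σ p) := by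
    ext u
    refine ⟨?_, ?_⟩
    · rintro ⟨⟨w, hw, rfl⟩, hu⟩
      refine ⟨w, ⟨hw, ?_⟩, rfl⟩
      have h1 : V.valuation (w : LL) ^ p = 1 := h.val_nm.symm.trans hu.2
      exact (pow_eq_one_iff_left hp.out.ne_zero).1 h1
    · rintro ⟨w, hw, rfl⟩
      exact ⟨⟨w, hw.1, rfl⟩, h.nm_mem hw.1, by rw [h.val_nm, hw.2, one_pow]⟩
  have e2 : N.relIndex (N ⊔ intUnits L V) = (U ⊔ F).relIndex E := by
    rw [Subgroup.relIndex_sup_left, ← Subgroup.inf_relIndex_right, hinf, ← h.intUnits_inf_ker hl hV,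
      heq, h.relIndex_bd hl hV]
  have e3 : (N ⊔ intUnits L V).relIndex F = (U ⊔ N).relIndex (U ⊔ F) := by
    have hmod : (U ⊔ N) ⊓ F = N ⊔ intUnits L V := by
      rw [sup_comm U N, sup_inf_assoc_of_le _ hNF]
      congr 1
      ext u
      exact ⟨fun ⟨hu, hu'⟩ => ⟨hu', hu.2⟩, fun hu => ⟨⟨hFE hu.1, hu.2⟩, hu.1⟩⟩
    rw [show U ⊔ F = F ⊔ (U ⊔ N) by rw [sup_left_comm, sup_eq_left.2 hNF],
      Subgroup.relIndex_sup_right, ← Subgroup.inf_relIndex_right (U ⊔ N), hmod]
  have e4 : U ⊔ N = E.map (powMonoidHom p : LLˣ →* LLˣ) ⊔ U := by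
    have key : ∀ w ∈ E, nm σ p w / w ^ p ∈ U := fun w hw => by
      refine ⟨div_mem (hFE (h.nm_mem hw)) (pow_mem hw p), ?_⟩
      rw [Units.val_div_eq_div_val, map_div₀, h.val_nm, Units.val_pow_eq_pow_val, map_pow,
        div_self (pow_ne_zero _ ((Valuation.ne_zero_iff _).2 w.ne_zero))]
    refine le_antisymm (sup_le le_sup_right ?_) (sup_le ?_ le_sup_left)
    · rintro _ ⟨w, hw, rfl⟩
      rw [← mul_div_cancel (w ^ p) (nm σ p w)]
      exact Subgroup.mul_mem_sup ⟨w, hw, rfl⟩ (key w hw)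
    · rintro _ ⟨w, hw, rfl⟩
      show w ^ p ∈ U ⊔ N
      rw [← div_div_cancel (nm σ p w) (w ^ p), div_eq_mul_inv (nm σ p w), mul_comm]
      exact Subgroup.mul_mem_sup (inv_mem (key w hw)) ⟨w, hw, rfl⟩
  rw [e1, e2, e3, mul_comm,
    Subgroup.relIndex_mul_relIndex _ _ _ (sup_le_sup_left hNF U) (sup_le (intUnits_le K) hFE), e4,
    relIndex_sup_pow hl hV p K]

end Count

end Cyc

end FLTAgent.Lowering.P1.Loc
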