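import Fermat.Agent.Lowering.P1.Local.Steps

/-!
# A normal lattice in a Kummer extension
-/

set_option autoImplicit false
set_option linter.style.haveILetI false
set_option linter.unusedSectionVars false

noncomputable section

open scoped Pointwise

namespace FLTAgent.Lowering.P1.Loc

local notation "LL" => AlgebraicClosure ℚ
local notation "GG" => (AlgebraicClosure ℚ ≃ₐ[ℚ] AlgebraicClosure ℚ)

theorem val_prod_one_add {V : ValuationSubring LL} {M : V.ValueGroup} (hM : M ≤ 1) (a : ℕ → LL)
    (n : ℕ) (ha : ∀ i < n, V.valuation (a i) ≤ M) :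
    V.valuation (∏ i ∈ Finset.range n, (1 + a i) - 1 - ∑ i ∈ Finset.range n, a i) ≤ M ^ 2 := by
  induction n with
  | zero => simp
  | succ n ih =>
    rw [Finset.prod_range_succ, Finset.sum_range_succ,
      show (∏ i ∈ Finset.range n, (1 + a i)) * (1 + a n) - 1 -
        (∑ i ∈ Finset.range n, a i + a n) =
        (∏ i ∈ Finset.range n, (1 + a i) - 1 - ∑ i ∈ Finset.range n, a i) * (1 + a n) +
          (∑ i ∈ Finset.range n, a i) * a n by ring]
    refine Valuation.map_add_le _ ?_ ?_
    · rw [map_mul]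
      exact (mul_le_mul' (ih fun i hi => ha i (by omega)) (Valuation.map_add_le _ (map_one _).le
        ((ha n (by omega)).trans hM))).trans_eq (mul_one _)
    · rw [map_mul, sq]
      exact mul_le_mul' (Valuation.map_sum_le _ fun i hi => ha i (by
        have := Finset.mem_range.1 hi; omega)) (ha n (by omega))

/-- The coefficient on a normal basis, given the dual generator. -/
def coef (σ : GG) (p : ℕ) (θ' : LL) (i : ℕ) (x : LL) : LL :=
  ∑ t ∈ Finset.range p, (σ ^ t) x * (σ ^ (t + i)) θ'

/-- A generator of a normal basis with its dual. -/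
structure Dual (p : ℕ) (V : ValuationSubring LL) (K : IntermediateField ℚ LL) (σ : GG) where
  θ : LL
  θ' : LL
  mem : θ ∈ localField K V
  mem' : θ' ∈ localField K V
  dual : ∀ k < p, ∑ i ∈ Finset.range p, (σ ^ i) θ * (σ ^ (i + k)) θ' = if k = 0 then 1 else 0

namespace Cyc

variable {p : ℕ} [hp : Fact p.Prime] {V : ValuationSubring LL} {L K : IntermediateField ℚ LL}
  {σ : GG} (h : Cyc p V L K σ)

include h hp

theorem exists_dual {ζ : LL} (hζL : ζ ∈ L) (hζ : IsPrimitiveRoot ζ p) :
    Nonempty (Dual p V K σ) := by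
  have hp0 : (p : LL) ≠ 0 := Nat.cast_ne_zero.2 hp.out.ne_zero
  have hζ0 : ζ ≠ 0 := hζ.ne_zero hp.out.ne_zero
  set z : LLˣ := Units.mk0 ζ hζ0
  have hzL : z ∈ fieldUnits L V := le_localField L V hζL
  obtain ⟨w, hw, hwz⟩ := h.hilbert90 (u := z) (h.localField_le hzL) (by
    rw [h.nm_of_mem_base hzL]
    exact Units.ext (by simp [z, hζ.pow_eq_one]))
  set α : LL := (w : LL)
  have hα0 : α ≠ 0 := w.ne_zero
  have hσα : σ α = ζ * α := by
    have := congrArg Units.val hwz
    rw [coe_bd, Units.val_mk0, div_eq_iff w.ne_zero] at this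
    exact this
  have hpow : ∀ i : ℕ, (σ ^ i) α = ζ ^ i * α := by
    intro i
    induction i with
    | zero => simp
    | succ i ih =>
      rw [pow_succ', AlgEquiv.mul_apply, ih, map_mul, map_pow, hσα]
      have : σ ζ = ζ := mem_localField.1 hzL σ h.mem
      rw [this]
      ring
  refine ⟨⟨∑ j ∈ Finset.range p, α ^ j, ((p : LL) ^ 2)⁻¹ * ∑ j ∈ Finset.range p, α⁻¹ ^ j,
    sum_mem fun j _ => pow_mem hw j,
    mul_mem (inv_mem (pow_mem (natCast_mem _ p) 2)) (sum_mem fun j _ => pow_mem (inv_mem (show α ∈ localField K V from hw)) j),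
    fun k hk => ?_⟩⟩
  have hgeom : ∀ j ∈ Finset.range p, ∀ m ∈ Finset.range p,
      ∑ i ∈ Finset.range p, (ζ ^ j * (ζ ^ m)⁻¹) ^ i = if j = m then (p : LL) else 0 := by
    intro j hj m hm
    split_ifs with hjm
    · subst hjm
      simp [mul_inv_cancel₀ (pow_ne_zero _ hζ0)]
    · have hne : ζ ^ j * (ζ ^ m)⁻¹ ≠ 1 := fun e => hjm (hζ.pow_inj (Finset.mem_range.1 hj)
        (Finset.mem_range.1 hm) ((mul_inv_eq_one₀ (pow_ne_zero _ hζ0)).1 e))
      have hpow1 : (ζ ^ j * (ζ ^ m)⁻¹) ^ p = 1 := by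
        rw [mul_pow, inv_pow, ← pow_mul, ← pow_mul, mul_comm j, mul_comm m, pow_mul, pow_mul,
          hζ.pow_eq_one, one_pow, one_pow, inv_one, mul_one]
      rw [geom_sum_eq hne, hpow1, sub_self, zero_div]
  calc ∑ i ∈ Finset.range p, (σ ^ i) (∑ j ∈ Finset.range p, α ^ j) *
        (σ ^ (i + k)) (((p : LL) ^ 2)⁻¹ * ∑ j ∈ Finset.range p, α⁻¹ ^ j)
      = ∑ i ∈ Finset.range p, ∑ j ∈ Finset.range p, ∑ m ∈ Finset.range p,
          ((p : LL) ^ 2)⁻¹ * (α ^ j * α⁻¹ ^ m * ((ζ ^ m)⁻¹) ^ k) *
            (ζ ^ j * (ζ ^ m)⁻¹) ^ i := by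
        refine Finset.sum_congr rfl fun i _ => ?_
        rw [map_sum, map_mul, map_inv₀, map_pow, map_natCast, map_sum, Finset.mul_sum,
          Finset.sum_mul]
        refine Finset.sum_congr rfl fun j _ => ?_
        rw [Finset.mul_sum]
        refine Finset.sum_congr rfl fun m _ => ?_
        rw [map_pow, map_pow, map_inv₀, hpow, hpow]
        simp only [inv_pow, mul_pow, ← pow_mul, mul_inv]
        ring
    _ = ∑ j ∈ Finset.range p, ∑ m ∈ Finset.range p,
          ((p : LL) ^ 2)⁻¹ * (α ^ j * α⁻¹ ^ m * ((ζ ^ m)⁻¹) ^ k) *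
            (if j = m then (p : LL) else 0) := by
        rw [Finset.sum_comm]
        refine Finset.sum_congr rfl fun j hj => ?_
        rw [Finset.sum_comm]
        refine Finset.sum_congr rfl fun m hm => ?_
        rw [← Finset.mul_sum, hgeom j hj m hm]
    _ = ∑ j ∈ Finset.range p, (p : LL)⁻¹ * ((ζ ^ k)⁻¹) ^ j := by
        refine Finset.sum_congr rfl fun j hj => ?_
        simp only [mul_ite, mul_zero, Finset.sum_ite_eq, hj, if_true, inv_pow]
        rw [mul_inv_cancel₀ (pow_ne_zero _ hα0), one_mul, ← pow_mul, ← pow_mul, mul_comm j k]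
        field_simp
    _ = if k = 0 then 1 else 0 := by
        rw [← Finset.mul_sum]
        split_ifs with hk0
        · subst hk0
          simp [hp0]
        · have hne : (ζ ^ k)⁻¹ ≠ 1 := fun e =>
            hζ.pow_ne_one_of_pos_of_lt hk0 hk (inv_eq_one.1 e)
          rw [geom_sum_eq hne, inv_pow, ← pow_mul, mul_comm k, pow_mul, hζ.pow_eq_one, one_pow,
            inv_one, sub_self, zero_div, mul_zero]

variable (D : Dual p V K σ)

theorem coef_mem {i : ℕ} {x : LL} (hx : x ∈ localField K V) :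
    coef σ p D.θ' i x ∈ localField L V := by
  refine h.mem_base (sum_mem fun t _ => mul_mem (h.pow_map_mem t hx) (h.pow_map_mem _ D.mem')) ?_
  rw [coef, map_sum]
  conv_rhs => rw [← sum_succ_eq (fun t => (σ ^ t) x * (σ ^ (t + i)) D.θ') (n := p)
    (by rw [h.period hx, h.pow_apply_mod (p + i) D.mem', Nat.add_mod_left,
      ← h.pow_apply_mod i D.mem', zero_add])]
  refine Finset.sum_congr rfl fun t _ => ?_
  rw [map_mul, ← AlgEquiv.mul_apply, ← AlgEquiv.mul_apply, ← pow_succ', ← pow_succ',
    show t + i + 1 = t + 1 + i by omega]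

theorem coef_periodic (i : ℕ) (x : LL) : coef σ p D.θ' (i + p) x = coef σ p D.θ' i x := by
  refine Finset.sum_congr rfl fun t _ => ?_
  rw [h.pow_apply_mod (t + (i + p)) D.mem', h.pow_apply_mod (t + i) D.mem',
    show t + (i + p) = t + i + p by omega, Nat.add_mod_right]

theorem coef_map {i : ℕ} {x : LL} (hx : x ∈ localField K V) :
    coef σ p D.θ' (i + 1) (σ x) = coef σ p D.θ' i x := by
  have h1 : ∀ t, (σ ^ t) (σ x) * (σ ^ (t + (i + 1))) D.θ' =
      (fun t => (σ ^ t) x * (σ ^ (t + i)) D.θ') (t + 1) := fun t => by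
    rw [← AlgEquiv.mul_apply, ← pow_succ, show t + (i + 1) = t + 1 + i by omega]
  rw [coef, Finset.sum_congr rfl fun t _ => h1 t, sum_succ_eq (fun t =>
    (σ ^ t) x * (σ ^ (t + i)) D.θ') (by rw [h.period hx, h.pow_apply_mod (p + i) D.mem',
      Nat.add_mod_left, ← h.pow_apply_mod i D.mem', zero_add])]
  rfl

theorem coef_gen {k i : ℕ} (hk : k < p) (hi : i < p) :
    coef σ p D.θ' k ((σ ^ i) D.θ) = if k = i then 1 else 0 := by
  have key : ∀ j n : ℕ, coef σ p D.θ' (n + j) ((σ ^ j) D.θ) = coef σ p D.θ' n D.θ := by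
    intro j
    induction j with
    | zero => simp
    | succ j ih =>
      intro n
      rw [pow_succ', AlgEquiv.mul_apply, ← add_assoc, h.coef_map D (h.pow_map_mem j D.mem), ih]
  rcases le_or_gt i k with hik | hik
  · conv_lhs => rw [← Nat.sub_add_cancel hik, key, coef, D.dual (k - i) (by omega)]
    exact if_congr (by omega) rfl rfl
  · rw [← h.coef_periodic D k, show k + p = (k + p - i) + i by omega, key, coef,
      D.dual (k + p - i) (by omega), if_neg (by omega), if_neg (by omega)]

theorem expansion {x : LL} (hx : x ∈ localField K V) :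
    ∑ i ∈ Finset.range p, coef σ p D.θ' i x * (σ ^ i) D.θ = x := by
  simp only [coef, Finset.sum_mul]
  rw [Finset.sum_comm]
  have h1 : ∀ t ∈ Finset.range p, ∑ i ∈ Finset.range p,
      (σ ^ t) x * (σ ^ (t + i)) D.θ' * (σ ^ i) D.θ = (σ ^ t) x * if t = 0 then 1 else 0 := by
    intro t ht
    rw [← D.dual t (Finset.mem_range.1 ht), Finset.mul_sum]
    refine Finset.sum_congr rfl fun i _ => ?_
    rw [mul_assoc, mul_comm ((σ ^ (t + i)) D.θ'), add_comm t i]
  rw [Finset.sum_congr rfl h1, Finset.sum_eq_single 0 (fun t _ ht => by simp [ht])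
    (fun h0 => absurd (Finset.mem_range.2 hp.out.pos) h0)]
  simp

variable {l : ℕ} (hl : l.Prime) (hV : V.LiesOverPrime l) [hL : FiniteDimensional ℚ L]

include D hl hV hL

set_option maxHeartbeats 1000000 in
/-- The filtration by the lattice of a normal basis. -/
theorem exists_steps : Nonempty (Steps p V K σ) := by
  classical
  obtain ⟨π, hπL, hπ0, hπ1, -⟩ := exists_uniformiser hl hV L
  have hπne : π ≠ 0 := fun e => by simp [e] at hπ0
  -- one bound for all the constants
  obtain ⟨C, hC0, hC1, hCθ, hCθ'⟩ : ∃ C : LL, C ≠ 0 ∧ 1 ≤ V.valuation C ∧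
      V.valuation D.θ ≤ V.valuation C ∧ V.valuation D.θ' ≤ V.valuation C := by
    obtain ⟨c, hc, hmax⟩ := ({1, D.θ, D.θ'} : Finset LL).exists_max_image
      (fun x => V.valuation x) ⟨1, by simp⟩
    have h1 : (1 : V.ValueGroup) ≤ V.valuation c := by
      rw [← map_one V.valuation]; exact hmax 1 (by simp)
    exact ⟨c, fun e => by simp [e] at h1, h1, hmax _ (by simp), hmax _ (by simp)⟩
  set Cv := V.valuation C with hCv
  have hCθi : ∀ i, V.valuation ((σ ^ i) D.θ) ≤ Cv := fun i => by
    rw [val_map (pow_mem h.memD i)]; exact hCθ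
  have hCθ'i : ∀ i, V.valuation ((σ ^ i) D.θ') ≤ Cv := fun i => by
    rw [val_map (pow_mem h.memD i)]; exact hCθ'
  obtain ⟨n₀, hn₀⟩ := arch hl hV hπ1 (div_ne_zero hπne (pow_ne_zero 5 hC0))
  set B : ℕ → V.ValueGroup := fun m => V.valuation π ^ (n₀ + m)
  have hB : ∀ m, Cv ^ 5 * B m ≤ V.valuation π := fun m => by
    have h1 := hn₀ (n₀ + m) (Nat.le_add_right _ _)
    rw [map_div₀, map_pow, le_div_iff₀ (pow_pos (zero_lt_one.trans_le hC1) 5)] at h1
    rw [mul_comm]
    exact h1
  have hBk : ∀ (k m : ℕ), k ≤ 5 → Cv ^ k * B m ≤ V.valuation π := fun k m hk =>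
    (mul_le_mul' (pow_le_pow_right' hC1 hk) le_rfl).trans (hB m)
  have hsq : ∀ (k m : ℕ), k ≤ 5 → Cv ^ k * B m ^ 2 ≤ B (m + 1) := fun k m hk => by
    rw [sq, ← mul_assoc]
    refine (mul_le_mul' (hBk k m hk) le_rfl).trans_eq ?_
    rw [mul_comm, ← pow_succ]
    rfl
  have hBanti : ∀ m, B (m + 1) ≤ B m := fun m => pow_le_pow_right_of_le_one' hπ1.le (by omega)
  -- the coefficients bound the number and conversely
  have hcoef_le : ∀ (i : ℕ) {x : LL} {M : V.ValueGroup}, V.valuation x ≤ M →
      V.valuation (coef σ p D.θ' i x) ≤ Cv * M := fun i x M hx => by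
    refine Valuation.map_sum_le _ fun t _ => ?_
    rw [map_mul, mul_comm, val_map (pow_mem h.memD t)]
    exact mul_le_mul' (hCθ'i _) hx
  have hle_coef : ∀ {x : LL} {M : V.ValueGroup}, x ∈ localField K V →
      (∀ i < p, V.valuation (coef σ p D.θ' i x) ≤ M) → V.valuation x ≤ Cv * M := fun {x M} hx hc => by
    conv_lhs => rw [← h.expansion D hx]
    refine Valuation.map_sum_le _ fun i hi => ?_
    rw [map_mul, mul_comm]
    exact mul_le_mul' (hCθi i) (hc i (Finset.mem_range.1 hi))
  have hadd : ∀ (i : ℕ) (x y : LL),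
      coef σ p D.θ' i (x + y) = coef σ p D.θ' i x + coef σ p D.θ' i y := fun i x y => by
    simp [coef, map_add, add_mul, Finset.sum_add_distrib]
  have hneg : ∀ (i : ℕ) (x : LL), coef σ p D.θ' i (-x) = -coef σ p D.θ' i x := fun i x => by
    simp [coef, Finset.sum_neg_distrib]
  have hlin : ∀ (i : ℕ) (c x : LL), c ∈ localField L V →
      coef σ p D.θ' i (c * x) = c * coef σ p D.θ' i x := fun i c x hc => by
    simp only [coef, Finset.mul_sum, map_mul, h.fixed_pow hc, mul_assoc]
  let mem : ℕ → LLˣ → Prop := fun m u =>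
    u ∈ intUnits K V ∧ ∀ i < p, V.valuation (coef σ p D.θ' i ((u : LL) - 1)) ≤ B m
  have hx : ∀ {m : ℕ} {u : LLˣ}, mem m u → V.valuation ((u : LL) - 1) ≤ Cv * B m :=
    fun hu => hle_coef (sub_mem hu.1.1 (one_mem _)) hu.2
  have hlt : ∀ m, Cv * B m < 1 := fun m => by
    have := hBk 1 m (by omega)
    rw [pow_one] at this
    exact this.trans_lt hπ1
  have hmul : ∀ {m : ℕ} {u w : LLˣ}, mem m u → mem m w → mem m (u * w) := by
    intro m u w hu hw
    refine ⟨mul_mem hu.1 hw.1, fun i hi => ?_⟩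
    rw [Units.val_mul, show (u : LL) * w - 1 = ((u : LL) - 1) + (((w : LL) - 1) +
      ((u : LL) - 1) * ((w : LL) - 1)) by ring, hadd, hadd]
    refine Valuation.map_add_le _ (hu.2 i hi) (Valuation.map_add_le _ (hw.2 i hi) ?_)
    refine ((hcoef_le i ((map_mul _ _ _).trans_le (mul_le_mul' (hx hu) (hx hw)))).trans_eq ?_).trans
      ((hsq 3 m (by omega)).trans (hBanti m))
    simp only [pow_succ, pow_zero, one_mul, mul_assoc, mul_left_comm (B m)]
  have hinv : ∀ {m : ℕ} {u : LLˣ}, mem m u → mem m u⁻¹ := by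
    intro m u hu
    refine ⟨inv_mem hu.1, fun i hi => ?_⟩
    rw [Units.val_inv_eq_inv_val, show (u : LL)⁻¹ - 1 = -((u : LL) - 1) +
      ((u : LL) - 1) * ((u : LL) - 1) * (u : LL)⁻¹ by field_simp; ring, hadd, hneg]
    refine Valuation.map_add_le _ (by rw [Valuation.map_neg]; exact hu.2 i hi) ?_
    have h1 : V.valuation (((u : LL) - 1) * ((u : LL) - 1) * (u : LL)⁻¹) ≤
        Cv * B m * (Cv * B m) := by
      rw [map_mul, map_inv₀, hu.1.2, inv_one, mul_one, map_mul]
      exact mul_le_mul' (hx hu) (hx hu)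
    refine ((hcoef_le i h1).trans_eq ?_).trans ((hsq 3 m (by omega)).trans (hBanti m))
    simp only [pow_succ, pow_zero, one_mul, mul_assoc, mul_left_comm (B m)]
  have hone : ∀ m, mem m 1 := fun m => ⟨one_mem _, fun i _ => by simp [coef]⟩
  let W : ℕ → Subgroup LLˣ := fun m =>
    { carrier := {u | mem m u}, one_mem' := hone m, mul_mem' := hmul, inv_mem' := hinv }
  -- stability
  have hconj : ∀ i : ℕ, ∀ u ∈ W 0, Units.map (((σ ^ i : GG) : LL →+* LL).toMonoidHom) u ∈ W 0 := by
    intro i u hu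
    induction i with
    | zero =>
      convert hu using 1
      exact Units.ext (by simp)
    | succ i ih =>
      refine ⟨⟨h.pow_map_mem (i + 1) hu.1.1, ?_⟩, fun k hk => ?_⟩
      · show V.valuation ((σ ^ (i + 1)) (u : LL)) = 1
        rw [val_map (pow_mem h.memD _)]
        exact hu.1.2
      show V.valuation (coef σ p D.θ' k ((σ ^ (i + 1)) (u : LL) - 1)) ≤ B 0
      have hz : (σ ^ i) (u : LL) - 1 ∈ localField K V :=
        sub_mem (h.pow_map_mem i hu.1.1) (one_mem _)
      rw [pow_succ', AlgEquiv.mul_apply, show σ ((σ ^ i) (u : LL)) - 1 = σ ((σ ^ i) (u : LL) - 1) by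
        rw [map_sub, map_one]]
      rcases Nat.eq_zero_or_pos k with rfl | hk0
      · rw [← h.coef_periodic D 0, show 0 + p = p - 1 + 1 by have := hp.out.pos; omega,
          h.coef_map D hz]
        exact ih.2 (p - 1) (by omega)
      · rw [show k = k - 1 + 1 by omega, h.coef_map D hz]
        exact ih.2 (k - 1) (by omega)
  have hbd : (W 0).map (bd σ) ≤ W 0 := by
    rintro _ ⟨u, hu, rfl⟩
    have h1 := mul_mem (hconj 1 u hu) (inv_mem hu)
    convert h1 using 1
    refine Units.ext ?_
    rw [coe_bd, Units.val_mul, Units.val_inv_eq_inv_val, div_eq_mul_inv]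
    simp
  have hnm : (W 0).map (nm σ p) ≤ W 0 := by
    rintro _ ⟨u, hu, rfl⟩
    rw [nm, MonoidHom.finsetProd_apply]
    exact prod_mem fun i _ => hconj i u hu
  -- approximation of fixed elements by norms
  have step0 : ∀ m, ∀ u ∈ W m, bd σ u = 1 → ∃ w ∈ W m, u / nm σ p w ∈ W (m + 1) := by
    intro m u hu hfix
    have huL : (u : LL) ∈ localField L V := (h.bd_eq_one_iff hu.1.1).1 hfix
    set x := (u : LL) - 1 with hxdef
    have hxL : x ∈ localField L V := sub_mem huL (one_mem _)
    set c := coef σ p D.θ' 0 x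
    have hcL : c ∈ localField L V := h.coef_mem D (h.localField_le hxL)
    have hcB : V.valuation c ≤ B m := hu.2 0 hp.out.pos
    have hconst : ∀ i, coef σ p D.θ' i x = c := by
      intro i
      induction i with
      | zero => rfl
      | succ i ih =>
        rw [← ih]
        conv_lhs => rw [← mem_localField.1 hxL σ h.mem]
        exact h.coef_map D (h.localField_le hxL)
    have hy : V.valuation (c * D.θ) ≤ Cv * B m := by
      rw [map_mul, mul_comm]; exact mul_le_mul' hCθ hcB
    have hw1 : V.valuation (1 + c * D.θ) = 1 := by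
      rw [Valuation.map_add_eq_of_lt_left _ (by rw [map_one]; exact hy.trans_lt (hlt m)), map_one]
    set w : LLˣ := Units.mk0 (1 + c * D.θ) (fun e => by simp [e] at hw1)
    have hwW : w ∈ W m := by
      refine ⟨⟨add_mem (one_mem _) (mul_mem (h.localField_le hcL) D.mem), hw1⟩, fun i hi => ?_⟩
      show V.valuation (coef σ p D.θ' i (1 + c * D.θ - 1)) ≤ B m
      have hg := h.coef_gen D hi hp.out.pos
      rw [pow_zero, AlgEquiv.one_apply] at hg
      rw [add_sub_cancel_left, hlin i c _ hcL, hg]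
      split_ifs <;> simp [hcB]
    refine ⟨w, hwW, ?_⟩
    have hsum : ∑ i ∈ Finset.range p, (σ ^ i) (c * D.θ) = x := by
      conv_rhs => rw [← h.expansion D (h.localField_le hxL)]
      refine Finset.sum_congr rfl fun i _ => ?_
      rw [map_mul, h.fixed_pow hcL, hconst]
    have hR : V.valuation (((nm σ p w : LLˣ) : LL) - (u : LL)) ≤ (Cv * B m) ^ 2 := by
      have h1 := val_prod_one_add (M := Cv * B m) (hlt m).le (fun i => (σ ^ i) (c * D.θ)) p
        fun i _ => by rw [val_map (pow_mem h.memD i)]; exact hy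
      rw [coe_nm, Units.val_mk0, show (u : LL) = 1 + x by rw [hxdef]; ring, ← hsum, ← sub_sub]
      simpa only [map_add, map_one] using h1
    have hNK : nm σ p w ∈ intUnits K V :=
      ⟨h.localField_le (h.nm_mem hwW.1.1), by rw [h.val_nm, hwW.1.2, one_pow]⟩
    refine ⟨div_mem hu.1 hNK, fun i hi => ?_⟩
    refine ((hcoef_le i (M := (Cv * B m) ^ 2) ?_).trans_eq ?_).trans (hsq 3 m (by omega))
    · rw [Units.val_div_eq_div_val, div_sub_one (Units.ne_zero _), map_div₀, hNK.2, div_one,
        Valuation.map_sub_swap]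
      exact hR
    · rw [mul_pow, ← mul_assoc, ← pow_succ']
  -- approximation of elements of norm one by coboundaries
  have step1 : ∀ m, ∀ u ∈ W m, nm σ p u = 1 → ∃ w ∈ W m, u / bd σ w ∈ W (m + 1) := by
    intro m u hu hN
    set x := (u : LL) - 1 with hxdef
    have hxK : x ∈ localField K V := sub_mem hu.1.1 (one_mem _)
    have hxv : V.valuation x ≤ Cv * B m := hx hu
    set c : ℕ → LL := fun i => coef σ p D.θ' i x
    have hcB : ∀ i < p, V.valuation (c i) ≤ B m := hu.2
    set d : ℕ → LL := fun i => -∑ j ∈ Finset.range i, c (j + 1)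
    have hcp : c p = c 0 := by
      show coef σ p D.θ' p x = coef σ p D.θ' 0 x
      rw [← h.coef_periodic D 0, zero_add]
    have hdB : ∀ i < p, V.valuation (d i) ≤ B m := fun i hi => by
      rw [Valuation.map_neg]
      exact Valuation.map_sum_le _ fun j hj => hcB _ (by have := Finset.mem_range.1 hj; omega)
    have hdL : ∀ i, d i ∈ localField L V := fun i => neg_mem (sum_mem fun j _ => h.coef_mem D hxK)
    set y := ∑ i ∈ Finset.range p, d i * (σ ^ i) D.θ with hydef
    have hyK : y ∈ localField K V :=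
      sum_mem fun i _ => mul_mem (h.localField_le (hdL i)) (h.pow_map_mem i D.mem)
    have hyv : V.valuation y ≤ Cv * B m := Valuation.map_sum_le _ fun i hi => by
      rw [map_mul, mul_comm]
      exact mul_le_mul' (hCθi i) (hdB i (Finset.mem_range.1 hi))
    set s := ∑ i ∈ Finset.range p, c i
    have hdp : d p = -s := by
      show -∑ j ∈ Finset.range p, c (j + 1) = -s
      rw [sum_succ_eq c hcp]
    have hσy : σ y = y + x - s * D.θ := by
      have h1 : ∀ i, σ (d i * (σ ^ i) D.θ) =
          d (i + 1) * (σ ^ (i + 1)) D.θ + c (i + 1) * (σ ^ (i + 1)) D.θ := fun i => by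
        rw [map_mul, show σ (d i) = d i by simpa using h.fixed_pow (hdL i) 1, ← AlgEquiv.mul_apply,
          ← pow_succ', ← add_mul]
        simp only [d, Finset.sum_range_succ]
        ring
      rw [hydef, map_sum, Finset.sum_congr rfl fun i _ => h1 i, Finset.sum_add_distrib,
        sum_succ_eq (fun i => c i * (σ ^ i) D.θ) (n := p) (by rw [hcp, h.period D.mem]),
        h.expansion D hxK]
      have h2 := Finset.sum_range_succ (fun i => d i * (σ ^ i) D.θ) p
      rw [Finset.sum_range_succ' (fun i => d i * (σ ^ i) D.θ) p, hdp, h.period D.mem] at h2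
      have hd0 : d 0 = 0 := by simp [d]
      rw [hd0, zero_mul, add_zero, pow_zero, AlgEquiv.one_apply] at h2
      rw [h2]
      ring
    have hw1 : V.valuation (1 + y) = 1 := by
      rw [Valuation.map_add_eq_of_lt_left _ (by rw [map_one]; exact hyv.trans_lt (hlt m)), map_one]
    set w : LLˣ := Units.mk0 (1 + y) (fun e => by simp [e] at hw1)
    have hwW : w ∈ W m := by
      refine ⟨⟨add_mem (one_mem _) hyK, hw1⟩, fun k hk => ?_⟩
      show V.valuation (coef σ p D.θ' k (1 + y - 1)) ≤ B m
      have hsumlin : coef σ p D.θ' k y =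
          ∑ i ∈ Finset.range p, coef σ p D.θ' k (d i * (σ ^ i) D.θ) := by
        simp only [hydef, coef, map_sum, Finset.sum_mul]
        exact Finset.sum_comm
      rw [add_sub_cancel_left, hsumlin, Finset.sum_eq_single k
        (fun i hi hik => by rw [hlin k _ _ (hdL i), h.coef_gen D hk (Finset.mem_range.1 hi),
          if_neg (Ne.symm hik), mul_zero])
        (fun h0 => absurd (Finset.mem_range.2 hk) h0),
        hlin k _ _ (hdL k), h.coef_gen D hk hk, if_pos rfl, mul_one]
      exact hdB k hk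
    refine ⟨w, hwW, ?_⟩
    -- the trace is small
    have htr : V.valuation (∑ t ∈ Finset.range p, (σ ^ t) x) ≤ (Cv * B m) ^ 2 := by
      have h1 := val_prod_one_add (M := Cv * B m) (hlt m).le (fun i => (σ ^ i) x) p
        fun i _ => by rw [val_map (pow_mem h.memD i)]; exact hxv
      have h2 : ∏ i ∈ Finset.range p, (1 + (σ ^ i) x) = 1 := by
        have h3 := congrArg Units.val hN
        rw [coe_nm, Units.val_one] at h3
        simpa only [hxdef, map_sub, map_one, add_sub_cancel] using h3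
      rwa [h2, sub_self, zero_sub, Valuation.map_neg] at h1
    have hs : V.valuation s ≤ Cv * (Cv * B m) ^ 2 := by
      have hT : ∀ t, ∑ i ∈ Finset.range p, (σ ^ (t + i)) D.θ' =
          ∑ i ∈ Finset.range p, (σ ^ i) D.θ' := by
        intro t
        induction t with
        | zero => simp
        | succ t ih =>
          rw [← ih, ← sum_succ_eq (fun i => (σ ^ (t + i)) D.θ') (n := p)
            (by rw [h.pow_apply_mod (t + p) D.mem', Nat.add_mod_right, add_zero,
              ← h.pow_apply_mod t D.mem'])]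
          exact Finset.sum_congr rfl fun i _ => by rw [show t + 1 + i = t + (i + 1) by omega]
      have hseq : s = (∑ t ∈ Finset.range p, (σ ^ t) x) * ∑ i ∈ Finset.range p, (σ ^ i) D.θ' := by
        simp only [s, c, coef]
        rw [Finset.sum_comm, Finset.sum_mul]
        exact Finset.sum_congr rfl fun t _ => by rw [← Finset.mul_sum, hT]
      rw [hseq, map_mul, mul_comm]
      exact mul_le_mul' (Valuation.map_sum_le _ fun i _ => hCθ'i i) htr
    have hσw : V.valuation (σ (1 + y)) = 1 := by rw [val_map h.memD, hw1]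
    have hq : bd σ w ∈ intUnits K V := ⟨h.bd_mem hwW.1.1, h.val_bd⟩
    refine ⟨div_mem hu.1 hq, fun k hk => ?_⟩
    have heq : ((u / bd σ w : LLˣ) : LL) - 1 = (s * D.θ + x * y) / σ (1 + y) := by
      rw [Units.val_div_eq_div_val, coe_bd, Units.val_mk0]
      have h0 : σ (1 + y) ≠ 0 := (map_ne_zero_iff _ σ.injective).2 w.ne_zero
      have h1 : (1 + y : LL) ≠ 0 := w.ne_zero
      field_simp
      rw [map_add, map_one, hσy, show (u : LL) = 1 + x by rw [hxdef]; ring]
      ring
    refine ((hcoef_le k (M := Cv ^ 4 * B m ^ 2) ?_).trans_eq ?_).trans (hsq 5 m le_rfl)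
    · rw [heq, map_div₀, hσw, div_one]
      refine Valuation.map_add_le _ ?_ ?_
      · rw [map_mul]
        refine (mul_le_mul' hs hCθ).trans_eq ?_
        simp only [pow_succ, pow_zero, one_mul, mul_assoc, mul_left_comm (B m), mul_comm (B m) Cv]
      · rw [map_mul]
        refine (mul_le_mul' hxv hyv).trans ?_
        calc Cv * B m * (Cv * B m) = Cv ^ 2 * B m ^ 2 := by rw [← sq, mul_pow]
          _ ≤ _ := mul_le_mul' (pow_le_pow_right' hC1 (by omega)) le_rfl
    · rw [← mul_assoc, ← pow_succ']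
  refine ⟨{ W := W, le := fun m u hu => hu.1
            anti := fun m u hu => ⟨hu.1, fun i hi => (hu.2 i hi).trans (hBanti m)⟩
            bd_le := hbd, nm_le := hnm
            deep := ⟨π ^ n₀ / C, div_ne_zero (pow_ne_zero _ hπne) hC0, fun u hu hc =>
              ⟨hu, fun i _ => (hcoef_le i hc).trans_eq ?_⟩⟩
            small := fun c hc => ?_
            step_nm := step0, step_bd := step1 }⟩
  · rw [map_div₀, map_pow, mul_comm, div_mul_cancel₀ _ ((Valuation.ne_zero_iff _).2 hC0)]
    simp [B]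
  · obtain ⟨N, hN⟩ := arch hl hV hπ1 (div_ne_zero hc hC0)
    refine ⟨N, fun u hu => (hx hu).trans ?_⟩
    have h1 := hN (n₀ + N) (Nat.le_add_left _ _)
    rw [map_div₀, le_div_iff₀ (zero_lt_one.trans_le hC1)] at h1
    rw [mul_comm]
    exact h1

end Cyc

end FLTAgent.Lowering.P1.Loc
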