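import Fermat.Agent.Lowering.P1.Local.Residue
import Fermat.Agent.Lowering.P1.Local.Kummer

/-!
# Units are norms in an unramified cyclic extension
-/

set_option autoImplicit false
set_option linter.style.haveILetI false
set_option linter.unusedSectionVars false

noncomputable section

open scoped Pointwise

namespace FLTAgent.Lowering.P1.Loc

local notation "LL" => AlgebraicClosure ℚ
local notation "GG" => (AlgebraicClosure ℚ ≃ₐ[ℚ] AlgebraicClosure ℚ)

namespace Cyc

variable {p : ℕ} [hp : Fact p.Prime] {V : ValuationSubring LL} {L K : IntermediateField ℚ LL}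
  {σ : GG} (h : Cyc p V L K σ) {l : ℕ} (hl : l.Prime) (hV : V.LiesOverPrime l)
  (hur : ∀ τ ∈ galOf L, τ ∈ V.inertiaSubgroupIn ℚ → τ ∈ galOf K)

include h hp hl hV hur

/-- The trace against powers of a moved root of unity detects the value. -/
theorem exists_detect :
    ∃ ω ∈ localField K V, V.valuation ω = 1 ∧ ∀ y : LL, y ≠ 0 → y ∈ localField K V →
      ∃ j : ℕ, V.valuation (∑ i ∈ Finset.range p, (σ ^ i) (ω ^ j * y)) = V.valuation y := by
  classical
  haveI : Fact l.Prime := ⟨hl⟩
  obtain ⟨ω, m, hm, hωm, hωK, hσω⟩ := exists_moved hl hV h.le hur h.mem h.notMem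
  have hm0 : m ≠ 0 := fun e => hm (e ▸ dvd_zero l)
  have hωE : ω ∈ localField K V := mem_localField.2 hωK
  have hωv : V.valuation ω = 1 := Mazur.valuation_root_of_unity V hm0 hωm
  set w : ℕ → LL := fun i => (σ ^ i) ω
  have hwv : ∀ i, V.valuation (w i) = 1 := fun i => (val_map (pow_mem h.memD i) _).trans hωv
  have hwm : ∀ i, w i ^ m = 1 := fun i => by rw [← map_pow, hωm, map_one]
  have hwV : ∀ i, w i ∈ V := fun i => FlatLocal.mem_of_val_le_one (hwv i).le
  have hinj : ∀ i < p, ∀ j < p, i ≠ j → V.valuation (w i - w j) = 1 := by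
    intro i hi j hj hij
    refine le_antisymm (Valuation.map_sub_le _ (hwv i).le (hwv j).le) (not_lt.1 fun hlt => ?_)
    have heq : w i = w j := eq_of_res_eq hl hV hm (hwm i) (hwm j)
      ((FlatLocal.res_eq_iff (hwV i) (hwV j)).2 hlt)
    suffices ∀ k, ¬ p ∣ k → (σ ^ k) ω ≠ ω by
      rcases Nat.lt_or_gt_of_ne hij with hlt' | hlt'
      · refine this (j - i) (fun hd => by have := Nat.le_of_dvd (by omega) hd; omega)
          ((σ ^ i).injective ?_)
        rw [← AlgEquiv.mul_apply, ← pow_add, Nat.add_sub_cancel' hlt'.le]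
        exact heq.symm
      · refine this (i - j) (fun hd => by have := Nat.le_of_dvd (by omega) hd; omega)
          ((σ ^ j).injective ?_)
        rw [← AlgEquiv.mul_apply, ← pow_add, Nat.add_sub_cancel' hlt'.le]
        exact heq
    intro k hk hfix
    refine hσω ?_
    set S := MulAction.stabilizer GG ω
    have h1 : σ ^ k ∈ S := hfix
    have h2 : σ ^ p ∈ S := by
      show (σ ^ p) ω = ω
      rw [h.period hωE, pow_zero, AlgEquiv.one_apply]
    obtain ⟨a, b, hab⟩ := Nat.isCoprime_iff_coprime.2 ((hp.out.coprime_iff_not_dvd).2 hk)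
    have h3 : σ ∈ S := by
      rw [← zpow_one σ, ← hab, zpow_add, mul_comm a, mul_comm b, zpow_mul, zpow_mul, zpow_natCast,
        zpow_natCast]
      exact mul_mem (zpow_mem h2 a) (zpow_mem h1 b)
    exact h3
  refine ⟨ω, hωE, hωv, fun y hy0 hy => ?_⟩
  have hyv : ∀ i, V.valuation ((σ ^ i) y) = V.valuation y := fun i => val_map (pow_mem h.memD i) _
  have hterm : ∀ j, V.valuation (∑ i ∈ Finset.range p, (σ ^ i) (ω ^ j * y)) ≤ V.valuation y :=
    fun j => Valuation.map_sum_le _ fun i _ => by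
      rw [map_mul, map_mul, map_pow, map_pow, show V.valuation ((σ ^ i) ω) = 1 from hwv i, one_pow,
        one_mul, hyv i]
  by_contra hall
  push Not at hall
  have key : ∀ S : Finset ℕ, ∀ j, V.valuation
      (∑ i ∈ Finset.range p, w i ^ j * (∏ a ∈ S, (w i - w a)) * (σ ^ i) y) < V.valuation y := by
    intro S
    induction S using Finset.induction with
    | empty =>
      intro j
      refine lt_of_eq_of_lt (congrArg V.valuation (Finset.sum_congr rfl fun i _ => ?_))
        (lt_of_le_of_ne (hterm j) (hall j))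
      rw [Finset.prod_empty, mul_one, map_mul, map_pow]
    | insert a S haS ih =>
      intro j
      rw [Finset.sum_congr rfl fun i _ => show w i ^ j * (∏ b ∈ insert a S, (w i - w b)) * (σ ^ i) y =
        w i ^ (j + 1) * (∏ b ∈ S, (w i - w b)) * (σ ^ i) y -
          w a * (w i ^ j * (∏ b ∈ S, (w i - w b)) * (σ ^ i) y) by
        rw [Finset.prod_insert haS]; ring, Finset.sum_sub_distrib, ← Finset.mul_sum]
      exact (Valuation.map_sub _ _ _).trans_lt
        (max_lt (ih (j + 1)) (by rw [map_mul, hwv, one_mul]; exact ih j))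
  have h0 := key ((Finset.range p).erase 0) 0
  rw [Finset.sum_eq_single 0 (fun i hi hi0 => by
      rw [Finset.prod_eq_zero (Finset.mem_erase.2 ⟨hi0, hi⟩) (sub_self _), mul_zero, zero_mul])
    (fun h' => absurd (Finset.mem_range.2 hp.out.pos) h')] at h0
  rw [map_mul, map_mul, map_prod, Finset.prod_eq_one fun a ha => hinj 0 hp.out.pos a
    (Finset.mem_range.1 (Finset.mem_of_mem_erase ha)) (Finset.ne_of_mem_erase ha).symm,
    pow_zero, map_one, one_mul, one_mul, hyv] at h0
  exact h0.false

variable [hK : FiniteDimensional ℚ K]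

include hK

theorem intUnits_sup_eq : fieldUnits K V ≤ intUnits K V ⊔ fieldUnits L V := by
  intro u hu
  obtain ⟨ω, hωE, hωv, hdet⟩ := h.exists_detect hl hV hur
  obtain ⟨j, hj⟩ := hdet (u : LL) u.ne_zero hu
  set T := ∑ i ∈ Finset.range p, (σ ^ i) (ω ^ j * (u : LL)) with hT
  have hz : ω ^ j * (u : LL) ∈ localField K V := mul_mem (pow_mem hωE j) hu
  have hTL : T ∈ localField L V := by
    refine h.mem_base (sum_mem fun i _ => h.pow_map_mem i hz) ?_
    rw [hT, map_sum]
    conv_lhs => arg 2; ext i; rw [← AlgEquiv.mul_apply, ← pow_succ']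
    exact sum_succ_eq (fun i => (σ ^ i) (ω ^ j * (u : LL))) (h.period hz)
  have hT0 : T ≠ 0 := fun e => (Valuation.ne_zero_iff _).2 u.ne_zero (by rw [← hj, e, map_zero])
  set t : LLˣ := Units.mk0 T hT0
  have htK : t ∈ fieldUnits K V := h.localField_le hTL
  rw [← div_mul_cancel u t]
  exact Subgroup.mul_mem_sup ⟨div_mem hu htK, by
    rw [Units.val_div_eq_div_val, map_div₀, Units.val_mk0, hj,
      div_self ((Valuation.ne_zero_iff _).2 u.ne_zero)]⟩ hTL

/-- The filtration by balls. -/
theorem exists_steps_unramified [hL : FiniteDimensional ℚ L] : Nonempty (Steps p V K σ) := by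
  classical
  obtain ⟨π, hπL, hπ0, hπ1, -⟩ := exists_uniformiser hl hV L
  have hπne : π ≠ 0 := fun e => by simp [e] at hπ0
  obtain ⟨ω, hωE, hωv, hdet⟩ := h.exists_detect hl hV hur
  obtain ⟨j, hj⟩ := hdet 1 one_ne_zero (one_mem _)
  set T := ∑ i ∈ Finset.range p, (σ ^ i) (ω ^ j * 1) with hT
  rw [map_one] at hj
  have hT0 : T ≠ 0 := fun e => by simp [e] at hj
  have hz : ω ^ j * 1 ∈ localField K V := mul_mem (pow_mem hωE j) (one_mem _)
  have hTL : T ∈ localField L V := by
    refine h.mem_base (sum_mem fun i _ => h.pow_map_mem i hz) ?_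
    rw [hT, map_sum]
    conv_lhs => arg 2; ext i; rw [← AlgEquiv.mul_apply, ← pow_succ']
    exact sum_succ_eq (fun i => (σ ^ i) (ω ^ j * 1)) (h.period hz)
  set t := ω ^ j * 1 / T with ht
  have htK : t ∈ localField K V := div_mem hz (h.localField_le hTL)
  have htv : ∀ i, V.valuation ((σ ^ i) t) = 1 := fun i => by
    rw [val_map (pow_mem h.memD i), ht, map_div₀, hj, mul_one, map_pow, hωv, one_pow, div_one]
  have htr : ∑ i ∈ Finset.range p, (σ ^ i) t = 1 := by
    simp only [ht, map_div₀ (σ ^ _)]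
    rw [Finset.sum_congr rfl fun i _ => by rw [h.fixed_pow hTL i], ← Finset.sum_div, div_self hT0]
  set B : ℕ → V.ValueGroup := fun m => V.valuation π ^ (m + 1)
  have hBπ : ∀ m, V.valuation (π ^ (m + 1)) = B m := fun m => map_pow _ _ _
  have hB1 : ∀ m, B m < 1 := fun m => pow_lt_one₀ zero_le hπ1 (by omega)
  have hsq : ∀ m, B m ^ 2 ≤ B (m + 1) := fun m => by
    rw [← pow_mul]; exact pow_le_pow_right_of_le_one' hπ1.le (by omega)
  let W : ℕ → Subgroup LLˣ := fun m => unitBall K V (π ^ (m + 1))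
  have hmem : ∀ {m : ℕ} {u : LLˣ}, u ∈ W m → V.valuation ((u : LL) - 1) ≤ B m :=
    fun hu => hu.2.trans_eq (hBπ _)
  have hconj : ∀ i : ℕ, ∀ u ∈ W 0, Units.map (((σ ^ i : GG) : LL →+* LL).toMonoidHom) u ∈ W 0 := by
    intro i u hu
    refine ⟨⟨h.pow_map_mem i hu.1.1, ?_⟩, ?_⟩
    · show V.valuation ((σ ^ i) (u : LL)) = 1
      rw [val_map (pow_mem h.memD i)]; exact hu.1.2
    · show V.valuation ((σ ^ i) (u : LL) - 1) ≤ _
      rw [show (σ ^ i) (u : LL) - 1 = (σ ^ i) ((u : LL) - 1) by rw [map_sub, map_one],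
        val_map (pow_mem h.memD i)]
      exact hu.2
  refine ⟨{ W := W, le := fun m u hu => hu.1
            anti := fun m u hu => ⟨hu.1, hu.2.trans (by
              rw [hBπ, hBπ]; exact pow_le_pow_right_of_le_one' hπ1.le (by omega))⟩
            bd_le := ?_, nm_le := ?_
            deep := ⟨π, hπne, fun u hu hc => ⟨hu, by simpa using hc⟩⟩
            small := fun c hc => ?_
            step_nm := ?_, step_bd := ?_ }⟩
  · rintro _ ⟨u, hu, rfl⟩
    have h1 := mul_mem (hconj 1 u hu) (inv_mem hu)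
    convert h1 using 1
    refine Units.ext ?_
    rw [coe_bd, Units.val_mul, Units.val_inv_eq_inv_val, div_eq_mul_inv]
    simp
  · rintro _ ⟨u, hu, rfl⟩
    rw [nm, MonoidHom.finsetProd_apply]
    exact prod_mem fun i _ => hconj i u hu
  · obtain ⟨N, hN⟩ := arch hl hV hπ1 hc
    exact ⟨N, fun u hu => (hmem hu).trans (hN (N + 1) (Nat.le_succ N))⟩
  · intro m u hu hfix
    have huL : (u : LL) ∈ localField L V := (h.bd_eq_one_iff hu.1.1).1 hfix
    set x := (u : LL) - 1 with hxdef
    have hxL : x ∈ localField L V := sub_mem huL (one_mem _)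
    have hy : ∀ i, V.valuation ((σ ^ i) (x * t)) ≤ B m := fun i => by
      rw [map_mul, map_mul, htv, mul_one, h.fixed_pow hxL]; exact hmem hu
    have hy0 := hy 0
    rw [pow_zero, AlgEquiv.one_apply] at hy0
    have hw1 : V.valuation (1 + x * t) = 1 := by
      rw [Valuation.map_add_eq_of_lt_left _ (by rw [map_one]; exact hy0.trans_lt (hB1 m)), map_one]
    set w : LLˣ := Units.mk0 (1 + x * t) (fun e => by simp [e] at hw1)
    have hwW : w ∈ W m := ⟨⟨add_mem (one_mem _) (mul_mem (h.localField_le hxL) htK), hw1⟩, by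
      rw [hBπ]; show V.valuation (1 + x * t - 1) ≤ B m
      rw [add_sub_cancel_left]; exact hy0⟩
    refine ⟨w, hwW, div_mem hu.1 ⟨h.localField_le (h.nm_mem hwW.1.1),
      by rw [h.val_nm, hwW.1.2, one_pow]⟩, ?_⟩
    have hsum : ∑ i ∈ Finset.range p, (σ ^ i) (x * t) = x := by
      simp only [map_mul, h.fixed_pow hxL]
      rw [← Finset.mul_sum, htr, mul_one]
    have h1 := val_prod_one_add (M := B m) (hB1 m).le (fun i => (σ ^ i) (x * t)) p fun i _ => hy i
    rw [hsum, show ∏ i ∈ Finset.range p, (1 + (σ ^ i) (x * t)) = ((nm σ p w : LLˣ) : LL) by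
      rw [coe_nm, Units.val_mk0]; simp only [map_add, map_one],
      show ((nm σ p w : LLˣ) : LL) - 1 - x = ((nm σ p w : LLˣ) : LL) - (u : LL) by
        rw [hxdef]; ring] at h1
    rw [hBπ, Units.val_div_eq_div_val, div_sub_one (Units.ne_zero _), map_div₀, h.val_nm, hwW.1.2,
      one_pow, div_one, Valuation.map_sub_swap]
    exact h1.trans (hsq m)
  · intro m u hu hN
    set x := (u : LL) - 1 with hxdef
    have hxK : x ∈ localField K V := sub_mem hu.1.1 (one_mem _)
    have hxv : ∀ i, V.valuation ((σ ^ i) x) ≤ B m := fun i => by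
      rw [val_map (pow_mem h.memD i)]; exact hmem hu
    set s := ∑ i ∈ Finset.range p, (σ ^ i) x with hsdef
    have hsv : V.valuation s ≤ B m ^ 2 := by
      have h1 := val_prod_one_add (M := B m) (hB1 m).le (fun i => (σ ^ i) x) p fun i _ => hxv i
      have h2 : ∏ i ∈ Finset.range p, (1 + (σ ^ i) x) = 1 := by
        have h3 := congrArg Units.val hN
        rw [coe_nm, Units.val_one] at h3
        simpa only [hxdef, map_sub, map_one, add_sub_cancel] using h3
      rwa [h2, sub_self, zero_sub, Valuation.map_neg] at h1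
    have hsL : s ∈ localField L V := by
      refine h.mem_base (sum_mem fun i _ => h.pow_map_mem i hxK) ?_
      rw [hsdef, map_sum]
      conv_lhs => arg 2; ext i; rw [← AlgEquiv.mul_apply, ← pow_succ']
      exact sum_succ_eq (fun i => (σ ^ i) x) (h.period hxK)
    set x' := x - s * t with hx'def
    have hx'K : x' ∈ localField K V := sub_mem hxK (mul_mem (h.localField_le hsL) htK)
    have hx'0 : ∑ i ∈ Finset.range p, (σ ^ i) x' = 0 := by
      simp only [hx'def, map_sub, map_mul, h.fixed_pow hsL]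
      rw [Finset.sum_sub_distrib, ← Finset.mul_sum, htr, mul_one, sub_self]
    have hx'v : ∀ i, V.valuation ((σ ^ i) x') ≤ B m := fun i => by
      rw [val_map (pow_mem h.memD i)]
      refine Valuation.map_sub_le _ (hmem hu) ?_
      have ht0 := htv 0
      rw [pow_zero, AlgEquiv.one_apply] at ht0
      rw [map_mul, ht0, mul_one]
      exact hsv.trans (pow_le_of_le_one zero_le (hB1 m).le two_ne_zero)
    set d : ℕ → LL := fun i => -∑ k ∈ Finset.range i, (σ ^ k) x'
    set y := ∑ i ∈ Finset.range p, d i * (σ ^ i) t with hydef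
    have hdK : ∀ i, d i ∈ localField K V := fun i => neg_mem (sum_mem fun k _ => h.pow_map_mem k hx'K)
    have hyK : y ∈ localField K V := sum_mem fun i _ => mul_mem (hdK i) (h.pow_map_mem i htK)
    have hyv : V.valuation y ≤ B m := Valuation.map_sum_le _ fun i _ => by
      rw [map_mul, htv, mul_one, Valuation.map_neg]
      exact Valuation.map_sum_le _ fun k _ => hx'v k
    have hσy : σ y = y + x' := by
      have h1 : ∀ i, σ (d i * (σ ^ i) t) =
          d (i + 1) * (σ ^ (i + 1)) t + x' * (σ ^ (i + 1)) t := fun i => by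
        rw [map_mul, ← AlgEquiv.mul_apply σ (σ ^ i), ← pow_succ', ← add_mul]
        simp only [d, map_neg, map_sum]
        rw [Finset.sum_range_succ' (fun k => (σ ^ k) x'), pow_zero, AlgEquiv.one_apply]
        simp only [pow_succ' σ, AlgEquiv.mul_apply]
        ring
      rw [hydef, map_sum, Finset.sum_congr rfl fun i _ => h1 i, Finset.sum_add_distrib,
        sum_succ_eq (fun i => x' * (σ ^ i) t) (n := p) (by rw [h.period htK]),
        ← Finset.mul_sum, htr, mul_one]
      have h2 := Finset.sum_range_succ (fun i => d i * (σ ^ i) t) p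
      rw [Finset.sum_range_succ' (fun i => d i * (σ ^ i) t) p,
        show d p = 0 from neg_eq_zero.2 hx'0, show d 0 = 0 by simp [d], zero_mul, zero_mul,
        add_zero, add_zero] at h2
      rw [h2]
    have hw1 : V.valuation (1 + y) = 1 := by
      rw [Valuation.map_add_eq_of_lt_left _ (by rw [map_one]; exact hyv.trans_lt (hB1 m)), map_one]
    set w : LLˣ := Units.mk0 (1 + y) (fun e => by simp [e] at hw1)
    have hwW : w ∈ W m := ⟨⟨add_mem (one_mem _) hyK, hw1⟩, by
      rw [hBπ]; show V.valuation (1 + y - 1) ≤ B m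
      rw [add_sub_cancel_left]; exact hyv⟩
    refine ⟨w, hwW, div_mem hu.1 ⟨h.bd_mem hwW.1.1, h.val_bd⟩, ?_⟩
    have h0 : σ (1 + y) ≠ 0 := (map_ne_zero_iff _ σ.injective).2 w.ne_zero
    have heq : ((u / bd σ w : LLˣ) : LL) - 1 = (s * t + x * y) / σ (1 + y) := by
      rw [Units.val_div_eq_div_val, coe_bd, Units.val_mk0]
      have h1 : (1 + y : LL) ≠ 0 := w.ne_zero
      field_simp
      rw [map_add, map_one, hσy, show (u : LL) = 1 + x by rw [hxdef]; ring, hx'def]
      ring
    rw [hBπ, heq, map_div₀, val_map h.memD, hw1, div_one]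
    have ht0 := htv 0
    rw [pow_zero, AlgEquiv.one_apply] at ht0
    refine Valuation.map_add_le _ ?_ ?_
    · rw [map_mul, ht0, mul_one]; exact hsv.trans (hsq m)
    · rw [map_mul]; exact (mul_le_mul' (hmem hu) hyv).trans (((sq _).symm.le).trans (hsq m))

end Cyc

theorem targetUnitNorm : LocalUnitNorm := by
  intro p hp L K hL hK hLK hconj hidx l V hl hV hur b hb hb0 hbV hbV'
  haveI := hL
  haveI := hK
  by_cases hsplit : galOf L ⊓ V.decompositionSubgroup ℚ ≤ galOf K
  · exact ⟨1, one_ne_zero, fun σ _ => map_one _, fun σ hσ hσK => absurd (hsplit hσ) hσK⟩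
  obtain ⟨σ, hσ, hσK⟩ := SetLike.not_le_iff_exists.1 hsplit
  have h : Cyc p V L K σ := ⟨hLK, hconj, hidx, hσ, hσK⟩
  obtain ⟨S⟩ := h.exists_steps_unramified hl hV hur
  have hone : ((intUnits K V).map (nm σ p)).relIndex (intUnits K V ⊓ (bd σ).ker) = 1 := by
    rw [h.herbrand S hl hV, h.relIndex_bd hl hV, Subgroup.relIndex_eq_one]
    exact h.intUnits_sup_eq hl hV hur
  have hvb : V.valuation b = 1 := by
    refine le_antisymm ((V.valuation_le_one_iff b).2 hbV) ?_
    have h1 := (V.valuation_le_one_iff b⁻¹).2 hbV'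
    rw [map_inv₀] at h1
    exact (inv_le_one₀ (Mazur.valuation_pos V hb0)).1 h1
  have hmem : Units.mk0 b hb0 ∈ intUnits K V ⊓ (bd σ).ker := by
    rw [h.intUnits_inf_ker hl hV]
    exact ⟨hb, hvb⟩
  obtain ⟨w, hw, hwb⟩ := Subgroup.relIndex_eq_one.1 hone hmem
  have := h.isNormOn hw.1
  rwa [hwb, Units.val_mk0] at this

end FLTAgent.Lowering.P1.Loc
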