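import Fermat.Agent.Lowering.P1.Local.UnitNorm

/-!
# The local input of the Galois cohomology package
-/

set_option autoImplicit false
set_option linter.style.haveILetI false
set_option linter.unusedSectionVars false

noncomputable section

open scoped Pointwise

namespace FLTAgent.Lowering.P1.Loc

local notation "LL" => AlgebraicClosure ℚ
local notation "GG" => (AlgebraicClosure ℚ ≃ₐ[ℚ] AlgebraicClosure ℚ)

/-- In a group with a subgroup of prime index everything is killed by a power of any outside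
element. -/
theorem exists_pow_mul_mem {A : Type*} [CommGroup A] {G N : Subgroup A} {p : ℕ} [hp : Fact p.Prime]
    (hidx : N.relIndex G = p) {a b : A} (ha : a ∈ G) (haN : a ∉ N) (hb : b ∈ G) :
    ∃ i < p, b * a ^ i ∈ N := by
  have hcard : Nat.card (G ⧸ N.subgroupOf G) = p := hidx
  haveI : Finite (G ⧸ N.subgroupOf G) :=
    Nat.finite_of_card_ne_zero (by rw [hcard]; exact hp.out.ne_zero)
  set s : G ⧸ N.subgroupOf G := QuotientGroup.mk ⟨a, ha⟩
  have hs : s ≠ 1 := fun e => haN (Subgroup.mem_subgroupOf.1 ((QuotientGroup.eq_one_iff _).1 e))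
  have hord : orderOf s = p := by
    rcases (Nat.dvd_prime hp.out).1 (hcard ▸ orderOf_dvd_natCard s) with h1 | h1
    · exact absurd (orderOf_eq_one_iff.1 h1) hs
    · exact h1
  have hmem : (QuotientGroup.mk ⟨b, hb⟩)⁻¹ ∈ Subgroup.zpowers s := mem_zpowers_of_prime_card hcard hs
  obtain ⟨k, hk⟩ := Subgroup.mem_zpowers_iff.1 hmem
  refine ⟨(k % p).toNat, (Int.toNat_lt (Int.emod_nonneg k (by exact_mod_cast hp.out.ne_zero))).2
    (Int.emod_lt_of_pos k (by exact_mod_cast hp.out.pos)), ?_⟩
  rw [← zpow_mod_orderOf, hord, ← Int.toNat_of_nonneg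
    (Int.emod_nonneg k (by exact_mod_cast hp.out.ne_zero)), zpow_natCast, eq_inv_iff_mul_eq_one,
    mul_comm, ← QuotientGroup.mk_pow, ← QuotientGroup.mk_mul, QuotientGroup.eq_one_iff] at hk
  exact hk

theorem targetIndex : LocalIndex := by
  intro p hp L K hL hK hLK hζ hconj hidx l V hl hV hns
  haveI := hL
  haveI := hK
  obtain ⟨σ, hσ, hσK⟩ := SetLike.not_le_iff_exists.1 hns
  have h : Cyc p V L K σ := ⟨hLK, hconj, hidx, hσ, hσK⟩
  obtain ⟨ζ, hζL, hζ⟩ := hζ
  obtain ⟨D⟩ := h.exists_dual hζL hζ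
  obtain ⟨S⟩ := h.exists_steps D hl hV
  have hindex := h.relIndex_nm hl hV (h.herbrand S hl hV)
  set N := (fieldUnits K V).map (nm σ p)
  set F := fieldUnits L V
  obtain ⟨x, hx, hxN⟩ : ∃ x ∈ F, x ∉ N := by
    by_contra hall
    push Not at hall
    rw [Subgroup.relIndex_eq_one.2 hall] at hindex
    exact hp.out.one_lt.ne hindex
  have hp0 : (p : LL) ≠ 0 := Nat.cast_ne_zero.2 hp.out.ne_zero
  have hl0 : (l : LL) ≠ 0 := Nat.cast_ne_zero.2 hl.ne_zero
  obtain ⟨a, haL, hax⟩ := targetDense L hL l V hl hV (x : LL) hx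
    ((x : LL) * (l * p ^ 2 : ℕ)) (mul_ne_zero x.ne_zero (Nat.cast_ne_zero.2 (by
      exact mul_ne_zero hl.ne_zero (pow_ne_zero _ hp.out.ne_zero))))
  have hnear : V.valuation (a / (x : LL) - 1) ≤ V.valuation ((l * p ^ 2 : ℕ) : LL) := by
    rw [div_sub_one x.ne_zero, map_div₀, div_le_iff₀ (Mazur.valuation_pos V x.ne_zero), ← map_mul,
      mul_comm, Valuation.map_sub_swap]
    exact hax
  obtain ⟨y, hyL, hy, hy1⟩ := root_mem_localField (L := L) hl hV hp.out.pos
    (div_mem (le_localField L V haL) hx) hnear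
  have hy0 : y ≠ 0 := fun e => by
    have hlt : V.valuation (l * p : LL) < 1 := by
      rw [map_mul]
      exact lt_of_le_of_lt (mul_le_of_le_one_right' (val_natCast_le_one p))
        (Mazur.valuation_natCast_lt_one V hV)
    have := val_eq_one_of_near hlt hy1
    simp [e] at this
  have ha0 : a ≠ 0 := fun e => by
    rw [e, zero_div] at hy
    exact hy0 (pow_eq_zero_iff hp.out.ne_zero |>.1 hy)
  set au : LLˣ := Units.mk0 a ha0
  set yu : LLˣ := Units.mk0 y hy0
  have hyF : yu ∈ F := hyL
  have hau : au ∉ N := by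
    intro hmem
    refine hxN ?_
    have e : x = au / nm σ p yu := by
      rw [h.nm_of_mem_base hyF]
      refine Units.ext ?_
      rw [Units.val_div_eq_div_val, Units.val_pow_eq_pow_val, Units.val_mk0, Units.val_mk0, hy]
      field_simp
    rw [e]
    exact div_mem hmem ⟨yu, h.localField_le hyL, rfl⟩
  have haF : au ∈ F := le_localField L V haL
  refine ⟨a, haL, ha0, fun hnorm => ?_, fun b hb hb0 => ?_⟩
  · obtain ⟨u, hu, hua⟩ := h.exists_of_isNormOn hnorm
    exact hau ⟨u, hu, Units.ext hua⟩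
  · obtain ⟨i, hi, u, hu, hua⟩ := exists_pow_mul_mem hindex haF hau (b := Units.mk0 b hb0) hb
    refine ⟨i, hi, ?_⟩
    have h1 := h.isNormOn hu
    rwa [hua, Units.val_mul, Units.val_pow_eq_pow_val, Units.val_mk0, Units.val_mk0] at h1

end FLTAgent.Lowering.P1.Loc

namespace FLTAgent.Lowering.P1

/-- **The local package.** -/
theorem targetLocal : TargetLocal :=
  { galois := Loc.targetGalois
    dense := Loc.targetDense
    root := Loc.targetRoot
    index := Loc.targetIndex
    unitNorm := Loc.targetUnitNorm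
    powerIndex := Loc.targetPowerIndex
    approx := Loc.targetApprox
    unramified := Loc.targetUnramified }

end FLTAgent.Lowering.P1
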