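import Fermat.Agent.Lowering.P1.Local.Basic

/-!
# Simultaneous approximation and density of a number field in its local fields
-/

set_option autoImplicit false
set_option linter.style.haveILetI false

noncomputable section

open scoped Pointwise

namespace FLTAgent.Lowering.P1.Loc

open FLTAgent.Frobenius (centre mem_centre_iff integralClosure_le)
open IsLocalRing

local notation "LL" => AlgebraicClosure ℚ
local notation "GG" => (AlgebraicClosure ℚ ≃ₐ[ℚ] AlgebraicClosure ℚ)
local notation "ZB" => integralClosure ℤ (AlgebraicClosure ℚ)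

local instance (priority := 2000) algLevel (L : IntermediateField ℚ (AlgebraicClosure ℚ)) :
    Algebra ℚ L := L.algebra'

local instance isAlgebraicLL : Algebra.IsAlgebraic ℚ LL := AlgebraicClosure.isAlgebraic ℚ
local instance isAlgClosureLL : IsAlgClosure ℚ LL := ⟨inferInstance, inferInstance⟩
local instance normalLL : Normal ℚ LL := IsAlgClosure.normal ℚ _
local instance isGaloisLL : IsGalois ℚ LL where

noncomputable local instance : TopologicalSpace ZB := ⊥
local instance : DiscreteTopology ZB := ⟨rfl⟩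

local instance continuousSMulIntegers : ContinuousSMul GG ZB := by
  rw [continuousSMul_iff_stabilizer_isOpen]
  intro b
  have : MulAction.stabilizer GG b = MulAction.stabilizer GG (b : LL) := by
    ext g
    simp only [MulAction.mem_stabilizer_iff, Subtype.ext_iff, integralClosure.coe_smul]
  rw [this]
  exact stabilizer_isOpen_of_isIntegral (b : LL)

theorem smul_val_le_iff (g : GG) {V W : ValuationSubring LL} (e : g • V = W) (x y : LL) :
    W.valuation (g x) ≤ W.valuation (g y) ↔ V.valuation x ≤ V.valuation y := by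
  subst e
  rcases eq_or_ne y 0 with rfl | hy
  · simp
  have hy' : g y ≠ 0 := (map_ne_zero_iff _ g.injective).2 hy
  rw [← div_le_one₀ (Mazur.valuation_pos (g • V) hy'), ← div_le_one₀ (Mazur.valuation_pos V hy),
    ← map_div₀, ← map_div₀, ← map_div₀, ValuationSubring.valuation_le_one_iff,
    ValuationSubring.valuation_le_one_iff]
  exact ValuationSubring.smul_mem_pointwise_smul_iff

theorem map_mem_of_isGalois {N : IntermediateField ℚ LL} [IsGalois ℚ N] (σ : GG) {x : LL}
    (hx : x ∈ N) : σ x ∈ N := by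
  haveI : Normal ℚ N := IsGalois.to_normal
  have h := AlgEquiv.restrictNormalHom_apply N σ ⟨x, hx⟩
  rw [← h]
  exact SetLike.coe_mem _

/-- Places with the same centre on the numbers fixed by a closed group are conjugate. -/
theorem exists_smul_eq_of_centre {H : Subgroup GG} (hH : IsClosed (H : Set GG))
    {V W : ValuationSubring LL}
    (h : ∀ b : ZB, (∀ σ ∈ H, σ • b = b) → (b ∈ centre V ↔ b ∈ centre W)) :
    ∃ σ ∈ H, σ • V = W := by
  let B₀ := FixedPoints.subalgebra ℤ ZB H
  haveI : Algebra.IsInvariant B₀ ZB H := ⟨fun b hb ↦ ⟨⟨b, hb⟩, rfl⟩⟩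
  haveI : CompactSpace H := isCompact_iff_compactSpace.mp hH.isCompact
  haveI hsmulC : SMulCommClass H B₀ ZB := ⟨fun k b x ↦ by
    change k • ((b : ZB) * x) = (b : ZB) * k • x
    rw [smul_mul', b.2 k]⟩
  haveI hcont : ContinuousSMul H ZB :=
    ⟨(continuous_smul (M := GG) (X := ZB)).comp
      ((continuous_subtype_val.comp continuous_fst).prodMk continuous_snd)⟩
  obtain ⟨k, hk⟩ := Algebra.IsInvariant.exists_smul_of_under_eq_of_profinite (A := B₀) (G := H)
    (centre V) (centre W) (by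
      ext b
      exact h b fun σ hσ => b.2 ⟨σ, hσ⟩)
  exact ⟨k, k.2, Places.eq_of_centre_eq ((Places.centre_smul V k).trans hk.symm)⟩

section Prime

variable {l : ℕ} {V : ValuationSubring LL}

theorem exists_pow_sub_one_lt (hl : l.Prime) (hV : V.LiesOverPrime l) {x : LL}
    (hx : V.valuation x = 1) : ∃ m, ¬ l ∣ m ∧ V.valuation (x ^ m - 1) < 1 := by
  haveI : Fact l.Prime := ⟨hl⟩
  have hxV : x ∈ V := (V.valuation_le_one_iff x).1 hx.le
  obtain ⟨m, hm, hxm⟩ := Carayol.exists_pow_eq_one_residue hV (FlatLocal.res_ne_zero hx)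
  refine ⟨m, hm, ?_⟩
  rw [← FlatLocal.res_eq_iff (pow_mem hxV m) (one_mem _), FlatLocal.res_pow hxV, hxm,
    FlatLocal.res_one]

/-- Powers of a number congruent to one tend to one. -/
theorem exists_pow_near_one (hl : l.Prime) (hV : V.LiesOverPrime l) {x ε : LL}
    (hx : V.valuation (x - 1) < 1) (hε : ε ≠ 0) :
    ∃ N, ∀ n, N ≤ n → V.valuation (x ^ l ^ n - 1) ≤ V.valuation ε := by
  obtain ⟨c, hc, hcl, hcx⟩ : ∃ c : LL, V.valuation c < 1 ∧
      V.valuation (l : LL) ≤ V.valuation c ∧ V.valuation (x - 1) ≤ V.valuation c := by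
    rcases le_total (V.valuation (l : LL)) (V.valuation (x - 1)) with h | h
    · exact ⟨x - 1, hx, h, le_rfl⟩
    · exact ⟨l, Mazur.valuation_natCast_lt_one V hV, le_rfl, h⟩
  have key : ∀ n, V.valuation (x ^ l ^ n - 1) ≤ V.valuation c ^ (n + 1) := by
    intro n
    induction n with
    | zero => simpa using hcx
    | succ n ih =>
      rw [pow_succ l n, pow_mul]
      refine (val_pow_sub_one_le (ih.trans (pow_le_one' hc.le _)) l).trans (max_le ?_ ?_)
      · rw [map_mul, pow_succ' _ (n + 1)]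
        exact mul_le_mul' hcl ih
      · refine (pow_le_pow_left₀ zero_le ih 2).trans ?_
        rw [← pow_mul]
        exact pow_le_pow_right_of_le_one' hc.le (by omega)
  obtain ⟨N, hN⟩ := arch hl hV hc hε
  exact ⟨N, fun n hn => (key n).trans (hN _ (by omega))⟩

end Prime

/-- The places are over primes. -/
def OverPrimes (R : Finset (ValuationSubring LL)) : Prop :=
  ∀ V ∈ R, ∃ l : ℕ, l.Prime ∧ V.LiesOverPrime l

/-- Two places are in the same orbit of a subgroup. -/
def SameOrbit (H : Subgroup GG) (V W : ValuationSubring LL) : Prop := ∃ σ ∈ H, σ • V = W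

/-- An integer fixed by `H` in the centre of `W` and outside that of `V`. -/
theorem exists_separating {H : Subgroup GG} (hH : IsClosed (H : Set GG))
    {V W : ValuationSubring LL} {l l' : ℕ} (hl : l.Prime) (hV : V.LiesOverPrime l)
    (hl' : l'.Prime) (hW : W.LiesOverPrime l') (hne : ¬ SameOrbit H V W) :
    ∃ b : ZB, (∀ σ ∈ H, σ • b = b) ∧ b ∈ centre W ∧ b ∉ centre V := by
  rcases eq_or_ne l l' with rfl | hll
  · haveI : Fact l.Prime := ⟨hl⟩
    by_contra hall
    push Not at hall
    refine hne (exists_smul_eq_of_centre hH fun b hb => ⟨fun hbV => ?_, hall b hb⟩)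
    by_contra hbW
    obtain ⟨m, hm, hlt⟩ := exists_pow_sub_one_lt hl hW (Mazur.valuation_eq_one_of_notMem W hbW)
    have h1 : b ^ m - 1 ∈ centre W :=
      (mem_centre_iff W).2 (W.mem_nonunits_iff.2 (by push_cast; exact hlt))
    have h2 := hall _ (fun σ hσ => by rw [smul_sub, smul_pow', hb σ hσ, smul_one]) h1
    have hm0 : m ≠ 0 := fun e => hm (e ▸ dvd_zero l)
    exact (Ideal.IsPrime.ne_top inferInstance : centre V ≠ ⊤)
      ((Ideal.eq_top_iff_one _).2 (by
        simpa using sub_mem (Ideal.pow_mem_of_mem _ hbV m (Nat.pos_of_ne_zero hm0)) h2))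
  · refine ⟨(l' : ZB), fun σ _ => ?_, Places.natCast_mem_centre W hW, fun h => ?_⟩
    · exact map_natCast (MulSemiringAction.toRingHom GG ZB σ) l'
    · obtain ⟨a, b, hab⟩ := (Nat.isCoprime_iff_coprime.2 ((Nat.coprime_primes hl hl').2 hll))
      refine (Ideal.IsPrime.ne_top inferInstance : centre V ≠ ⊤) ((Ideal.eq_top_iff_one _).2 ?_)
      rw [show (1 : ZB) = (a : ZB) * (l : ZB) + (b : ZB) * (l' : ZB) by exact_mod_cast hab.symm]
      exact add_mem (Ideal.mul_mem_left _ _ (Places.natCast_mem_centre V hV))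
        (Ideal.mul_mem_left _ _ h)

theorem mem_fixedField_of_smul {H : Subgroup GG} {b : ZB} (h : ∀ σ ∈ H, σ • b = b) :
    (b : LL) ∈ IntermediateField.fixedField H :=
  (IntermediateField.mem_fixedField_iff _ _).2 fun σ hσ => congrArg Subtype.val (h σ hσ)

/-- An element close to one at one place and close to zero at the others. -/
theorem exists_idempotent {H : Subgroup GG} (hH : IsClosed (H : Set GG))
    {R : Finset (ValuationSubring LL)} (hR : OverPrimes R)
    (hne : ∀ V ∈ R, ∀ W ∈ R, SameOrbit H V W → V = W) {V : ValuationSubring LL} (hV : V ∈ R)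
    (t : ValuationSubring LL → LL) (ht : ∀ W ∈ R, t W ≠ 0) :
    ∃ e ∈ IntermediateField.fixedField H, V.valuation (e - 1) ≤ V.valuation (t V) ∧
      ∀ W ∈ R, W ≠ V → W.valuation e ≤ W.valuation (t W) := by
  classical
  obtain ⟨l, hl, hVl⟩ := hR V hV
  have hsep : ∀ W ∈ R.erase V, ∃ b : ZB, (∀ σ ∈ H, σ • b = b) ∧ b ∈ centre W ∧ b ∉ centre V := by
    intro W hW
    obtain ⟨hWV, hWR⟩ := Finset.mem_erase.1 hW
    obtain ⟨l', hl', hWl⟩ := hR W hWR
    exact exists_separating hH hl hVl hl' hWl fun h => hWV (hne V hV W hWR h).symm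
  choose! b hb1 hb2 hb3 using hsep
  set B : ZB := ∏ W ∈ R.erase V, b W with hB
  have hBfix : ∀ σ ∈ H, σ • B = B := fun σ hσ => by
    rw [hB, Finset.smul_prod']
    exact Finset.prod_congr rfl fun W hW => hb1 W hW σ hσ
  have hBV : V.valuation (B : LL) = 1 := by
    refine Mazur.valuation_eq_one_of_notMem V fun h => ?_
    obtain ⟨W, hW, hW'⟩ := Ideal.IsPrime.prod_mem_iff.1 h
    exact hb3 W hW hW'
  obtain ⟨m, hm, hlt⟩ := exists_pow_sub_one_lt hl hVl hBV
  have hm0 : m ≠ 0 := fun e => hm (e ▸ dvd_zero l)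
  obtain ⟨N₀, hN₀⟩ := exists_pow_near_one hl hVl hlt (ht V hV)
  have hN : ∀ W ∈ R.erase V, ∃ N, ∀ n, N ≤ n →
      W.valuation (B : LL) ^ n ≤ W.valuation (t W) := by
    intro W hW
    obtain ⟨l', hl', hWl⟩ := hR W (Finset.mem_of_mem_erase hW)
    exact arch hl' hWl (W.mem_nonunits_iff.1 ((mem_centre_iff W).1 (Ideal.prod_mem _ hW (hb2 W hW))))
      (ht W (Finset.mem_of_mem_erase hW))
  choose! N hN using hN
  set n := max N₀ ((R.erase V).sup N)
  refine ⟨((B : LL) ^ m) ^ l ^ n, pow_mem (pow_mem (mem_fixedField_of_smul hBfix) m) _,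
    hN₀ n (le_max_left _ _), fun W hW hWV => ?_⟩
  rw [← pow_mul, map_pow]
  refine hN W (Finset.mem_erase.2 ⟨hWV, hW⟩) _ ?_
  calc N W ≤ n := (Finset.le_sup (Finset.mem_erase.2 ⟨hWV, hW⟩)).trans (le_max_right _ _)
    _ ≤ l ^ n := (Nat.lt_pow_self hl.one_lt).le
    _ ≤ m * l ^ n := Nat.le_mul_of_pos_left _ (Nat.pos_of_ne_zero hm0)

/-- Approximation by numbers fixed by a group, at places in different orbits. -/
theorem exists_approx {H : Subgroup GG} (hH : IsClosed (H : Set GG))
    {R : Finset (ValuationSubring LL)} (hR : OverPrimes R)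
    (hne : ∀ V ∈ R, ∀ W ∈ R, SameOrbit H V W → V = W)
    (c t : ValuationSubring LL → LL) (hc : ∀ V ∈ R, c V ∈ IntermediateField.fixedField H)
    (ht : ∀ V ∈ R, t V ≠ 0) :
    ∃ y ∈ IntermediateField.fixedField H,
      ∀ V ∈ R, V.valuation (y - c V) ≤ V.valuation (t V) := by
  classical
  have he : ∀ V ∈ R, ∃ e ∈ IntermediateField.fixedField H,
      (c V ≠ 0 → V.valuation (e - 1) ≤ V.valuation (t V / c V) ∧
        ∀ W ∈ R, W ≠ V → W.valuation e ≤ W.valuation (t W / c V)) := by
    intro V hV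
    by_cases h : c V = 0
    · exact ⟨0, zero_mem _, fun h' => absurd h h'⟩
    · obtain ⟨e, he, h1, h2⟩ :=
        exists_idempotent hH hR hne hV (fun W => t W / c V) fun W hW => div_ne_zero (ht W hW) h
      exact ⟨e, he, fun _ => ⟨h1, h2⟩⟩
  choose! e he hspec using he
  refine ⟨∑ W ∈ R, e W * c W, sum_mem fun W hW => mul_mem (he W hW) (hc W hW), fun V hV => ?_⟩
  rw [← Finset.add_sum_erase _ _ hV,
    show e V * c V + (∑ W ∈ R.erase V, e W * c W) - c V =
      (e V - 1) * c V + ∑ W ∈ R.erase V, e W * c W by ring]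
  refine Valuation.map_add_le _ ?_ (Valuation.map_sum_le _ fun W hW => ?_)
  · by_cases h : c V = 0
    · simp [h]
    · have := (hspec V hV h).1
      rw [map_div₀, le_div_iff₀ (Mazur.valuation_pos V h)] at this
      rwa [map_mul]
  · obtain ⟨hWV, hWR⟩ := Finset.mem_erase.1 hW
    by_cases h : c W = 0
    · simp [h]
    · have := (hspec W hWR h).2 V hV hWV.symm
      rw [map_div₀, le_div_iff₀ (Mazur.valuation_pos V h)] at this
      rwa [map_mul]

/-- The same without assumption on the orbits, for compatible targets. -/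
theorem exists_approx_family {H : Subgroup GG} (hH : IsClosed (H : Set GG)) {ι : Type} [Fintype ι]
    (W : ι → ValuationSubring LL) (hW : ∀ i, ∃ l : ℕ, l.Prime ∧ (W i).LiesOverPrime l)
    (c t : ι → LL) (hc : ∀ i, c i ∈ IntermediateField.fixedField H)
    (hcompat : ∀ i j, SameOrbit H (W i) (W j) → c i = c j) (ht : ∀ i, t i ≠ 0) :
    ∃ y ∈ IntermediateField.fixedField H,
      ∀ i, (W i).valuation (y - c i) ≤ (W i).valuation (t i) := by
  classical
  let st : Setoid ι :=
    { r := fun i j => SameOrbit H (W i) (W j)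
      iseqv :=
        ⟨fun i => ⟨1, one_mem _, one_smul _ _⟩,
          fun {i j} ⟨σ, hσ, e⟩ => ⟨σ⁻¹, inv_mem hσ, by rw [← e, inv_smul_smul]⟩,
          fun {i j k} ⟨σ, hσ, e⟩ ⟨τ, hτ, e'⟩ => ⟨τ * σ, mul_mem hτ hσ, by rw [mul_smul, e, e']⟩⟩ }
  let rep : ι → ι := fun i => (Quotient.mk st i).out
  have hrep : ∀ i, ∃ σ ∈ H, σ • W (rep i) = W i := fun i => Quotient.mk_out (s := st) i
  choose g hg hge using hrep
  -- tolerances at the representatives, all integral
  have htol : ∀ i, ∃ u : LL, u ≠ 0 ∧ (W (rep i)).valuation u ≤ 1 ∧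
      (W (rep i)).valuation u ≤ (W (rep i)).valuation ((g i)⁻¹ (t i)) := by
    intro i
    rcases le_total ((W (rep i)).valuation ((g i)⁻¹ (t i))) 1 with h | h
    · exact ⟨_, (map_ne_zero_iff _ ((g i)⁻¹).injective).2 (ht i), h, le_rfl⟩
    · exact ⟨1, one_ne_zero, by simp, by simpa using h⟩
  choose u hu0 hu1 hu2 using htol
  let R : Finset (ValuationSubring LL) := Finset.univ.image fun i => W (rep i)
  let T : ValuationSubring LL → LL := fun P => ∏ i with W (rep i) = P, u i
  have hclass : ∀ i j, SameOrbit H (W (rep i)) (W (rep j)) → rep i = rep j := by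
    intro i j h
    show (Quotient.mk st i).out = (Quotient.mk st j).out
    have := Quotient.sound (s := st) h
    simp only [rep, Quotient.out_eq] at this
    rw [this]
  let C : ValuationSubring LL → LL := fun P =>
    if h : ∃ i, W (rep i) = P then c (rep h.choose) else 0
  obtain ⟨y, hy, hy'⟩ := exists_approx hH (R := R)
    (fun P hP => by obtain ⟨i, -, rfl⟩ := Finset.mem_image.1 hP; exact hW _)
    (fun P hP Q hQ h => by
      obtain ⟨i, -, rfl⟩ := Finset.mem_image.1 hP
      obtain ⟨j, -, rfl⟩ := Finset.mem_image.1 hQ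
      rw [hclass i j h])
    C T (fun P _ => by
      simp only [C]
      split_ifs
      · exact hc _
      · exact zero_mem _)
    (fun P _ => Finset.prod_ne_zero_iff.2 fun i _ => hu0 i)
  refine ⟨y, hy, fun i => ?_⟩
  have hC : C (W (rep i)) = c i := by
    have hex : ∃ j, W (rep j) = W (rep i) := ⟨i, rfl⟩
    simp only [C, dif_pos hex]
    refine hcompat _ _ ⟨g i, hg i, ?_⟩
    rw [hex.choose_spec, hge]
  have hT : (W (rep i)).valuation (T (W (rep i))) ≤ (W (rep i)).valuation ((g i)⁻¹ (t i)) := by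
    have hi : i ∈ Finset.univ.filter fun j => W (rep j) = W (rep i) :=
      Finset.mem_filter.2 ⟨Finset.mem_univ i, rfl⟩
    rw [map_prod, ← Finset.mul_prod_erase _ _ hi]
    refine (mul_le_of_le_one_right' (Finset.prod_le_one' fun j hj => ?_)).trans (hu2 i)
    rw [← (Finset.mem_filter.1 (Finset.mem_of_mem_erase hj)).2]
    exact hu1 j
  have h := (hy' _ (Finset.mem_image.2 ⟨i, Finset.mem_univ i, rfl⟩)).trans hT
  rw [hC] at h
  have hfix : ∀ x ∈ IntermediateField.fixedField H, g i x = x := fun x hx =>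
    (IntermediateField.mem_fixedField_iff _ _).1 hx _ (hg i)
  have h' := (smul_val_le_iff (g i) (hge i) _ _).2 h
  rw [map_sub, hfix y hy, hfix _ (hc i)] at h'
  rwa [← AlgEquiv.mul_apply, mul_inv_cancel, AlgEquiv.one_apply] at h'

theorem exists_galois_level (L : IntermediateField ℚ LL) [FiniteDimensional ℚ L] (s : Finset LL) :
    ∃ N : IntermediateField ℚ LL, FiniteDimensional ℚ N ∧ IsGalois ℚ N ∧ L ≤ N ∧ ∀ x ∈ s, x ∈ N := by
  set M : IntermediateField ℚ LL := L ⊔ IntermediateField.adjoin ℚ (s : Set LL)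
  haveI : FiniteDimensional ℚ (IntermediateField.adjoin ℚ (s : Set LL)) :=
    IntermediateField.finiteDimensional_adjoin fun x _ =>
      ((AlgebraicClosure.isAlgebraic ℚ).isAlgebraic x).isIntegral
  haveI : FiniteDimensional ℚ M := IntermediateField.finiteDimensional_sup _ _
  refine ⟨IntermediateField.normalClosure ℚ M LL, normalClosure.is_finiteDimensional ℚ _ _,
    IsGalois.normalClosure ℚ _ _, le_sup_left.trans (IntermediateField.le_normalClosure M),
    fun x hx => IntermediateField.le_normalClosure M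
      ((le_sup_right : _ ≤ M) (IntermediateField.subset_adjoin ℚ _ (Finset.mem_coe.2 hx)))⟩

theorem targetApprox : LocalApprox := by
  intro L hL R hR hne z hz ε hε
  classical
  haveI := hL
  obtain ⟨N, hNfin, hNgal, hLN, hzN⟩ := exists_galois_level L (R.image z)
  haveI := hNfin
  haveI := hNgal
  set U : Subgroup GG := N.fixingSubgroup with hU
  haveI hUn : U.Normal := (InfiniteGalois.normal_iff_isGalois N).mpr hNgal
  have hUc : IsClosed (U : Set GG) := InfiniteGalois.fixingSubgroup_isClosed N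
  have hUfix : IntermediateField.fixedField U = N := InfiniteGalois.fixedField_fixingSubgroup N
  have hUL : U ≤ galOf L := IntermediateField.fixingSubgroup_antitone hLN
  haveI : Finite (GG ⧸ U) := Subgroup.quotient_finite_of_isOpen _ N.fixingSubgroup_isOpen
  haveI := Fintype.ofFinite (GG ⧸ U)
  let Q : Finset (GG ⧸ U) := {q | ∃ σ ∈ galOf L, (σ : GG ⧸ U) = q}
  have hQ : ∀ q ∈ Q, ∃ σ ∈ galOf L, (σ : GG ⧸ U) = q := fun q hq => (Finset.mem_filter.1 hq).2
  choose! s hs hsq using hQ
  have hQone : ((1 : GG) : GG ⧸ U) ∈ Q :=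
    Finset.mem_filter.2 ⟨Finset.mem_univ _, 1, one_mem _, rfl⟩
  have hcard : (Q.card : LL) ≠ 0 :=
    Nat.cast_ne_zero.2 (Finset.card_ne_zero.2 ⟨_, hQone⟩)
  obtain ⟨y, hy, hy'⟩ := exists_approx_family hUc
    (ι := {P // P ∈ R} × {q // q ∈ Q})
    (fun i => (s i.2)⁻¹ • (i.1 : ValuationSubring LL))
    (fun i => by
      obtain ⟨l, hl, h⟩ := hR _ i.1.2
      exact ⟨l, hl, Places.liesOverPrime_smul _ _ h⟩)
    (fun i => (s i.2)⁻¹ (z i.1)) (fun i => (s i.2)⁻¹ (ε * Q.card))
    (fun i => by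
      rw [hUfix]
      have h := hzN _ (Finset.mem_image_of_mem z i.1.2)
      exact map_mem_of_isGalois _ h)
    (fun i j ⟨u, hu, e⟩ => by
      set τ := (s (j.2 : GG ⧸ U)) * u * (s (i.2 : GG ⧸ U))⁻¹ with hτ
      have hτL : τ ∈ galOf L :=
        mul_mem (mul_mem (hs _ j.2.2) (hUL hu)) (inv_mem (hs _ i.2.2))
      have e' : τ • (i.1 : ValuationSubring LL) = j.1 := by
        rw [hτ, mul_smul, mul_smul, e, smul_inv_smul]
      have hij : (i.1 : ValuationSubring LL) = j.1 := hne _ i.1.2 _ j.1.2 τ hτL e'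
      have hτD : τ ∈ (i.1 : ValuationSubring LL).decompositionSubgroup ℚ := by rw [← hij] at e'; exact e'
      have hfix : τ (z i.1) = z i.1 := mem_localField.1 (hz _ i.1.2) τ ⟨hτL, hτD⟩
      have hzi : (s (i.2 : GG ⧸ U))⁻¹ (z i.1) ∈ N :=
        map_mem_of_isGalois _ (hzN _ (Finset.mem_image_of_mem z i.1.2))
      have hu' : u ((s (i.2 : GG ⧸ U))⁻¹ (z i.1)) = (s (i.2 : GG ⧸ U))⁻¹ (z i.1) :=
        (IntermediateField.mem_fixingSubgroup_iff _ _).1 hu _ hzi
      conv_rhs => rw [← hij, ← hfix, hτ, AlgEquiv.mul_apply, AlgEquiv.mul_apply, hu',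
        ← AlgEquiv.mul_apply, inv_mul_cancel, AlgEquiv.one_apply])
    (fun i => (map_ne_zero_iff _ ((s i.2.1)⁻¹).injective).2 (mul_ne_zero hε hcard))
  rw [hUfix] at hy
  refine ⟨(∑ q ∈ Q, s q y) / Q.card, ?_, fun V hV => ?_⟩
  · rw [← InfiniteGalois.fixedField_fixingSubgroup L, IntermediateField.mem_fixedField_iff]
    intro g hg
    rw [map_div₀, map_natCast, map_sum]
    congr 1
    have hmem : ∀ q ∈ Q, (g : GG ⧸ U) * q ∈ Q := fun q hq =>
      Finset.mem_filter.2 ⟨Finset.mem_univ _, g * s q, mul_mem hg (hs q hq),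
        by rw [QuotientGroup.mk_mul, hsq q hq]⟩
    refine Finset.sum_bij' (fun q _ => (g : GG ⧸ U) * q) (fun q _ => (g : GG ⧸ U)⁻¹ * q) hmem
      (fun q hq => ?_) (fun q _ => inv_mul_cancel_left _ _) (fun q _ => mul_inv_cancel_left _ _)
      (fun q hq => ?_)
    · exact Finset.mem_filter.2 ⟨Finset.mem_univ _, g⁻¹ * s q, mul_mem (inv_mem hg) (hs q hq),
        by rw [QuotientGroup.mk_mul, QuotientGroup.mk_inv, hsq q hq]⟩
    · have hk : (s ((g : GG ⧸ U) * q))⁻¹ * (g * s q) ∈ U := by
        rw [← QuotientGroup.eq, hsq _ (hmem q hq), QuotientGroup.mk_mul, hsq q hq]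
      have h := (IntermediateField.mem_fixingSubgroup_iff _ _).1 hk y hy
      conv_rhs => rw [← h]
      rw [← AlgEquiv.mul_apply, ← AlgEquiv.mul_apply, mul_inv_cancel_left]
  · have hsum : z V - (∑ q ∈ Q, s q y) / Q.card = (∑ q ∈ Q, (z V - s q y)) / Q.card := by
      rw [Finset.sum_sub_distrib, Finset.sum_const, nsmul_eq_mul, sub_div, mul_div_cancel_left₀ _ hcard]
    rw [hsum, map_div₀, div_le_iff₀ (Mazur.valuation_pos V hcard), ← map_mul]
    refine Valuation.map_sum_le _ fun q hq => ?_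
    have h := (smul_val_le_iff (s q) (smul_inv_smul (s q) V) _ _).2 (hy' ⟨⟨V, hV⟩, ⟨q, hq⟩⟩)
    simp only [map_sub, ← AlgEquiv.mul_apply, mul_inv_cancel,
      AlgEquiv.one_apply] at h
    rwa [Valuation.map_sub_swap]

theorem targetDense : LocalDense := by
  intro L hL l V hl hV z hz ε hε
  obtain ⟨a, ha, h⟩ := targetApprox L hL {V}
    (fun W hW => ⟨l, hl, by rwa [Finset.mem_singleton.1 hW]⟩)
    (fun A hA B hB _ _ _ => by rw [Finset.mem_singleton.1 hA, Finset.mem_singleton.1 hB])
    (fun _ => z) (fun W hW => by rwa [Finset.mem_singleton.1 hW]) ε hε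
  exact ⟨a, ha, h V (Finset.mem_singleton_self V)⟩

end FLTAgent.Lowering.P1.Loc
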