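import Fermat.Agent.Lowering.P1.LocalInterface
import Fermat.Agent.FlatLocal.Basic

/-!
# Local fields inside the algebraic numbers: the Galois correspondence and roots near one
-/

set_option autoImplicit false
set_option linter.style.haveILetI false
set_option linter.unusedSectionVars false

noncomputable section

open scoped Pointwise

namespace FLTAgent.Lowering.P1.Loc

local notation "LL" => AlgebraicClosure ℚ
local notation "GG" => (AlgebraicClosure ℚ ≃ₐ[ℚ] AlgebraicClosure ℚ)

variable {V : ValuationSubring LL}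

theorem isClosed_dec (V : ValuationSubring LL) :
    IsClosed (V.decompositionSubgroup ℚ : Set GG) := by
  rw [← isOpen_compl_iff, isOpen_iff_forall_mem_open]
  intro σ hσ
  obtain ⟨x, hx⟩ : ∃ x : LL, ¬ (σ x ∈ V ↔ x ∈ V) := by
    by_contra hall
    push Not at hall
    refine hσ (MulAction.mem_stabilizer_iff.2 (ValuationSubring.ext _ _ fun y => ?_))
    rw [ValuationSubring.mem_pointwise_smul_iff_inv_smul_mem]
    conv_rhs => rw [← smul_inv_smul σ y]
    exact (hall (σ⁻¹ • y)).symm
  haveI : FiniteDimensional ℚ (IntermediateField.adjoin ℚ ({x} : Set LL)) :=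
    IntermediateField.adjoin.finiteDimensional
      ((AlgebraicClosure.isAlgebraic ℚ).isAlgebraic x).isIntegral
  set U : Subgroup GG := (IntermediateField.adjoin ℚ ({x} : Set LL)).fixingSubgroup
  refine ⟨(fun τ => σ⁻¹ * τ) ⁻¹' (U : Set GG), fun τ hτ hτD => hx ?_,
    (IntermediateField.fixingSubgroup_isOpen _).preimage (continuous_const_mul _),
    show σ⁻¹ * σ ∈ U by rw [inv_mul_cancel]; exact one_mem _⟩
  have h : (σ⁻¹ * τ) x = x :=
    (IntermediateField.mem_fixingSubgroup_iff _ _).1 hτ x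
      (IntermediateField.mem_adjoin_simple_self ℚ x)
  have h' : τ x = σ x := by
    conv_rhs => rw [← h]
    rw [← AlgEquiv.mul_apply, mul_inv_cancel_left]
  rw [← h']
  conv_lhs => rw [← MulAction.mem_stabilizer_iff.1 hτD]
  exact ValuationSubring.smul_mem_pointwise_smul_iff

theorem isClosed_inf_dec (L : IntermediateField ℚ LL) (V : ValuationSubring LL) :
    IsClosed ((galOf L ⊓ V.decompositionSubgroup ℚ : Subgroup GG) : Set GG) := by
  haveI := Mazur.isGalois_QQb
  exact (InfiniteGalois.fixingSubgroup_isClosed L).inter (isClosed_dec V)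

theorem mem_localField {L : IntermediateField ℚ LL} {x : LL} :
    x ∈ localField L V ↔ ∀ σ ∈ galOf L ⊓ V.decompositionSubgroup ℚ, σ x = x :=
  IntermediateField.mem_fixedField_iff _ _

theorem le_localField (L : IntermediateField ℚ LL) (V : ValuationSubring LL) :
    L ≤ localField L V := fun x hx => mem_localField.2 fun _ hσ =>
  (IntermediateField.mem_fixingSubgroup_iff _ _).1 hσ.1 x hx

theorem mem_of_fixes_localField {L : IntermediateField ℚ LL} {σ : GG}
    (h : ∀ x ∈ localField L V, σ x = x) : σ ∈ galOf L ⊓ V.decompositionSubgroup ℚ := by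
  haveI := Mazur.isGalois_QQb
  have e : (localField L V).fixingSubgroup = galOf L ⊓ V.decompositionSubgroup ℚ :=
    InfiniteGalois.fixingSubgroup_fixedField
      ⟨galOf L ⊓ V.decompositionSubgroup ℚ, isClosed_inf_dec L V⟩
  rw [← e]
  exact (IntermediateField.mem_fixingSubgroup_iff _ _).2 h

theorem targetGalois : LocalGalois := fun _ _ _ _ _ _ _ h => mem_of_fixes_localField h

theorem val_map {σ : GG} (hσ : σ ∈ V.decompositionSubgroup ℚ) (x : LL) :
    V.valuation (σ x) = V.valuation x := FlatLocal.val_map ⟨σ, hσ⟩ x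

section Prime

variable {l : ℕ} (hl : l.Prime) (hV : V.LiesOverPrime l)

include hl hV

theorem ratCast_val {a : ℚ} (ha : a ≠ 0) :
    ∃ k : ℤ, V.valuation (a : LL) = V.valuation (l : LL) ^ k :=
  Mazur.exists_zpow_valuation V hl hV (Rat.cast_ne_zero.2 ha) fun σ _ => map_ratCast σ a

/-- Every value is a root of a power of the value of `l`. -/
theorem exists_pow_val {x : LL} (hx : x ≠ 0) :
    ∃ e : ℕ, 0 < e ∧ e ≤ (minpoly ℚ x).natDegree ∧
      ∃ k : ℤ, V.valuation x ^ e = V.valuation (l : LL) ^ k := by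
  classical
  have hint : IsIntegral ℚ x := ((AlgebraicClosure.isAlgebraic ℚ).isAlgebraic x).isIntegral
  set P := minpoly ℚ x
  have h0 : ∑ i ∈ P.support, (P.coeff i : LL) * x ^ i = 0 := by
    have h : Polynomial.aeval x P = 0 := minpoly.aeval ℚ x
    rwa [Polynomial.aeval_def, Polynomial.eval₂_eq_sum, Polynomial.sum_def] at h
  have hne : ∀ i ∈ P.support, (P.coeff i : LL) * x ^ i ≠ 0 := fun i hi =>
    mul_ne_zero (Rat.cast_ne_zero.2 (Polynomial.mem_support_iff.1 hi)) (pow_ne_zero _ hx)
  obtain ⟨j, hj, hmax⟩ := P.support.exists_max_image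
    (fun i => V.valuation ((P.coeff i : LL) * x ^ i))
    (Polynomial.support_nonempty.2 (minpoly.ne_zero hint))
  obtain ⟨i, hi, hij, hval⟩ : ∃ i ∈ P.support, i ≠ j ∧
      V.valuation ((P.coeff i : LL) * x ^ i) = V.valuation ((P.coeff j : LL) * x ^ j) := by
    by_contra hall
    push Not at hall
    have h := Valuation.map_sum_eq_of_lt V.valuation hj fun i hi => by
      rw [Finset.mem_sdiff, Finset.mem_singleton] at hi
      exact lt_of_le_of_ne (hmax i hi.1) (hall i hi.1 hi.2)
    rw [h0, map_zero] at h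
    exact hne j hj ((Valuation.zero_iff _).1 h.symm)
  obtain ⟨a, ha⟩ := ratCast_val hl hV (Polynomial.mem_support_iff.1 hi)
  obtain ⟨b, hb⟩ := ratCast_val hl hV (Polynomial.mem_support_iff.1 hj)
  rw [map_mul, map_mul, map_pow, map_pow, ha, hb] at hval
  have hl0 : V.valuation (l : LL) ≠ 0 := Mazur.valuation_natCast_ne_zero V hl
  have hx0 : V.valuation x ≠ 0 := (Valuation.ne_zero_iff _).2 hx
  rw [← zpow_natCast (V.valuation x), ← zpow_natCast (V.valuation x)] at hval
  have h : V.valuation x ^ ((i : ℤ) - j) = V.valuation (l : LL) ^ (b - a) := by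
    rw [zpow_sub₀ hx0, zpow_sub₀ hl0, div_eq_div_iff (zpow_ne_zero _ hx0) (zpow_ne_zero _ hl0),
      mul_comm _ (V.valuation (l : LL) ^ a), hval]
  rcases lt_or_gt_of_ne hij with hlt | hlt
  · refine ⟨j - i, by omega, (Nat.sub_le j i).trans (Polynomial.le_natDegree_of_mem_supp j hj),
      a - b, ?_⟩
    rw [← zpow_natCast, show ((j - i : ℕ) : ℤ) = -((i : ℤ) - j) by omega, zpow_neg, h, ← zpow_neg,
      neg_sub]
  · refine ⟨i - j, by omega, (Nat.sub_le i j).trans (Polynomial.le_natDegree_of_mem_supp i hi),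
      b - a, ?_⟩
    rw [← zpow_natCast, show ((i - j : ℕ) : ℤ) = (i : ℤ) - j by omega, h]

/-- The valuation has rank one. -/
theorem arch {x ε : LL} (hx : V.valuation x < 1) (hε : ε ≠ 0) :
    ∃ N : ℕ, ∀ n, N ≤ n → V.valuation x ^ n ≤ V.valuation ε := by
  suffices ∃ N : ℕ, V.valuation x ^ N ≤ V.valuation ε by
    obtain ⟨N, hN⟩ := this
    exact ⟨N, fun n hn => (pow_le_pow_right_of_le_one' hx.le hn).trans hN⟩
  rcases le_or_gt 1 (V.valuation ε) with h | h
  · exact ⟨0, by simpa using h⟩
  rcases eq_or_ne x 0 with rfl | hx0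
  · exact ⟨1, by simp⟩
  have hp : 0 < V.valuation (l : LL) := zero_lt_iff.2 (Mazur.valuation_natCast_ne_zero V hl)
  have hl1 : V.valuation (l : LL) < 1 := Mazur.valuation_natCast_lt_one V hV
  have hanti := zpow_right_strictAnti₀ hp hl1
  obtain ⟨e, he, -, k, hk⟩ := exists_pow_val hl hV hx0
  obtain ⟨f, hf, -, j, hj⟩ := exists_pow_val hl hV hε
  have hk1 : 1 ≤ k := by
    by_contra hk'
    have h1 := hanti.antitone (show k ≤ 0 by omega)
    simp only [zpow_zero, ← hk] at h1
    exact absurd h1 (not_le.2 (pow_lt_one₀ zero_le hx he.ne'))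
  refine ⟨e * j.toNat, ?_⟩
  calc V.valuation x ^ (e * j.toNat) = V.valuation (l : LL) ^ (k * j.toNat) := by
        rw [pow_mul, hk, zpow_mul, zpow_natCast]
    _ ≤ V.valuation (l : LL) ^ j := hanti.antitone
        ((Int.self_le_toNat j).trans (le_mul_of_one_le_left (by omega) hk1))
    _ = V.valuation ε ^ f := hj.symm
    _ ≤ V.valuation ε := pow_le_of_le_one zero_le h.le hf.ne'

end Prime

theorem val_natCast_le_one (n : ℕ) : V.valuation (n : LL) ≤ 1 :=
  (V.valuation_le_one_iff _).2 (natCast_mem V n)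

theorem one_add_pow_sub {t : LL} (ht : V.valuation t ≤ 1) (n : ℕ) :
    V.valuation ((1 + t) ^ n - 1 - n * t) ≤ V.valuation t ^ 2 := by
  induction n with
  | zero => simp
  | succ n ih =>
    rw [show (1 + t) ^ (n + 1) - 1 - ((n + 1 : ℕ) : LL) * t =
      ((1 + t) ^ n - 1 - n * t) * (1 + t) + n * t ^ 2 by push_cast; ring]
    refine Valuation.map_add_le _ ?_ ?_
    · rw [map_mul]
      exact (mul_le_mul' ih (Valuation.map_add_le _ (map_one _).le ht)).trans_eq (mul_one _)
    · rw [map_mul, map_pow]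
      exact mul_le_of_le_one_left' (val_natCast_le_one n)

theorem val_pow_sub_one_le {x : LL} (hx : V.valuation (x - 1) ≤ 1) (n : ℕ) :
    V.valuation (x ^ n - 1) ≤
      max (V.valuation (n * (x - 1))) (V.valuation (x - 1) ^ 2) := by
  have h := one_add_pow_sub hx n
  rw [add_sub_cancel] at h
  calc V.valuation (x ^ n - 1)
      = V.valuation (x ^ n - 1 - n * (x - 1) + n * (x - 1)) := by rw [sub_add_cancel]
    _ ≤ max (V.valuation (x ^ n - 1 - n * (x - 1))) (V.valuation (n * (x - 1))) :=
        Valuation.map_add _ _ _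
    _ ≤ _ := by rw [max_comm]; exact max_le_max le_rfl h

section Prime

variable {l : ℕ} (hl : l.Prime) (hV : V.LiesOverPrime l)

include hl hV

/-- The power map near one. -/
theorem val_pow_sub_one {m : ℕ} (hm : 0 < m) {y : LL}
    (hy : V.valuation (y - 1) ≤ V.valuation (l * m : LL)) :
    V.valuation (y ^ m - 1) = V.valuation (m : LL) * V.valuation (y - 1) := by
  rcases eq_or_ne y 1 with rfl | hy1
  · simp
  have hv0 : 0 < V.valuation (y - 1) := zero_lt_iff.2 ((Valuation.ne_zero_iff _).2 (sub_ne_zero.2 hy1))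
  have hm0 : 0 < V.valuation (m : LL) :=
    zero_lt_iff.2 ((Valuation.ne_zero_iff _).2 (Nat.cast_ne_zero.2 hm.ne'))
  have hlt : V.valuation (y - 1) < V.valuation (m : LL) := by
    refine hy.trans_lt ?_
    rw [map_mul]
    exact mul_lt_of_lt_one_left hm0 (Mazur.valuation_natCast_lt_one V hV)
  have h := one_add_pow_sub (hlt.le.trans (val_natCast_le_one m)) m
  rw [add_sub_cancel] at h
  have h2 : V.valuation (y ^ m - 1 - m * (y - 1)) < V.valuation ((m : LL) * (y - 1)) := by
    refine h.trans_lt ?_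
    rw [map_mul, sq]
    exact mul_lt_mul_of_pos_right hlt hv0
  rw [← map_mul, show y ^ m - 1 = (y ^ m - 1 - m * (y - 1)) + m * (y - 1) by ring,
    Valuation.map_add_eq_of_lt_right _ h2]

/-- Numbers near one are powers of numbers near one. -/
theorem exists_root {m : ℕ} (hm : 0 < m) {z : LL}
    (hz : V.valuation (z - 1) ≤ V.valuation ((l * m ^ 2 : ℕ) : LL)) :
    ∃ y : LL, y ^ m = z ∧ V.valuation (y - 1) ≤ V.valuation (l * m : LL) := by
  classical
  push_cast at hz
  rcases Nat.lt_or_ge m 2 with h2 | h2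
  · obtain rfl : m = 1 := by omega
    exact ⟨z, pow_one z, by simpa using hz⟩
  haveI : NeZero m := ⟨hm.ne'⟩
  obtain ⟨ζ, hζ⟩ := HasEnoughRootsOfUnity.exists_primitiveRoot LL m
  obtain ⟨y₀, hy₀⟩ := IsAlgClosed.exists_pow_nat_eq z hm
  obtain ⟨i₀, -, hmin⟩ := (Finset.range m).exists_min_image
    (fun i => V.valuation (1 - ζ ^ i * y₀)) ⟨0, Finset.mem_range.2 hm⟩
  set y := ζ ^ i₀ * y₀ with hy
  have hym : y ^ m = z := by
    rw [hy, mul_pow, ← pow_mul, mul_comm i₀, pow_mul, hζ.pow_eq_one, one_pow, one_mul, hy₀]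
  have hmin' : ∀ i : ℕ, V.valuation (1 - y) ≤ V.valuation (1 - ζ ^ i * y) := by
    intro i
    refine (hmin ((i + i₀) % m) (Finset.mem_range.2 (Nat.mod_lt _ hm))).trans_eq ?_
    rw [hy, ← mul_assoc, ← pow_add, ← pow_eq_pow_mod _ hζ.pow_eq_one]
  have hprod : 1 - z = ∏ i ∈ Finset.range m, (1 - ζ ^ i * y) := by
    have h := congrArg (Polynomial.eval (1 : LL)) (X_pow_sub_C_eq_prod hζ hm hym)
    simpa [Polynomial.eval_prod] using h
  have hord : ∏ i ∈ Finset.range (m - 1), (1 - ζ ^ (i + 1)) = (m : LL) := by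
    obtain ⟨k, rfl⟩ : ∃ k, m = k + 1 := ⟨m - 1, by omega⟩
    simpa using IsPrimitiveRoot.prod_one_sub_pow_eq_order hζ
  have hval1 : V.valuation y = 1 := by
    have h1 : V.valuation z = 1 := by
      have hlt : V.valuation (z - 1) < V.valuation (1 : LL) := by
        rw [map_one]
        refine hz.trans_lt ?_
        rw [map_mul, map_pow]
        exact lt_of_le_of_lt (mul_le_of_le_one_right' (pow_le_one' (val_natCast_le_one m) 2))
          (Mazur.valuation_natCast_lt_one V hV)
      rw [show z = 1 + (z - 1) by ring, Valuation.map_add_eq_of_lt_left _ hlt, map_one]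
    exact Mazur.valuation_eq_one_of_pow V hm.ne' (by rw [hym, h1])
  have hkey : V.valuation (1 - y) * V.valuation (m : LL) ≤ V.valuation (1 - z) := by
    rw [hprod, map_prod, show m = (m - 1) + 1 by omega, Finset.prod_range_succ', pow_zero, one_mul,
      mul_comm]
    refine mul_le_mul' ?_ le_rfl
    rw [show m - 1 + 1 = m by omega, ← hord, map_prod]
    refine Finset.prod_le_prod' fun i _ => ?_
    calc V.valuation (1 - ζ ^ (i + 1))
        = V.valuation ((1 - ζ ^ (i + 1) * y) - (1 - y)) := by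
          rw [show (1 - ζ ^ (i + 1) * y) - (1 - y) = (1 - ζ ^ (i + 1)) * y by ring, map_mul, hval1,
            mul_one]
      _ ≤ _ := Valuation.map_sub_le _ le_rfl (hmin' _)
  refine ⟨y, hym, ?_⟩
  rw [Valuation.map_sub_swap _ y 1]
  have hm0 : 0 < V.valuation (m : LL) :=
    zero_lt_iff.2 ((Valuation.ne_zero_iff _).2 (Nat.cast_ne_zero.2 hm.ne'))
  refine le_of_mul_le_mul_right (hkey.trans ?_) hm0
  rw [Valuation.map_sub_swap _ 1 z]
  refine hz.trans_eq ?_
  simp only [map_mul, map_pow]
  rw [sq, mul_assoc]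

/-- The root near one is unique. -/
theorem root_unique {m : ℕ} (hm : 0 < m) {y y' : LL} (h : y ^ m = y' ^ m)
    (hy : V.valuation (y - 1) ≤ V.valuation (l * m : LL))
    (hy' : V.valuation (y' - 1) ≤ V.valuation (l * m : LL)) : y = y' := by
  have hlt : V.valuation (l * m : LL) < 1 := by
    rw [map_mul]
    exact lt_of_le_of_lt (mul_le_of_le_one_right' (val_natCast_le_one m))
      (Mazur.valuation_natCast_lt_one V hV)
  have hy1 : V.valuation y = 1 := by
    rw [show y = 1 + (y - 1) by ring, Valuation.map_add_eq_of_lt_left _ (by rw [map_one]; exact hy.trans_lt hlt),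
      map_one]
  have hy0 : y ≠ 0 := fun e => by simp [e] at hy1
  have ht : V.valuation (y' / y - 1) ≤ V.valuation (l * m : LL) := by
    rw [show y' / y - 1 = ((y' - 1) - (y - 1)) / y by field_simp; ring, map_div₀, hy1, div_one]
    exact Valuation.map_sub_le _ hy' hy
  have h1 := val_pow_sub_one hl hV hm ht
  rw [div_pow, ← h, div_self (pow_ne_zero _ hy0), sub_self, map_zero, eq_comm, mul_eq_zero] at h1
  have h2 := (Valuation.zero_iff _).1
    (h1.resolve_left ((Valuation.ne_zero_iff _).2 (Nat.cast_ne_zero.2 hm.ne')))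
  rw [sub_eq_zero, div_eq_one_iff_eq hy0] at h2
  exact h2.symm

/-- The root near one of an element of a local field lies in it. -/
theorem root_mem_localField {L : IntermediateField ℚ LL} {m : ℕ} (hm : 0 < m) {z : LL}
    (hzF : z ∈ localField L V) (hz : V.valuation (z - 1) ≤ V.valuation ((l * m ^ 2 : ℕ) : LL)) :
    ∃ y ∈ localField L V, y ^ m = z ∧ V.valuation (y - 1) ≤ V.valuation (l * m : LL) := by
  obtain ⟨y, hy, hy1⟩ := exists_root hl hV hm hz
  refine ⟨y, mem_localField.2 fun σ hσ => ?_, hy, hy1⟩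
  refine root_unique hl hV hm ?_ ?_ hy1
  · rw [← map_pow, hy, mem_localField.1 hzF σ hσ]
  · rw [show σ y - 1 = σ (y - 1) by rw [map_sub, map_one], val_map hσ.2]
    exact hy1

end Prime

theorem targetRoot : LocalRoot := fun _ _ _ _ hl hV _ hm _ hzF hz => by
  obtain ⟨y, hy, h, -⟩ := root_mem_localField hl hV hm hzF hz
  exact ⟨y, hy, h⟩

end FLTAgent.Lowering.P1.Loc
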