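import Fermat.Agent.Lowering.P1.Local.Approx

/-!
# The values of a local field, its balls and its unit groups
-/

set_option autoImplicit false
set_option linter.style.haveILetI false
set_option linter.unusedSectionVars false

noncomputable section

open scoped Pointwise

namespace FLTAgent.Lowering.P1.Loc

local notation "LL" => AlgebraicClosure ℚ
local notation "GG" => (AlgebraicClosure ℚ ≃ₐ[ℚ] AlgebraicClosure ℚ)

variable {V : ValuationSubring LL}

/-- The non-zero numbers of a local field. -/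
def fieldUnits (L : IntermediateField ℚ LL) (V : ValuationSubring LL) : Subgroup LLˣ where
  carrier := {u | (u : LL) ∈ localField L V}
  one_mem' := by
    show ((1 : LLˣ) : LL) ∈ localField L V
    rw [Units.val_one]; exact one_mem _
  mul_mem' := fun {a b} ha hb => by
    show ((a * b : LLˣ) : LL) ∈ localField L V
    rw [Units.val_mul]; exact mul_mem ha hb
  inv_mem' := fun {u} hu => by
    show ((u⁻¹ : LLˣ) : LL) ∈ localField L V
    rw [Units.val_inv_eq_inv_val]
    exact inv_mem hu

/-- The units of a local field. -/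
def intUnits (L : IntermediateField ℚ LL) (V : ValuationSubring LL) : Subgroup LLˣ where
  carrier := {u | (u : LL) ∈ localField L V ∧ V.valuation (u : LL) = 1}
  one_mem' := ⟨one_mem _, map_one _⟩
  mul_mem' := fun ha hb => ⟨mul_mem ha.1 hb.1, by rw [Units.val_mul, map_mul, ha.2, hb.2, mul_one]⟩
  inv_mem' := fun {u} hu => ⟨by rw [Units.val_inv_eq_inv_val]; exact inv_mem hu.1,
    by rw [Units.val_inv_eq_inv_val, map_inv₀, hu.2, inv_one]⟩

/-- The units of a local field near one. -/
def unitBall (L : IntermediateField ℚ LL) (V : ValuationSubring LL) (c : LL) : Subgroup LLˣ where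
  carrier := {u | u ∈ intUnits L V ∧ V.valuation ((u : LL) - 1) ≤ V.valuation c}
  one_mem' := ⟨one_mem _, by simp⟩
  mul_mem' := fun {a b} ha hb => ⟨mul_mem ha.1 hb.1, by
    rw [Units.val_mul, show (a : LL) * b - 1 = a * ((b : LL) - 1) + ((a : LL) - 1) by ring]
    refine Valuation.map_add_le _ ?_ ha.2
    rw [map_mul, ha.1.2, one_mul]
    exact hb.2⟩
  inv_mem' := fun {a} ha => ⟨inv_mem ha.1, by
    rw [Units.val_inv_eq_inv_val, show (a : LL)⁻¹ - 1 = (a : LL)⁻¹ * (1 - a) by
      rw [mul_sub, mul_one, inv_mul_cancel₀ a.ne_zero], map_mul, map_inv₀, ha.1.2, inv_one, one_mul,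
      Valuation.map_sub_swap]
    exact ha.2⟩

/-- The numbers of a local field of small value. -/
def ball (L : IntermediateField ℚ LL) (V : ValuationSubring LL) (c : LL) : AddSubgroup LL where
  carrier := {x | x ∈ localField L V ∧ V.valuation x ≤ V.valuation c}
  zero_mem' := ⟨zero_mem _, by simp⟩
  add_mem' := fun ha hb => ⟨add_mem ha.1 hb.1, Valuation.map_add_le _ ha.2 hb.2⟩
  neg_mem' := fun ha => ⟨neg_mem ha.1, by rw [Valuation.map_neg]; exact ha.2⟩

theorem mem_fieldUnits {L : IntermediateField ℚ LL} {u : LLˣ} :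
    u ∈ fieldUnits L V ↔ (u : LL) ∈ localField L V := Iff.rfl

theorem mem_intUnits {L : IntermediateField ℚ LL} {u : LLˣ} :
    u ∈ intUnits L V ↔ (u : LL) ∈ localField L V ∧ V.valuation (u : LL) = 1 := Iff.rfl

theorem mem_unitBall {L : IntermediateField ℚ LL} {c : LL} {u : LLˣ} :
    u ∈ unitBall L V c ↔ u ∈ intUnits L V ∧ V.valuation ((u : LL) - 1) ≤ V.valuation c := Iff.rfl

theorem mem_ball {L : IntermediateField ℚ LL} {c x : LL} :
    x ∈ ball L V c ↔ x ∈ localField L V ∧ V.valuation x ≤ V.valuation c := Iff.rfl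

theorem intUnits_le (L : IntermediateField ℚ LL) : intUnits L V ≤ fieldUnits L V := fun _ h => h.1

theorem val_eq_one_of_near {x c : LL} (hc : V.valuation c < 1)
    (h : V.valuation (x - 1) ≤ V.valuation c) : V.valuation x = 1 := by
  rw [show x = 1 + (x - 1) by ring,
    Valuation.map_add_eq_of_lt_left _ (by rw [map_one]; exact h.trans_lt hc), map_one]

section Prime

variable {l : ℕ} (hl : l.Prime) (hV : V.LiesOverPrime l)
  (L : IntermediateField ℚ LL) [hL : FiniteDimensional ℚ L]

include hl hV hL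

/-- Every value of a local field is the value of a number. -/
theorem exists_val_eq {x : LL} (hx : x ∈ localField L V) (hx0 : x ≠ 0) :
    ∃ a ∈ L, a ≠ 0 ∧ V.valuation a = V.valuation x := by
  obtain ⟨a, ha, h⟩ := targetDense L hL l V hl hV x hx (x * l)
    (mul_ne_zero hx0 (Nat.cast_ne_zero.2 hl.ne_zero))
  have hlt : V.valuation (x - a) < V.valuation x := by
    refine h.trans_lt ?_
    rw [map_mul]
    exact mul_lt_of_lt_one_right (Mazur.valuation_pos V hx0) (Mazur.valuation_natCast_lt_one V hV)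
  have hva : V.valuation a = V.valuation x := by
    rw [show a = x - (x - a) by ring, Valuation.map_sub_eq_of_lt_left _ hlt]
  exact ⟨a, ha, fun h0 => (Valuation.ne_zero_iff _).2 hx0 (by rw [← hva, h0, map_zero]), hva⟩

/-- A uniformiser. -/
theorem exists_uniformiser :
    ∃ π ∈ L, 0 < V.valuation π ∧ V.valuation π < 1 ∧
      ∀ x ∈ localField L V, x ≠ 0 → ∃ k : ℤ, V.valuation x = V.valuation π ^ k := by
  classical
  set n := Module.finrank ℚ L
  set M := n.factorial
  have hp : 0 < V.valuation (l : LL) := zero_lt_iff.2 (Mazur.valuation_natCast_ne_zero V hl)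
  have hl1 : V.valuation (l : LL) < 1 := Mazur.valuation_natCast_lt_one V hV
  have hanti := zpow_right_strictAnti₀ hp hl1
  have key : ∀ a ∈ L, a ≠ 0 → ∃ k : ℤ, V.valuation a ^ M = V.valuation (l : LL) ^ k := by
    intro a ha ha0
    obtain ⟨e, he, hle, k, hk⟩ := exists_pow_val hl hV ha0
    have hdeg : (minpoly ℚ a).natDegree ≤ n := by
      rw [show minpoly ℚ a = minpoly ℚ (⟨a, ha⟩ : L) from
        (minpoly.algebraMap_eq (algebraMap L LL).injective (⟨a, ha⟩ : L))]
      exact minpoly.natDegree_le _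
    obtain ⟨t, ht⟩ := Nat.dvd_factorial he (hle.trans hdeg)
    exact ⟨k * t, by rw [show M = e * t from ht, pow_mul, hk, zpow_mul, zpow_natCast]⟩
  have hex : ∃ k : ℕ, 0 < k ∧ ∃ a ∈ L, a ≠ 0 ∧
      V.valuation a ^ M = V.valuation (l : LL) ^ (k : ℤ) :=
    ⟨M, Nat.factorial_pos n, l, natCast_mem L l, Nat.cast_ne_zero.2 hl.ne_zero, by rw [zpow_natCast]⟩
  obtain ⟨hk0, π, hπ, hπ0, hπk⟩ := Nat.find_spec hex
  set k₀ := Nat.find hex
  have hpos : 0 < V.valuation π := Mazur.valuation_pos V hπ0
  refine ⟨π, hπ, hpos, ?_, fun x hx hx0 => ?_⟩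
  · by_contra h
    have h1 : (1 : V.ValueGroup) ≤ V.valuation π ^ M := one_le_pow₀ (not_lt.1 h)
    rw [hπk, zpow_natCast] at h1
    exact absurd h1 (not_le.2 (pow_lt_one₀ zero_le hl1 hk0.ne'))
  obtain ⟨a, ha, ha0, hav⟩ := exists_val_eq hl hV L hx hx0
  obtain ⟨k, hk⟩ := key a ha ha0
  have hk' : V.valuation (a / π ^ (k / k₀)) ^ M = V.valuation (l : LL) ^ (k % k₀) := by
    rw [map_div₀, map_zpow₀, div_pow, hk, ← zpow_natCast (V.valuation π ^ (k / (k₀ : ℤ))),
      ← zpow_mul, mul_comm, zpow_mul, zpow_natCast, hπk, ← zpow_mul, ← zpow_sub₀ hp.ne']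
    congr 1
    rw [Int.emod_def]
  have hr0 : k % (k₀ : ℤ) = 0 := by
    by_contra hne
    have h1 := Int.emod_nonneg k (b := (k₀ : ℤ)) (by omega)
    have h2 := Int.emod_lt_of_pos k (show (0 : ℤ) < k₀ by omega)
    obtain ⟨r, hr⟩ := Int.eq_ofNat_of_zero_le h1
    refine Nat.find_min hex (m := r) (by omega) ⟨by omega, _, div_mem ha (zpow_mem hπ (k / k₀)),
      div_ne_zero ha0 (zpow_ne_zero _ hπ0), ?_⟩
    rw [hk', hr]
  rw [hr0, zpow_zero, pow_eq_one_iff_left (Nat.factorial_ne_zero n), map_div₀, map_zpow₀,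
    div_eq_one_iff_eq (zpow_ne_zero _ hpos.ne')] at hk'
  exact ⟨k / k₀, by rw [← hav, hk']⟩

/-- The order of a non-zero number of a local field. -/
theorem exists_ord :
    ∃ ord : fieldUnits L V →* Multiplicative ℤ, Function.Surjective ord ∧
      (∀ u v, ord u = ord v ↔ V.valuation ((u : LLˣ) : LL) = V.valuation ((v : LLˣ) : LL)) ∧
      ∀ u, ord u = 1 ↔ (u : LLˣ) ∈ intUnits L V := by
  obtain ⟨π, hπ, hpos, hlt, hval⟩ := exists_uniformiser hl hV L
  have hinj := (zpow_right_strictAnti₀ hpos hlt).injective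
  choose f hf using fun u : fieldUnits L V => hval ((u : LLˣ) : LL) u.2 (Units.ne_zero _)
  have hf1 : f 1 = 0 := hinj (by simp only [← hf, zpow_zero]; simp)
  have hmul : ∀ u v, f (u * v) = f u + f v := fun u v => hinj (by
    simp only [← hf, zpow_add₀ hpos.ne']
    simp [map_mul])
  let ord : fieldUnits L V →* Multiplicative ℤ :=
    { toFun := fun u => Multiplicative.ofAdd (f u)
      map_one' := by rw [hf1]; rfl
      map_mul' := fun u v => by rw [hmul]; rfl }
  have hiff : ∀ u v, ord u = ord v ↔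
      V.valuation ((u : LLˣ) : LL) = V.valuation ((v : LLˣ) : LL) := by
    intro u v
    show Multiplicative.ofAdd (f u) = Multiplicative.ofAdd (f v) ↔ _
    rw [hf u, hf v]
    exact ⟨fun h => by rw [Multiplicative.ofAdd.injective h], fun h => by rw [hinj h]⟩
  refine ⟨ord, fun k => ?_, hiff, fun u => ?_⟩
  · have hπ0 : π ≠ 0 := fun e => by simp [e] at hpos
    set w : fieldUnits L V := ⟨Units.mk0 π hπ0, le_localField L V hπ⟩ with hw
    have hw1 : f w = 1 := hinj (by simp only [← hf, zpow_one]; rfl)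
    refine ⟨w ^ k.toAdd, ?_⟩
    rw [map_zpow]
    show Multiplicative.ofAdd (f w) ^ k.toAdd = k
    rw [hw1, ← ofAdd_zsmul, smul_eq_mul, mul_one, ofAdd_toAdd]
  · rw [← map_one ord, hiff]
    simp only [OneMemClass.coe_one, Units.val_one, map_one]
    exact ⟨fun h => ⟨u.2, h⟩, fun h => h.2⟩

end Prime

end FLTAgent.Lowering.P1.Loc
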