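import Fermat.Agent.Lowering.P1.Local.Field

/-!
# The integers of a local field as a lattice over those of the prime local field
-/

set_option autoImplicit false
set_option linter.style.haveILetI false
set_option linter.unusedSectionVars false

noncomputable section

open scoped Pointwise

namespace FLTAgent.Lowering.P1.Loc

local notation "LL" => AlgebraicClosure ℚ
local notation "GG" => (AlgebraicClosure ℚ ≃ₐ[ℚ] AlgebraicClosure ℚ)

/-- The integers of the prime local field. -/
abbrev baseInt (V : ValuationSubring LL) : Subring LL := Carayol.intAt V (localField ⊥ V)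

theorem galOf_bot : galOf (⊥ : IntermediateField ℚ LL) = ⊤ :=
  IntermediateField.fixingSubgroup_bot

theorem mem_localField_bot {V : ValuationSubring LL} {x : LL} :
    x ∈ localField ⊥ V ↔ ∀ σ ∈ V.decompositionSubgroup ℚ, σ x = x := by
  rw [mem_localField, galOf_bot, top_inf_eq]

/-- The integers of a local field over those of the prime local field. -/
def lattice (L : IntermediateField ℚ LL) (V : ValuationSubring LL) :
    Submodule (baseInt V) LL where
  carrier := {x | x ∈ localField L V ∧ x ∈ V}
  zero_mem' := ⟨zero_mem _, zero_mem _⟩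
  add_mem' := fun ha hb => ⟨add_mem ha.1 hb.1, add_mem ha.2 hb.2⟩
  smul_mem' := fun r x hx => by
    show ((r : LL) * x) ∈ localField L V ∧ ((r : LL) * x) ∈ V
    exact ⟨mul_mem (mem_localField.2 fun σ hσ => mem_localField_bot.1 r.2.2 σ hσ.2) hx.1,
      mul_mem r.2.1 hx.2⟩

theorem mem_lattice {L : IntermediateField ℚ LL} {V : ValuationSubring LL} {x : LL} :
    x ∈ lattice L V ↔ x ∈ localField L V ∧ x ∈ V := Iff.rfl

theorem finiteIndex_galOf (L : IntermediateField ℚ LL) [FiniteDimensional ℚ L] :
    (galOf L).FiniteIndex := by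
  haveI := Mazur.isGalois_QQb
  haveI : Finite (GG ⧸ galOf L) :=
    Subgroup.quotient_finite_of_isOpen _ L.fixingSubgroup_isOpen
  exact Subgroup.finiteIndex_of_finite_quotient

section Prime

variable {V : ValuationSubring LL} {l : ℕ} (hl : l.Prime) (hV : V.LiesOverPrime l)

include hl hV

theorem exists_natCast_val_sub_lt {a : LL} (ha : a ∈ localField ⊥ V) (haV : a ∈ V) :
    ∃ n : ℕ, V.valuation (a - n) < 1 := by
  haveI : Fact l.Prime := ⟨hl⟩
  obtain ⟨φ, hφ⟩ := FlatLocal.exists_frob hV
  have h1 : FlatLocal.res V a ^ l = FlatLocal.res V a := by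
    rw [← hφ, FlatLocal.smul_res φ haV, mem_localField_bot.1 ha φ φ.2]
  obtain ⟨n, -, hn⟩ := FlatLocal.exists_natCast_eq_of_pow hV h1
  exact ⟨n, (FlatLocal.res_eq_iff haV (natCast_mem V n)).1 (by rw [FlatLocal.res_natCast, hn])⟩

theorem zpow_val_of_mem_bot {x : LL} (hx : x ∈ localField ⊥ V) (hx0 : x ≠ 0) :
    ∃ k : ℤ, V.valuation x = V.valuation (l : LL) ^ k := by
  obtain ⟨a, ha, ha0, hav⟩ := exists_val_eq hl hV ⊥ hx hx0
  obtain ⟨r, rfl⟩ := IntermediateField.mem_bot.1 ha
  have hr : r ≠ 0 := fun e => ha0 (by simp [e])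
  rw [eq_ratCast] at hav
  exact hav ▸ ratCast_val hl hV hr

theorem isPrincipalIdealRing_baseInt : IsPrincipalIdealRing (baseInt V) := by
  haveI := (Carayol.isDiscreteValuationRing_intAt V (K := localField ⊥ V) (p := (l : LL))
    (natCast_mem _ l) (Nat.cast_ne_zero.2 hl.ne_zero) (Mazur.valuation_natCast_lt_one V hV)
    fun x hx hx0 => zpow_val_of_mem_bot hl hV hx hx0).1
  infer_instance

variable (L : IntermediateField ℚ LL) [hL : FiniteDimensional ℚ L]

include hL

/-- The integers of a local field are free of rank the local degree. -/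
theorem exists_basis :
    Nonempty (Module.Basis (Fin ((galOf L).relIndex (V.decompositionSubgroup ℚ))) (baseInt V)
      (lattice L V)) := by
  classical
  haveI := isPrincipalIdealRing_baseInt hl hV
  haveI := finiteIndex_galOf L
  set D := V.decompositionSubgroup ℚ with hD
  let C := ↥D ⧸ (galOf L).subgroupOf D
  haveI : Finite C := Subgroup.finite_quotient_of_finiteIndex
  haveI := Fintype.ofFinite C
  have hcard : Fintype.card C = (galOf L).relIndex D := by
    rw [Fintype.card_eq_nat_card]; rfl
  let emb : C → (localField L V →* LL) := fun c =>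
    ((((c.out : ↥D) : GG) : LL →+* LL).comp (localField L V).val.toRingHom).toMonoidHom
  have hemb : Function.Injective emb := by
    intro c c' h
    rw [← c.out_eq', ← c'.out_eq', QuotientGroup.eq, Subgroup.mem_subgroupOf]
    refine (mem_of_fixes_localField (V := V) fun x hx => ?_).1
    have h' : ((c.out : ↥D) : GG) x = ((c'.out : ↥D) : GG) x := DFunLike.congr_fun h ⟨x, hx⟩
    push_cast
    show ((c.out : ↥D) : GG)⁻¹ (((c'.out : ↥D) : GG) x) = x
    rw [← h', ← AlgEquiv.mul_apply, inv_mul_cancel, AlgEquiv.one_apply]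
  have hli : LinearIndependent LL fun c : C => (emb c : localField L V → LL) :=
    (linearIndependent_monoidHom (localField L V) LL).comp emb hemb
  -- the images of the field span
  let vec : localField L V → (C → LL) := fun x c => emb c x
  have hsep : ∀ a : C → LL, (∀ x, ∑ c, a c * vec x c = 0) → a = 0 := fun a ha => funext fun c =>
    Fintype.linearIndependent_iff.1 hli a (funext fun x => by simpa using ha x) c
  have hspan : Submodule.span LL (Set.range vec) = ⊤ := by
    by_contra hne
    obtain ⟨f, hf0, hf⟩ := Submodule.exists_dual_map_eq_bot_of_lt_top (lt_top_iff_ne_top.2 hne)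
      inferInstance
    refine hf0 ?_
    have ha := hsep (fun c => f (Pi.single c 1)) fun x => by
      have h0 : f (vec x) = 0 := by
        have := Submodule.mem_map_of_mem (f := f) (Submodule.subset_span ⟨x, rfl⟩ :
          vec x ∈ Submodule.span LL (Set.range vec))
        rwa [hf, Submodule.mem_bot] at this
      conv_rhs => rw [← h0, pi_eq_sum_univ (vec x), map_sum]
      refine Finset.sum_congr rfl fun c _ => ?_
      rw [map_smul, smul_eq_mul, mul_comm]
      congr 2
      funext i
      simp [Pi.single_apply, eq_comm]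
    refine LinearMap.pi_ext' fun c => LinearMap.ext_ring ?_
    simpa using congrFun ha c
  obtain ⟨v, hv, hvspan, hvli⟩ := exists_linearIndependent LL (Set.range vec)
  let bas := Module.Basis.mk hvli (by rw [Subtype.range_coe, hvspan, hspan])
  haveI : Fintype v := FiniteDimensional.fintypeBasisIndex bas
  have hvcard : Fintype.card v = Fintype.card C := by
    rw [← Module.finrank_eq_card_basis bas, Module.finrank_pi]
  have hex : ∀ i : v, ∃ x : localField L V, vec x = (i : C → LL) := fun i => hv i.2
  choose x hx using hex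
  -- integral multiples
  have hscale : ∀ i : v, ∃ N : ℕ, ((l : LL) ^ N * (x i : LL)) ∈ V := by
    intro i
    rcases eq_or_ne ((x i : LL)) 0 with h | h
    · exact ⟨0, by simp [h]⟩
    · obtain ⟨N, hN⟩ := arch hl hV (Mazur.valuation_natCast_lt_one V hV) (inv_ne_zero h)
      refine ⟨N, (V.valuation_le_one_iff _).1 ?_⟩
      rw [map_mul, map_pow]
      have h' := hN N le_rfl
      rw [map_inv₀] at h'
      exact (mul_le_mul' h' le_rfl).trans_eq (inv_mul_cancel₀ ((Valuation.ne_zero_iff _).2 h))
  choose N hN using hscale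
  have hlF : ∀ k : ℕ, (l : LL) ^ k ∈ localField L V := fun k => pow_mem (natCast_mem _ l) k
  let y : v → lattice L V := fun i =>
    ⟨(l : LL) ^ N i * x i, mul_mem (hlF _) (x i).2, hN i⟩
  have hy : ∀ i c, ((c.out : ↥D) : GG) (y i : LL) = (l : LL) ^ N i * (i : C → LL) c := by
    intro i c
    show ((c.out : ↥D) : GG) ((l : LL) ^ N i * x i) = _
    rw [map_mul, map_pow, map_natCast, ← hx i]
    rfl
  have hl0 : (l : LL) ≠ 0 := Nat.cast_ne_zero.2 hl.ne_zero
  have hyli : LinearIndependent (baseInt V) y := by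
    rw [Fintype.linearIndependent_iff]
    intro g hg i
    have hg' : ∑ j, (g j : LL) * (y j : LL) = 0 := by
      have := congrArg Subtype.val hg
      simpa [Submodule.coe_sum, Subring.smul_def] using this
    have h0 : ∑ j, ((g j : LL) * (l : LL) ^ N j) • (j : C → LL) = 0 := by
      funext c
      have := congrArg ((c.out : ↥D) : GG) hg'
      rw [map_sum, map_zero] at this
      rw [Finset.sum_apply, Pi.zero_apply, ← this]
      refine Finset.sum_congr rfl fun j _ => ?_
      rw [map_mul, hy, mem_localField_bot.1 (g j).2.2 _ (c.out : ↥D).2, Pi.smul_apply, smul_eq_mul,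
        mul_assoc]
    exact Subtype.ext ((mul_eq_zero.1 (Fintype.linearIndependent_iff.1 hvli _ h0 i)).resolve_right
      (pow_ne_zero _ hl0))
  -- the embedding by traces
  let tr : LL → LL := fun z => ∑ c : C, ((c.out : ↥D) : GG) z
  have hout : ∀ (g : GG) (hg : g ∈ D) (c : C) (z : LL), z ∈ localField L V →
      ((((⟨g, hg⟩ : ↥D) • c).out : ↥D) : GG) z = g (((c.out : ↥D) : GG) z) := by
    intro g hg c z hz
    have hmem : ((⟨g, hg⟩ : ↥D) * c.out)⁻¹ * ((⟨g, hg⟩ : ↥D) • c).out ∈
        (galOf L).subgroupOf D := by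
      rw [← QuotientGroup.eq, QuotientGroup.out_eq']
      conv_rhs => rw [← c.out_eq']
      rfl
    have hfix : ((((⟨g, hg⟩ : ↥D) * c.out)⁻¹ * ((⟨g, hg⟩ : ↥D) • c).out : ↥D) : GG) z = z :=
      mem_localField.1 hz _ ⟨Subgroup.mem_subgroupOf.1 hmem,
        (((⟨g, hg⟩ : ↥D) * c.out)⁻¹ * ((⟨g, hg⟩ : ↥D) • c).out).2⟩
    conv_rhs => rw [← hfix]
    rw [← AlgEquiv.mul_apply, ← AlgEquiv.mul_apply]
    congr 1
    push_cast
    group
  have htr : ∀ z ∈ lattice L V, tr z ∈ baseInt V := by
    intro z hz
    refine ⟨sum_mem fun c _ => FlatLocal.map_mem (c.out : ↥D) hz.2, mem_localField_bot.2 fun g hg => ?_⟩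
    show g (∑ c : C, ((c.out : ↥D) : GG) z) = ∑ c : C, ((c.out : ↥D) : GG) z
    rw [map_sum, ← Equiv.sum_comp (MulAction.toPerm (⟨g, hg⟩ : ↥D))
      (fun c : C => ((c.out : ↥D) : GG) z)]
    refine Finset.sum_congr rfl fun c _ => ?_
    rw [MulAction.toPerm_apply, hout g hg c z hz.1]
  have hprod : ∀ (z : lattice L V) (i : v), (z : LL) * (y i : LL) ∈ lattice L V := fun z i =>
    ⟨mul_mem z.2.1 (y i).2.1, mul_mem z.2.2 (y i).2.2⟩
  let T : lattice L V →ₗ[baseInt V] (v → baseInt V) :=
    { toFun := fun z i => ⟨tr ((z : LL) * y i), htr _ (hprod z i)⟩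
      map_add' := fun a b => funext fun i => Subtype.ext (by
        show tr (((a : LL) + b) * y i) = tr ((a : LL) * y i) + tr ((b : LL) * y i)
        simp only [tr, add_mul, map_add, Finset.sum_add_distrib])
      map_smul' := fun r a => funext fun i => Subtype.ext (by
        show tr (((r : LL) * a) * y i) = (r : LL) * tr ((a : LL) * y i)
        simp only [tr, Finset.mul_sum]
        refine Finset.sum_congr rfl fun c _ => ?_
        rw [mul_assoc, map_mul, mem_localField_bot.1 r.2.2 _ (c.out : ↥D).2]) }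
  have hT : Function.Injective T := by
    rw [← LinearMap.ker_eq_bot, LinearMap.ker_eq_bot']
    intro z hz
    have h0 : ∀ i : v, ∑ c : C, ((c.out : ↥D) : GG) (z : LL) * (i : C → LL) c = 0 := by
      intro i
      have h1 : tr ((z : LL) * y i) = 0 := congrArg Subtype.val (congrFun hz i)
      refine (mul_eq_zero.1 (?_ : (l : LL) ^ N i * _ = 0)).resolve_left (pow_ne_zero _ hl0)
      rw [← h1, Finset.mul_sum]
      refine Finset.sum_congr rfl fun c _ => ?_
      rw [map_mul, hy]
      ring
    let Φ : (C → LL) →ₗ[LL] LL :=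
      ∑ c : C, ((c.out : ↥D) : GG) (z : LL) • LinearMap.proj c
    have hΦ : Φ = 0 := bas.ext fun i => by simpa [bas, Φ] using h0 i
    rcases isEmpty_or_nonempty C with hC | ⟨⟨c⟩⟩
    · exact absurd (Nat.card_of_isEmpty (α := C)) Nat.card_pos.ne'
    have hc := LinearMap.congr_fun hΦ (Pi.single c 1)
    simp only [Φ, LinearMap.sum_apply, LinearMap.smul_apply, LinearMap.proj_apply,
      LinearMap.zero_apply, smul_eq_mul] at hc
    rw [Finset.sum_eq_single c (fun b _ hb => by simp [hb]) (by simp), Pi.single_eq_same,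
      mul_one] at hc
    exact Subtype.ext ((map_eq_zero_iff _ ((c.out : ↥D) : GG).injective).1 hc)
  haveI : Module.Finite (baseInt V) (lattice L V) := Module.Finite.of_injective T hT
  haveI : Module.IsTorsionFree (baseInt V) (lattice L V) :=
    hT.moduleIsTorsionFree _ (map_smul T)
  have h1 : Module.finrank (baseInt V) (lattice L V) ≤ Fintype.card v := by
    simpa using LinearMap.finrank_le_finrank_of_injective hT
  have h2 : Fintype.card v ≤ Module.finrank (baseInt V) (lattice L V) :=
    hyli.fintype_card_le_finrank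
  exact ⟨Module.finBasisOfFinrankEq _ _ (by omega)⟩

theorem natCast_mem_ball (n : ℕ) : (n : LL) ∈ ball L V 1 :=
  ⟨natCast_mem _ n, (val_natCast_le_one n).trans_eq (map_one _).symm⟩

/-- The integers modulo the prime. -/
theorem relIndex_ball_one :
    (ball L V (l : LL)).relIndex (ball L V 1) =
      l ^ (galOf L).relIndex (V.decompositionSubgroup ℚ) := by
  classical
  haveI : Fact l.Prime := ⟨hl⟩
  obtain ⟨b⟩ := exists_basis hl hV L
  set d := (galOf L).relIndex (V.decompositionSubgroup ℚ)
  haveI := FrobTrace.charP_residueField hV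
  have hmem : ∀ x : ball L V 1, (x : LL) ∈ lattice L V := fun x =>
    ⟨x.2.1, (V.valuation_le_one_iff _).1 (x.2.2.trans_eq (map_one _))⟩
  let co : ball L V 1 → Fin d → baseInt V := fun x => ⇑(b.repr ⟨x, hmem x⟩)
  let φ : ball L V 1 →+ (Fin d → IsLocalRing.ResidueField V) :=
    { toFun := fun x i => FlatLocal.res V (co x i : LL)
      map_zero' := funext fun i => by
        show FlatLocal.res V (b.repr (0 : lattice L V) i : LL) = 0
        simp
      map_add' := fun x y => funext fun i => by
        have : (⟨((x + y : ball L V 1) : LL), hmem _⟩ : lattice L V) =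
            ⟨x, hmem x⟩ + ⟨y, hmem y⟩ := rfl
        simp only [co, this, map_add, Finsupp.coe_add, Pi.add_apply, Subring.coe_add]
        exact FlatLocal.res_add (SetLike.coe_mem (b.repr ⟨x, hmem x⟩ i)).1
          (SetLike.coe_mem (b.repr ⟨y, hmem y⟩ i)).1 }
  have hsum : ∀ x : ball L V 1, (x : LL) = ∑ i, (co x i : LL) * (b i : LL) := by
    intro x
    conv_lhs => rw [show (x : LL) = ((⟨x, hmem x⟩ : lattice L V) : LL) from rfl,
      ← b.sum_repr ⟨x, hmem x⟩]
    simp only [Submodule.coe_sum, co]
    rfl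
  have hker : φ.ker = (ball L V (l : LL)).addSubgroupOf (ball L V 1) := by
    ext x
    rw [AddMonoidHom.mem_ker, AddSubgroup.mem_addSubgroupOf]
    refine ⟨fun h => ⟨x.2.1, ?_⟩, fun h => funext fun i => ?_⟩
    · rw [hsum x]
      refine Valuation.map_sum_le _ fun i _ => ?_
      rw [map_mul]
      refine (mul_le_of_le_one_right' ((V.valuation_le_one_iff _).2 (b i).2.2)).trans ?_
      rcases eq_or_ne (co x i : LL) 0 with h0 | h0
      · simp [h0]
      · have hlt : V.valuation (co x i : LL) < 1 :=
          (FlatLocal.res_eq_zero_iff (co x i).2.1).1 (congrFun h i)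
        obtain ⟨k, hk⟩ := zpow_val_of_mem_bot hl hV (co x i).2.2 h0
        have hp := zero_lt_iff.2 (Mazur.valuation_natCast_ne_zero V hl)
        have hanti := zpow_right_strictAnti₀ hp (Mazur.valuation_natCast_lt_one V hV)
        rw [hk] at hlt ⊢
        have hk0 : (0 : ℤ) < k := hanti.lt_iff_gt.1 (by rwa [zpow_zero])
        have := hanti.antitone (show (1 : ℤ) ≤ k by omega)
        simpa using this
    · have hl0 : (l : LL) ≠ 0 := Nat.cast_ne_zero.2 hl.ne_zero
      have hy : (x : LL) / l ∈ lattice L V := ⟨div_mem x.2.1 (natCast_mem _ l),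
        (V.valuation_le_one_iff _).1 (by
          rw [map_div₀]
          exact div_le_one_of_le₀ h.2 zero_le)⟩
      have e : (⟨x, hmem x⟩ : lattice L V) = (l : baseInt V) • ⟨(x : LL) / l, hy⟩ :=
        Subtype.ext (by
          show (x : LL) = ((l : baseInt V) : LL) * ((x : LL) / l)
          push_cast
          rw [mul_div_cancel₀ _ hl0])
      show FlatLocal.res V (co x i : LL) = 0
      simp only [co, e, map_smul, Finsupp.smul_apply, smul_eq_mul, Subring.coe_mul]
      push_cast
      rw [FlatLocal.res_mul (natCast_mem V l) (SetLike.coe_mem (b.repr ⟨_, hy⟩ i)).1,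
        FlatLocal.res_p hV, zero_mul]
  have hrange : (φ.range : Set (Fin d → IsLocalRing.ResidueField V)) =
      Set.range fun (f : Fin d → ZMod l) i => ZMod.castHom (dvd_refl l) _ (f i) := by
    ext r
    constructor
    · rintro ⟨x, rfl⟩
      choose n hn using fun i =>
        exists_natCast_val_sub_lt hl hV (co x i).2.2 (co x i).2.1
      refine ⟨fun i => (n i : ZMod l), funext fun i => ?_⟩
      show ZMod.castHom (dvd_refl l) _ (n i : ZMod l) = FlatLocal.res V (co x i : LL)
      rw [map_natCast, ← FlatLocal.res_natCast]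
      exact ((FlatLocal.res_eq_iff (co x i).2.1 (natCast_mem V _)).2 (hn i)).symm
    · rintro ⟨f, rfl⟩
      let z : lattice L V := ∑ i, ((f i).val : baseInt V) • b i
      have hz : (z : LL) ∈ ball L V 1 :=
        ⟨z.2.1, ((V.valuation_le_one_iff _).2 z.2.2).trans_eq (map_one _).symm⟩
      refine ⟨⟨z, hz⟩, funext fun i => ?_⟩
      show FlatLocal.res V (co ⟨z, hz⟩ i : LL) = _
      have hco : co ⟨z, hz⟩ i = ((f i).val : baseInt V) := by
        show b.repr z i = _
        rw [b.repr_sum_self]
      rw [hco]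
      push_cast
      rw [FlatLocal.res_natCast, ← map_natCast (ZMod.castHom (dvd_refl l) (IsLocalRing.ResidueField V)),
        ZMod.natCast_zmod_val]
  rw [AddSubgroup.relIndex, ← hker, AddSubgroup.index_ker, ← SetLike.coe_sort_coe, hrange,
    Nat.card_range_of_injective fun f g h => funext fun i =>
      (ZMod.castHom (dvd_refl l) _).injective (congrFun h i), Nat.card_fun, Nat.card_fin, Nat.card_zmod]

theorem ball_map_mul {c : LL} (hc : c ∈ localField L V) (hc0 : c ≠ 0) (e : LL) :
    (ball L V e).map (AddMonoidHom.mulLeft c) = ball L V (c * e) := by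
  ext x
  simp only [AddSubgroup.mem_map, AddMonoidHom.coe_mulLeft, mem_ball]
  constructor
  · rintro ⟨y, ⟨hy, hy'⟩, rfl⟩
    exact ⟨mul_mem hc hy, by rw [map_mul, map_mul]; exact mul_le_mul' le_rfl hy'⟩
  · rintro ⟨hx, hx'⟩
    refine ⟨x / c, ⟨div_mem hx hc, ?_⟩, mul_div_cancel₀ x hc0⟩
    rw [map_div₀, div_le_iff₀ (Mazur.valuation_pos V hc0), ← map_mul, mul_comm e c]
    exact hx'

theorem relIndex_ball {c : LL} (hc : c ∈ localField L V) (hc0 : c ≠ 0) :
    (ball L V (c * l)).relIndex (ball L V c) =
      l ^ (galOf L).relIndex (V.decompositionSubgroup ℚ) := by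
  conv_lhs => arg 2; rw [← mul_one c]
  rw [← ball_map_mul hl hV L hc hc0, ← ball_map_mul hl hV L hc hc0,
    AddSubgroup.relIndex_map_map_of_injective _ _ (mul_right_injective₀ hc0),
    relIndex_ball_one hl hV L]

theorem ball_anti {c e : LL} (h : V.valuation c ≤ V.valuation e) : ball L V c ≤ ball L V e :=
  fun _ hx => ⟨hx.1, hx.2.trans h⟩

/-- Small balls have finite index in the integers. -/
theorem relIndex_ball_ne_zero {c : LL} (hc0 : c ≠ 0) :
    (ball L V c).relIndex (ball L V 1) ≠ 0 := by
  obtain ⟨N, hN⟩ := arch hl hV (Mazur.valuation_natCast_lt_one V hV) hc0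
  suffices h : ∀ n : ℕ, (ball L V ((l : LL) ^ n)).relIndex (ball L V 1) ≠ 0 by
    refine fun h0 => h N ?_
    exact AddSubgroup.relIndex_eq_zero_of_le_left
      (ball_anti hl hV L ((map_pow _ _ _).trans_le (hN N le_rfl))) h0
  intro n
  induction n with
  | zero => simp [AddSubgroup.relIndex_self]
  | succ n ih =>
    have h1 : V.valuation ((l : LL) ^ (n + 1)) ≤ V.valuation ((l : LL) ^ n) := by
      rw [pow_succ, map_mul]
      exact mul_le_of_le_one_right' (val_natCast_le_one l)
    have h2 : V.valuation ((l : LL) ^ n) ≤ V.valuation (1 : LL) := by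
      rw [map_pow, map_one]; exact pow_le_one' (val_natCast_le_one l) n
    rw [← AddSubgroup.relIndex_mul_relIndex _ _ _ (ball_anti hl hV L h1) (ball_anti hl hV L h2),
      pow_succ, relIndex_ball hl hV L (pow_mem (natCast_mem _ l) n)
        (pow_ne_zero _ (Nat.cast_ne_zero.2 hl.ne_zero))]
    exact mul_ne_zero (pow_ne_zero _ hl.ne_zero) ih

/-- Two neighbouring unit groups near one have the index of the two balls. -/
theorem relIndex_unitBall {c : LL} (hc : V.valuation c < 1) (e : LL) :
    (unitBall L V e).relIndex (unitBall L V c) = (ball L V e).relIndex (ball L V c) := by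
  rw [Subgroup.relIndex, AddSubgroup.relIndex, Subgroup.index, AddSubgroup.index]
  have hc1 : ∀ x : ball L V c, V.valuation ((1 + (x : LL)) - 1) ≤ V.valuation c := fun x => by
    rw [add_sub_cancel_left]; exact x.2.2
  have hne : ∀ x : ball L V c, (1 + (x : LL)) ≠ 0 := fun x h => by
    have h1 := val_eq_one_of_near hc (hc1 x)
    rw [h, map_zero] at h1
    exact zero_ne_one h1
  let f : unitBall L V c ≃ ball L V c :=
    { toFun := fun u => ⟨((u : LLˣ) : LL) - 1, sub_mem u.2.1.1 (one_mem _), u.2.2⟩
      invFun := fun x => ⟨Units.mk0 _ (hne x),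
        ⟨add_mem (one_mem _) x.2.1, val_eq_one_of_near hc (hc1 x)⟩, hc1 x⟩
      left_inv := fun u => Subtype.ext (Units.ext (add_sub_cancel _ _))
      right_inv := fun x => Subtype.ext (add_sub_cancel_left _ _) }
  refine Nat.card_congr (Quotient.congr f fun u w => ?_)
  rw [QuotientGroup.leftRel_apply, QuotientAddGroup.leftRel_apply, Subgroup.mem_subgroupOf,
    AddSubgroup.mem_addSubgroupOf, mem_unitBall, mem_ball]
  simp only [f, Equiv.coe_fn_mk, AddSubgroup.coe_add, AddSubgroup.coe_neg, Subgroup.coe_mul,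
    Subgroup.coe_inv, Units.val_mul, Units.val_inv_eq_inv_val]
  rw [show ((u : LLˣ) : LL)⁻¹ * ((w : LLˣ) : LL) - 1 =
      (((w : LLˣ) : LL) - ((u : LLˣ) : LL)) / ((u : LLˣ) : LL) by
      rw [sub_div, div_self (Units.ne_zero _), div_eq_inv_mul], map_div₀, u.2.1.2, div_one,
    neg_add_eq_sub, show ((w : LLˣ) : LL) - 1 - (((u : LLˣ) : LL) - 1) =
      ((w : LLˣ) : LL) - ((u : LLˣ) : LL) by ring]
  exact ⟨fun h => ⟨sub_mem w.2.1.1 u.2.1.1, h.2⟩,
    fun h => ⟨mul_mem (inv_mem u.2.1) w.2.1, h.2⟩⟩

/-- Small unit groups have finite index in the units. -/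
theorem relIndex_intUnits_ne_zero {c : LL} (hc0 : c ≠ 0) :
    (unitBall L V c).relIndex (intUnits L V) ≠ 0 := by
  haveI : (ball L V c).IsFiniteRelIndex (ball L V 1) := ⟨relIndex_ball_ne_zero hl hV L hc0⟩
  haveI : Finite (ball L V 1 ⧸ (ball L V c).addSubgroupOf (ball L V 1)) := inferInstance
  rw [Subgroup.relIndex]
  let f : intUnits L V → ball L V 1 := fun u =>
    ⟨((u : LLˣ) : LL), u.2.1, (u.2.2.trans (map_one _).symm).le⟩
  have key : ∀ u w : intUnits L V,
      u⁻¹ * w ∈ (unitBall L V c).subgroupOf (intUnits L V) ↔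
        -f u + f w ∈ (ball L V c).addSubgroupOf (ball L V 1) := by
    intro u w
    rw [Subgroup.mem_subgroupOf, AddSubgroup.mem_addSubgroupOf, mem_unitBall, mem_ball]
    simp only [f, AddSubgroup.coe_add, AddSubgroup.coe_neg, Subgroup.coe_mul, Subgroup.coe_inv,
      Units.val_mul, Units.val_inv_eq_inv_val]
    rw [show ((u : LLˣ) : LL)⁻¹ * ((w : LLˣ) : LL) - 1 =
      (((w : LLˣ) : LL) - ((u : LLˣ) : LL)) / ((u : LLˣ) : LL) by
      rw [sub_div, div_self (Units.ne_zero _), div_eq_inv_mul], map_div₀, u.2.2, div_one,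
      neg_add_eq_sub]
    exact ⟨fun h => ⟨sub_mem w.2.1 u.2.1, h.2⟩, fun h => ⟨mul_mem (inv_mem u.2) w.2, h.2⟩⟩
  let g : intUnits L V ⧸ (unitBall L V c).subgroupOf (intUnits L V) →
      ball L V 1 ⧸ (ball L V c).addSubgroupOf (ball L V 1) :=
    Quotient.map f fun u w h => QuotientAddGroup.leftRel_apply.2
      ((key u w).1 (QuotientGroup.leftRel_apply.1 h))
  haveI : Finite (intUnits L V ⧸ (unitBall L V c).subgroupOf (intUnits L V)) :=
    Finite.of_injective g (by
      rintro ⟨u⟩ ⟨w⟩ h
      exact Quotient.sound (QuotientGroup.leftRel_apply.2 ((key u w).2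
        (QuotientAddGroup.eq.1 h))))
  exact Nat.card_pos.ne'

end Prime

end FLTAgent.Lowering.P1.Loc
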