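import Fermat.Agent.Lowering.P1.Local.Lattice

/-!
# The number of classes modulo powers of a prime in a local field
-/

set_option autoImplicit false
set_option linter.style.haveILetI false
set_option linter.unusedSectionVars false

noncomputable section

open scoped Pointwise

namespace FLTAgent.Lowering.P1.Loc

local notation "LL" => AlgebraicClosure ℚ
local notation "GG" => (AlgebraicClosure ℚ ≃ₐ[ℚ] AlgebraicClosure ℚ)

variable {V : ValuationSubring LL} {l : ℕ} (hl : l.Prime) (hV : V.LiesOverPrime l)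
  (p : ℕ) [hp : Fact p.Prime] (L : IntermediateField ℚ LL) [hL : FiniteDimensional ℚ L]

include hl hV hp hL

/-- The unit groups deep enough for the power map. -/
theorem map_unitBall {c : LL} (hc : V.valuation c ≤ V.valuation (l * p : LL)) :
    (unitBall L V c).map (powMonoidHom p : LLˣ →* LLˣ) = unitBall L V (p * c) := by
  have hp0 : 0 < p := hp.out.pos
  have hlp : V.valuation (l * p : LL) < 1 := by
    rw [map_mul]
    exact lt_of_le_of_lt (mul_le_of_le_one_right' (val_natCast_le_one p))
      (Mazur.valuation_natCast_lt_one V hV)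
  ext u
  simp only [Subgroup.mem_map, powMonoidHom_apply, mem_unitBall]
  constructor
  · rintro ⟨w, ⟨hw, hw'⟩, rfl⟩
    refine ⟨pow_mem hw p, ?_⟩
    rw [Units.val_pow_eq_pow_val, val_pow_sub_one hl hV hp0 (hw'.trans hc), map_mul]
    exact mul_le_mul' le_rfl hw'
  · rintro ⟨⟨huF, -⟩, hu'⟩
    have hz : V.valuation ((u : LL) - 1) ≤ V.valuation ((l * p ^ 2 : ℕ) : LL) := by
      refine hu'.trans ?_
      push_cast
      rw [show (l : LL) * (p : LL) ^ 2 = p * (l * p) by ring, map_mul, map_mul _ (p : LL) _]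
      exact mul_le_mul' le_rfl hc
    obtain ⟨y, hyF, hy, hy1⟩ := root_mem_localField hl hV hp0 huF hz
    have h1 := val_eq_one_of_near hlp hy1
    have hy0 : y ≠ 0 := fun h => by simp [h] at h1
    refine ⟨Units.mk0 y hy0, ⟨⟨hyF, h1⟩, ?_⟩, Units.ext (by simp [hy])⟩
    have h2 := val_pow_sub_one hl hV hp0 hy1
    rw [hy] at h2
    rw [h2, map_mul] at hu'
    exact le_of_mul_le_mul_left hu' (Mazur.valuation_pos V (Nat.cast_ne_zero.2 hp0.ne'))

theorem relIndex_pow_intUnits (hζ : ∃ ζ ∈ L, IsPrimitiveRoot ζ p) :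
    ((intUnits L V).map (powMonoidHom p : LLˣ →* LLˣ)).relIndex (intUnits L V) =
      p ^ (1 + if l = p then (galOf L).relIndex (V.decompositionSubgroup ℚ) else 0) := by
  classical
  obtain ⟨ζ, hζL, hζ⟩ := hζ
  have hp0 : 0 < p := hp.out.pos
  have hl0 : (l : LL) ≠ 0 := Nat.cast_ne_zero.2 hl.ne_zero
  have hpv := Mazur.valuation_pos V (Nat.cast_ne_zero.2 hp0.ne' : (p : LL) ≠ 0)
  set c : LL := l * (l * p) with hc
  have hc0 : c ≠ 0 := mul_ne_zero hl0 (mul_ne_zero hl0 (Nat.cast_ne_zero.2 hp0.ne'))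
  have hcF : c ∈ localField L V :=
    mul_mem (natCast_mem _ l) (mul_mem (natCast_mem _ l) (natCast_mem _ p))
  have hcle : V.valuation c ≤ V.valuation (l * p : LL) := by
    rw [hc, map_mul]
    exact mul_le_of_le_one_left' (val_natCast_le_one l)
  have hc1 : V.valuation c < 1 := by
    rw [hc, map_mul]
    exact lt_of_le_of_lt (mul_le_of_le_one_right'
      ((V.valuation_le_one_iff _).2 (mul_mem (natCast_mem V l) (natCast_mem V p))))
      (Mazur.valuation_natCast_lt_one V hV)
  set U := intUnits L V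
  set P : LLˣ →* LLˣ := powMonoidHom p
  set W := unitBall L V c
  have hWU : W ≤ U := fun _ h => h.1
  have hPW : W.map P = unitBall L V (p * c) := map_unitBall hl hV p L hcle
  have hPWW : W.map P ≤ W := by
    rintro _ ⟨w, hw, rfl⟩
    exact pow_mem hw p
  have hPUU : U.map P ≤ U := by
    rintro _ ⟨w, hw, rfl⟩
    exact pow_mem hw p
  -- the roots of unity
  have hζ0 : ζ ≠ 0 := hζ.ne_zero hp0.ne'
  set z : LLˣ := Units.mk0 ζ hζ0
  have hz : IsPrimitiveRoot z p := IsPrimitiveRoot.coe_units_iff.1 hζ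
  have hker : P.ker ≤ U := by
    intro u hu
    have hu' : (u : LL) ^ p = 1 := by
      rw [← Units.val_pow_eq_pow_val, show u ^ p = 1 from hu, Units.val_one]
    obtain ⟨i, -, hi⟩ := hζ.eq_pow_of_pow_eq_one hu'
    refine ⟨?_, Mazur.valuation_root_of_unity V hp0.ne' hu'⟩
    rw [← hi]
    exact le_localField L V (pow_mem hζL i)
  have hcardker : Nat.card P.ker = p := by
    have : P.ker = Subgroup.zpowers z := by
      rw [hz.zpowers_eq]
      ext u
      rfl
    rw [this, Nat.card_zpowers, ← hz.eq_orderOf]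
  have hWker : W ⊓ P.ker = ⊥ := by
    rw [eq_bot_iff]
    rintro u ⟨hu, hu'⟩
    refine Subgroup.mem_bot.2 (Units.ext ?_)
    refine root_unique hl hV hp0 ?_ (hu.2.trans hcle) (by simp)
    rw [Units.val_one, one_pow, ← Units.val_pow_eq_pow_val, show u ^ p = 1 from hu', Units.val_one]
  have hd : ((unitBall L V (p * c)).relIndex W) =
      p ^ (if l = p then (galOf L).relIndex (V.decompositionSubgroup ℚ) else 0) := by
    rw [relIndex_unitBall hl hV L hc1]
    split_ifs with h
    · subst h
      rw [mul_comm, relIndex_ball hl hV L hcF hc0]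
    · have hpu : V.valuation (p : LL) = 1 := by
        refine Mazur.valuation_eq_one_of_notMem V (b := (p : integralClosure ℤ LL)) fun hmem => ?_
        obtain ⟨a, b, hab⟩ := Nat.isCoprime_iff_coprime.2 ((Nat.coprime_primes hl hp.out).2 h)
        refine (Ideal.IsPrime.ne_top inferInstance : Frobenius.centre V ≠ ⊤)
          ((Ideal.eq_top_iff_one _).2 ?_)
        rw [show (1 : integralClosure ℤ LL) = (a : integralClosure ℤ LL) * (l : integralClosure ℤ LL) +
          (b : integralClosure ℤ LL) * (p : integralClosure ℤ LL) by exact_mod_cast hab.symm]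
        exact add_mem (Ideal.mul_mem_left _ _ (Places.natCast_mem_centre V hV))
          (Ideal.mul_mem_left _ _ hmem)
      rw [pow_zero, AddSubgroup.relIndex_eq_one]
      intro x hx
      exact ⟨hx.1, by rw [map_mul, hpu, one_mul]; exact hx.2⟩
  -- index arithmetic
  have hM := relIndex_intUnits_ne_zero hl hV L hc0
  have e1 : (W.map P).relIndex U = (W.map P).relIndex W * W.relIndex U :=
    (Subgroup.relIndex_mul_relIndex _ _ _ hPWW hWU).symm
  have e2 : (W.map P).relIndex U = (W.map P).relIndex (U.map P) * (U.map P).relIndex U :=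
    (Subgroup.relIndex_mul_relIndex _ _ _ (Subgroup.map_mono hWU) hPUU).symm
  have e3 : (W.map P).relIndex (U.map P) = (W ⊔ P.ker).relIndex U := by
    rw [Subgroup.relIndex_map_map, sup_eq_left.2 hker]
  have e4 : W.relIndex U = W.relIndex (W ⊔ P.ker) * (W ⊔ P.ker).relIndex U :=
    (Subgroup.relIndex_mul_relIndex _ _ _ le_sup_left (sup_le hWU hker)).symm
  have e5 : W.relIndex (W ⊔ P.ker) = p := by
    rw [Subgroup.relIndex_sup_left, ← Subgroup.inf_relIndex_right, hWker,
      Subgroup.relIndex_bot_left, hcardker]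
  rw [e4] at hM
  have hne := right_ne_zero_of_mul hM
  rw [e2, e3, hPW, hd, e4, e5] at e1
  have := mul_left_cancel₀ hne (e1.trans (by ring :
    _ = (W ⊔ P.ker).relIndex U *
      (p ^ (if l = p then (galOf L).relIndex (V.decompositionSubgroup ℚ) else 0) * p)))
  rw [this, pow_add, pow_one, mul_comm]

/-- Powers and units. -/
theorem relIndex_sup_pow :
    ((fieldUnits L V).map (powMonoidHom p : LLˣ →* LLˣ) ⊔ intUnits L V).relIndex
      (fieldUnits L V) = p := by
  classical
  set P : LLˣ →* LLˣ := powMonoidHom p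
  set G := fieldUnits L V
  set U := intUnits L V
  obtain ⟨ord, hsurj, -, hone⟩ := exists_ord hl hV L
  have hUG : U ≤ G := intUnits_le L
  let Z : Subgroup (Multiplicative ℤ) :=
    (powMonoidHom p : Multiplicative ℤ →* Multiplicative ℤ).range
  have e3 : (G.map P ⊔ U).subgroupOf G = Z.comap ord := by
    ext u
    rw [Subgroup.mem_subgroupOf, Subgroup.mem_comap]
    constructor
    · intro h
      obtain ⟨_, ⟨y, hy, rfl⟩, w, hw, hyw⟩ := Subgroup.mem_sup.1 h
      refine ⟨ord ⟨y, hy⟩, ?_⟩
      have hu : u = (⟨y, hy⟩ : G) ^ p * ⟨w, hUG hw⟩ := Subtype.ext (by simp [← hyw, P])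
      rw [hu, map_mul, map_pow, (hone ⟨w, hUG hw⟩).2 hw, mul_one]
      rfl
    · rintro ⟨k, hk⟩
      obtain ⟨y, rfl⟩ := hsurj k
      have h1 : ord (u / y ^ p) = 1 := by
        rw [map_div, map_pow, ← hk]
        exact div_self' _
      rw [show (u : LLˣ) = (y : LLˣ) ^ p * ((u / y ^ p : G) : LLˣ) by simp]
      exact Subgroup.mul_mem_sup ⟨y, y.2, rfl⟩ ((hone _).1 h1)
  have e4 : (G.map P ⊔ U).relIndex G = p := by
    rw [Subgroup.relIndex, e3, Subgroup.index_comap_of_surjective _ hsurj]
    have hZ : Z = Subgroup.zpowers (Multiplicative.ofAdd (p : ℤ)) := by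
      ext k
      simp only [Z, MonoidHom.mem_range, powMonoidHom_apply, Subgroup.mem_zpowers_iff]
      constructor
      · rintro ⟨a, rfl⟩
        exact ⟨a.toAdd, Multiplicative.toAdd.injective (by simp [mul_comm])⟩
      · rintro ⟨a, rfl⟩
        exact ⟨Multiplicative.ofAdd a, Multiplicative.toAdd.injective (by simp [mul_comm])⟩
    have hT : Subgroup.zpowers (Multiplicative.ofAdd (p : ℤ)) =
        AddSubgroup.toSubgroup (AddSubgroup.zmultiples (p : ℤ)) := by
      ext k
      rfl
    rw [hZ, hT, AddSubgroup.index_toSubgroup, Int.index_zmultiples, Int.natAbs_natCast]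
  exact e4

/-- The classes modulo powers. -/
theorem relIndex_pow_fieldUnits (hζ : ∃ ζ ∈ L, IsPrimitiveRoot ζ p) :
    ((fieldUnits L V).map (powMonoidHom p : LLˣ →* LLˣ)).relIndex (fieldUnits L V) =
      p ^ (2 + if l = p then (galOf L).relIndex (V.decompositionSubgroup ℚ) else 0) := by
  classical
  set P : LLˣ →* LLˣ := powMonoidHom p
  set G := fieldUnits L V
  set U := intUnits L V
  have hPG : G.map P ≤ G := by
    rintro _ ⟨w, hw, rfl⟩
    exact pow_mem hw p
  have hUG : U ≤ G := intUnits_le L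
  have hinf : G.map P ⊓ U = U.map P := by
    ext u
    constructor
    · rintro ⟨⟨w, hw, rfl⟩, hu⟩
      refine ⟨w, ⟨hw, Mazur.valuation_eq_one_of_pow V hp.out.ne_zero ?_⟩, rfl⟩
      rw [← Units.val_pow_eq_pow_val]
      exact hu.2
    · rintro ⟨w, hw, rfl⟩
      exact ⟨⟨w, hUG hw, rfl⟩, pow_mem hw p⟩
  have e1 : (G.map P).relIndex G = (G.map P).relIndex (G.map P ⊔ U) * (G.map P ⊔ U).relIndex G :=
    (Subgroup.relIndex_mul_relIndex _ _ _ le_sup_left (sup_le hPG hUG)).symm
  have e2 : (G.map P).relIndex (G.map P ⊔ U) = (U.map P).relIndex U := by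
    rw [Subgroup.relIndex_sup_left, ← Subgroup.inf_relIndex_right, hinf]
  have e4 := relIndex_sup_pow hl hV p L
  rw [e1, e2, e4, relIndex_pow_intUnits hl hV p L hζ]
  ring

end FLTAgent.Lowering.P1.Loc

namespace FLTAgent.Lowering.P1.Loc

local notation "LL" => AlgebraicClosure ℚ

theorem targetPowerIndex : LocalPowerIndex := by
  intro p hp L hL hζ l V hl hV
  haveI := hp
  haveI := hL
  let F := localField L V
  let ι : (↥F)ˣ →* LLˣ := Units.map (F.val.toRingHom.toMonoidHom)
  have hι : Function.Injective ι := Units.map_injective Subtype.val_injective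
  have hrange : ι.range = fieldUnits L V := by
    ext u
    refine ⟨?_, fun hu => ⟨Units.mk0 ⟨(u : LL), hu⟩ (fun h => u.ne_zero (congrArg Subtype.val h)),
      Units.ext rfl⟩⟩
    rintro ⟨w, rfl⟩
    exact (w : F).2
  rw [← Subgroup.index_eq_card, ← Subgroup.relIndex_top_right,
    ← Subgroup.relIndex_map_map_of_injective _ _ hι, ← MonoidHom.range_eq_map, hrange,
    ← relIndex_pow_fieldUnits hl hV p L hζ]
  congr 1
  rw [← hrange, MonoidHom.range_eq_map ι, Subgroup.map_map, MonoidHom.range_eq_map, Subgroup.map_map]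
  congr 1

end FLTAgent.Lowering.P1.Loc
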