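import Fermat.Agent.Lowering.P1.Local.Lattice

/-!
# Roots of unity of order prime to the residue characteristic; unramified characters
-/

set_option autoImplicit false
set_option linter.style.haveILetI false
set_option linter.unusedSectionVars false

noncomputable section

open scoped Pointwise

namespace FLTAgent.Lowering.P1.Loc

local notation "LL" => AlgebraicClosure ℚ
local notation "GG" => (AlgebraicClosure ℚ ≃ₐ[ℚ] AlgebraicClosure ℚ)

variable {V : ValuationSubring LL} {l : ℕ} (hl : l.Prime) (hV : V.LiesOverPrime l)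

include hl hV

theorem eq_of_res_eq {m : ℕ} (hm : ¬ l ∣ m) {x y : LL} (hx : x ^ m = 1) (hy : y ^ m = 1)
    (h : FlatLocal.res V x = FlatLocal.res V y) : x = y := by
  haveI : Fact l.Prime := ⟨hl⟩
  haveI := FrobTrace.charP_residueField hV
  have hm0 : m ≠ 0 := fun e => hm (e ▸ dvd_zero l)
  have hmem : ∀ {z : LL}, z ^ m = 1 → z ∈ V := fun hz =>
    FlatLocal.mem_of_val_le_one (Mazur.valuation_root_of_unity V hm0 hz).le
  have hy0 : y ≠ 0 := fun e => by simp [e, zero_pow hm0] at hy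
  by_contra hne
  have hw : (x / y) ^ m = 1 := by rw [div_pow, hx, hy, one_div_one]
  have hsum : ∑ i ∈ Finset.range m, (x / y) ^ i = 0 := by
    have := geom_sum_mul (x / y) m
    rw [hw, sub_self, mul_eq_zero] at this
    exact this.resolve_right (sub_ne_zero.2 fun e => hne ((div_eq_one_iff_eq hy0).1 e))
  have hres : FlatLocal.res V (x / y) = 1 := by
    have h1 : FlatLocal.res V (x / y) * FlatLocal.res V y = 1 * FlatLocal.res V y := by
      rw [← FlatLocal.res_mul (hmem hw) (hmem hy), div_mul_cancel₀ _ hy0, h, one_mul]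
    exact mul_right_cancel₀ (FlatLocal.res_ne_zero (Mazur.valuation_root_of_unity V hm0 hy)) h1
  have h0 := congrArg (FlatLocal.res V) hsum
  rw [FlatLocal.res_sum _ _ fun i _ => pow_mem (hmem hw) i,
    Finset.sum_congr rfl fun i _ => by rw [FlatLocal.res_pow (hmem hw), hres, one_pow],
    FlatLocal.res_zero] at h0
  exact hm ((CharP.cast_eq_zero_iff (IsLocalRing.ResidueField V) l m).1 (by simpa using h0))

omit hV in
theorem not_dvd_pow_sub_one {a : ℕ} (ha : 0 < a) : ¬ l ∣ l ^ a - 1 := by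
  intro h
  have h1 : l ∣ l ^ a := dvd_pow_self _ ha.ne'
  have h2 : 1 ≤ l ^ a := Nat.one_le_pow _ _ hl.pos
  have h3 := Nat.dvd_sub h1 h
  rw [show l ^ a - (l ^ a - 1) = 1 by omega] at h3
  exact hl.not_dvd_one h3

theorem exists_exponent {σ : GG} (hσ : σ ∈ V.decompositionSubgroup ℚ) {a : ℕ} (ha : 0 < a) {ζ : LL}
    (hζ : ζ ^ (l ^ a - 1) = 1) : ∃ j : ℕ, σ ζ = ζ ^ l ^ j := by
  classical
  haveI : Fact l.Prime := ⟨hl⟩
  haveI := FrobTrace.charP_residueField hV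
  have hN0 : l ^ a - 1 ≠ 0 := by
    have : 1 < l ^ a := Nat.one_lt_pow ha.ne' hl.one_lt
    omega
  have hζV : ζ ∈ V := FlatLocal.mem_of_val_le_one (Mazur.valuation_root_of_unity V hN0 hζ).le
  set z := FlatLocal.res V ζ with hz
  have hza : z ^ l ^ a = z := by
    rw [hz, ← FlatLocal.res_pow hζV]
    congr 1
    rw [show l ^ a = l ^ a - 1 + 1 by have := Nat.one_le_pow a l hl.pos; omega, pow_succ, hζ, one_mul]
  set P : Polynomial (IsLocalRing.ResidueField V) :=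
    ∏ j ∈ Finset.range a, (Polynomial.X - Polynomial.C (z ^ l ^ j))
  have hfrob : P.map (frobenius (IsLocalRing.ResidueField V) l) = P := by
    simp only [P, Polynomial.map_prod, Polynomial.map_sub, Polynomial.map_X, Polynomial.map_C,
      frobenius_def, ← pow_mul, ← pow_succ]
    obtain ⟨b, rfl⟩ : ∃ b, a = b + 1 := ⟨a - 1, by omega⟩
    rw [Finset.prod_range_succ, hza]
    conv_rhs => rw [Finset.prod_range_succ', pow_zero, pow_one]
  have hfix : P.map (MulSemiringAction.toRingHom _ (IsLocalRing.ResidueField V)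
      (⟨σ, hσ⟩ : V.decompositionSubgroup ℚ)) = P := by
    ext i
    rw [Polynomial.coeff_map]
    obtain ⟨n, -, hn⟩ := FlatLocal.exists_natCast_eq_of_pow hV (z := P.coeff i) (by
      conv_rhs => rw [← hfrob]
      rw [Polynomial.coeff_map, frobenius_def])
    rw [← hn, map_natCast]
  have hroot : P.eval (FlatLocal.res V (σ ζ)) = 0 := by
    rw [show σ ζ = ((⟨σ, hσ⟩ : V.decompositionSubgroup ℚ) : GG) ζ from rfl,
      ← FlatLocal.smul_res _ hζV, ← hz]
    conv_lhs => rw [← hfix]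
    rw [Polynomial.eval_map, ← MulSemiringAction.toRingHom_apply, Polynomial.eval₂_hom,
      show P.eval z = 0 from ?_, map_zero]
    rw [Polynomial.eval_prod]
    exact Finset.prod_eq_zero (Finset.mem_range.2 ha) (by simp)
  rw [Polynomial.eval_prod, Finset.prod_eq_zero_iff] at hroot
  obtain ⟨j, -, hj⟩ := hroot
  rw [Polynomial.eval_sub, Polynomial.eval_X, Polynomial.eval_C, sub_eq_zero, hz,
    ← FlatLocal.res_pow hζV] at hj
  exact ⟨j, eq_of_res_eq hl hV (not_dvd_pow_sub_one hl ha) (by rw [← map_pow, hζ, map_one])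
    (by rw [← pow_mul, mul_comm, pow_mul, hζ, one_pow]) hj⟩

omit hV in
theorem pow_eq_iff_natCast {a : ℕ} (ha : 2 ≤ a) {ζ : LL} (hζ : IsPrimitiveRoot ζ (l ^ a - 1))
    (i j : ℕ) : ζ ^ l ^ i = ζ ^ l ^ j ↔ (i : ZMod a) = j := by
  have hred : ∀ k : ℕ, ζ ^ l ^ k = ζ ^ l ^ (k % a) := by
    intro k
    have h1 : ζ ^ l ^ a = ζ := by
      rw [show l ^ a = l ^ a - 1 + 1 by have := Nat.one_le_pow a l hl.pos; omega, pow_succ,
        hζ.pow_eq_one, one_mul]
    have h2 : ∀ q : ℕ, ζ ^ l ^ (a * q) = ζ := by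
      intro q
      induction q with
      | zero => simp
      | succ q ih => rw [Nat.mul_succ, pow_add, pow_mul, ih, h1]
    conv_lhs => rw [← Nat.div_add_mod k a, pow_add, pow_mul, h2]
  have hlt : ∀ {k : ℕ}, k < a → l ^ k < l ^ a - 1 := by
    intro k hk
    have h1 : l ^ k ≤ l ^ (a - 1) := Nat.pow_le_pow_right hl.pos (by omega)
    have h2 : 2 ≤ l ^ (a - 1) := hl.two_le.trans (Nat.le_self_pow (by omega) _)
    have h3 : l ^ a = l ^ (a - 1) * l := by rw [← pow_succ]; congr 1; omega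
    have h4 : l ^ (a - 1) * 2 ≤ l ^ (a - 1) * l := Nat.mul_le_mul_left _ hl.two_le
    omega
  rw [ZMod.natCast_eq_natCast_iff', hred i, hred j]
  refine ⟨fun h => ?_, fun h => by rw [h]⟩
  exact Nat.pow_right_injective hl.two_le
    (hζ.pow_inj (hlt (Nat.mod_lt _ (by omega))) (hlt (Nat.mod_lt _ (by omega))) h)

/-- The exponent of an element of the decomposition group on roots of unity. -/
theorem exists_exponent_hom {a : ℕ} (ha : 2 ≤ a) {ζ : LL} (hζ : IsPrimitiveRoot ζ (l ^ a - 1)) :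
    ∃ χ : V.decompositionSubgroup ℚ →* Multiplicative (ZMod a),
      ∀ (σ : V.decompositionSubgroup ℚ) (j : ℕ),
        (σ : GG) ζ = ζ ^ l ^ j ↔ χ σ = Multiplicative.ofAdd (j : ZMod a) := by
  choose f hf using fun σ : V.decompositionSubgroup ℚ =>
    exists_exponent hl hV σ.2 (show 0 < a by omega) hζ.pow_eq_one
  have key : ∀ (σ : V.decompositionSubgroup ℚ) (j : ℕ),
      (σ : GG) ζ = ζ ^ l ^ j ↔ (f σ : ZMod a) = j := fun σ j => by
    rw [hf σ, pow_eq_iff_natCast hl ha hζ]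
  refine ⟨{ toFun := fun σ => Multiplicative.ofAdd (f σ : ZMod a), map_one' := ?_, map_mul' := ?_ },
    fun σ j => (key σ j).trans ⟨fun h => congrArg Multiplicative.ofAdd h,
      fun h => Multiplicative.ofAdd.injective h⟩⟩
  · rw [← ofAdd_zero, (key 1 0).1 (by simp), Nat.cast_zero]
  · intro σ τ
    rw [← ofAdd_add, ← Nat.cast_add, (key (σ * τ) (f σ + f τ)).1 ?_]
    rw [Subgroup.coe_mul, AlgEquiv.mul_apply, hf τ, map_pow, hf σ, ← pow_mul, ← pow_add]

omit hl hV in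
theorem exists_generator {a : ℕ} (ha : 0 < a) (S : AddSubgroup (ZMod a)) :
    ∃ g, 0 < g ∧ g ∣ a ∧ ∀ x : ZMod a, x ∈ S ↔ g ∣ x.val := by
  haveI : NeZero a := ⟨ha.ne'⟩
  obtain ⟨g, hg⟩ := Int.subgroup_cyclic (S.comap (Int.castAddHom (ZMod a)))
  have hmem : ∀ k : ℤ, (k : ZMod a) ∈ S ↔ g ∣ k := fun k => by
    rw [← Int.mem_zmultiples_iff, ← AddSubgroup.zmultiples_eq_closure] at *
    rw [← hg, AddSubgroup.mem_comap]
    rfl
  have hga : g ∣ (a : ℤ) := (hmem a).1 (by push_cast; rw [ZMod.natCast_self]; exact zero_mem S)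
  refine ⟨g.natAbs, Int.natAbs_pos.2 fun h => ?_, Int.natAbs_dvd_natAbs.2 hga, fun x => ?_⟩
  · rw [h, zero_dvd_iff] at hga
    omega
  · rw [← Int.natCast_dvd_natCast, Int.natAbs_dvd, ← hmem]
    push_cast
    rw [ZMod.natCast_zmod_val]

/-- An element outside moves a root of unity of order prime to the residue characteristic. -/
theorem exists_moved {L K : IntermediateField ℚ LL} (hLK : L ≤ K)
    (hur : ∀ σ ∈ galOf L, σ ∈ V.inertiaSubgroupIn ℚ → σ ∈ galOf K) {σ : GG}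
    (hσ : σ ∈ galOf L ⊓ V.decompositionSubgroup ℚ) (hσK : σ ∉ galOf K) :
    ∃ (ω : LL) (m : ℕ), ¬ l ∣ m ∧ ω ^ m = 1 ∧
      (∀ τ ∈ galOf K ⊓ V.decompositionSubgroup ℚ, τ ω = ω) ∧ σ ω ≠ ω := by
  classical
  haveI : Fact l.Prime := ⟨hl⟩
  haveI := Mazur.isGalois_QQb
  by_contra hall
  push Not at hall
  set H := galOf K ⊓ V.decompositionSubgroup ℚ
  let a : ℕ → ℕ := fun n => (n + 2).factorial
  have ha : ∀ n, 2 ≤ a n := fun n =>
    (le_add_self (a := 2) (b := n)).trans (Nat.self_le_factorial _)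
  have hNne : ∀ n, NeZero (l ^ a n - 1) := fun n => ⟨by
    have : 1 < l ^ a n := Nat.one_lt_pow (by have := ha n; omega) hl.one_lt
    omega⟩
  choose ζ hζ using fun n => haveI := hNne n
    HasEnoughRootsOfUnity.exists_primitiveRoot LL (l ^ a n - 1)
  let C : ℕ → Set GG := fun n => (H : Set GG) ∩ {τ | σ⁻¹ (τ (ζ n)) = ζ n}
  have hne : ∀ n, (C n).Nonempty := by
    intro n
    haveI : NeZero (a n) := ⟨by have := ha n; omega⟩
    obtain ⟨χ, hχ⟩ := exists_exponent_hom hl hV (ha n) (hζ n)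
    set S : AddSubgroup (ZMod (a n)) :=
      Subgroup.toAddSubgroup' ((H.subgroupOf (V.decompositionSubgroup ℚ)).map χ)
    have hS : ∀ x : ZMod (a n), x ∈ S ↔
        ∃ τ : V.decompositionSubgroup ℚ, (τ : GG) ∈ H ∧ χ τ = Multiplicative.ofAdd x :=
      fun x => Iff.rfl
    obtain ⟨g, hg0, hga, hgS⟩ := exists_generator (show 0 < a n by have := ha n; omega) S
    obtain ⟨q, hq⟩ : l ^ g - 1 ∣ l ^ a n - 1 := Nat.pow_sub_one_dvd_pow_sub_one _ hga
    set ω := ζ n ^ q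
    have hω : IsPrimitiveRoot ω (l ^ g - 1) :=
      (hζ n).pow (Nat.pos_of_ne_zero (hNne n).ne) (by rw [hq, mul_comm])
    have hfixH : ∀ τ ∈ H, τ ω = ω := by
      intro τ hτ
      set x := (χ ⟨τ, hτ.2⟩).toAdd
      have hx : g ∣ x.val := (hgS x).1 ((hS x).2 ⟨⟨τ, hτ.2⟩, hτ, (ofAdd_toAdd _).symm⟩)
      have hτζ : τ (ζ n) = ζ n ^ l ^ x.val :=
        (hχ ⟨τ, hτ.2⟩ _).2 (by rw [ZMod.natCast_zmod_val, ofAdd_toAdd])
      rw [map_pow, hτζ, ← pow_mul, mul_comm, pow_mul]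
      obtain ⟨t, ht⟩ := hx
      have hmod : l ^ g - 1 ∣ l ^ x.val - 1 := Nat.pow_sub_one_dvd_pow_sub_one _ ⟨t, ht⟩
      obtain ⟨s, hs⟩ := hmod
      rw [show l ^ x.val = (l ^ g - 1) * s + 1 by
        have := Nat.one_le_pow x.val l hl.pos; omega, pow_succ, pow_mul, hω.pow_eq_one, one_pow,
        one_mul]
    have hσω := hall ω (l ^ g - 1) (not_dvd_pow_sub_one hl hg0) hω.pow_eq_one hfixH
    set x := (χ ⟨σ, hσ.2⟩).toAdd
    have hσζ : σ (ζ n) = ζ n ^ l ^ x.val :=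
      (hχ ⟨σ, hσ.2⟩ _).2 (by rw [ZMod.natCast_zmod_val, ofAdd_toAdd])
    rw [map_pow, hσζ, ← pow_mul, mul_comm, pow_mul] at hσω
    have hxg : g ∣ x.val := by
      set r := x.val % g with hr
      have hr1 : ω ^ l ^ r = ω := by
        conv_rhs => rw [← hσω]
        obtain ⟨s, hs⟩ := Nat.pow_sub_one_dvd_pow_sub_one (x := l) (dvd_mul_right g (x.val / g))
        conv_rhs => rw [← Nat.mod_add_div x.val g, ← hr, pow_add, mul_comm,
          show l ^ (g * (x.val / g)) = (l ^ g - 1) * s + 1 by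
            have := Nat.one_le_pow (g * (x.val / g)) l hl.pos; omega,
          pow_mul, pow_succ, pow_mul, hω.pow_eq_one, one_pow, one_mul]
      have hr2 : r < g := Nat.mod_lt _ hg0
      refine Nat.dvd_of_mod_eq_zero (hr ▸ ?_)
      by_contra hr0
      have hωd : l ^ g - 1 ∣ l ^ r - 1 := by
        refine hω.dvd_of_pow_eq_one _ ?_
        have hω0 : ω ≠ 0 := hω.ne_zero (by
          have : 1 < l ^ g := Nat.one_lt_pow hg0.ne' hl.one_lt
          omega)
        refine mul_right_cancel₀ hω0 ?_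
        rw [← pow_succ, one_mul, show l ^ r - 1 + 1 = l ^ r by
          have := Nat.one_le_pow r l hl.pos; omega, hr1]
      have h1 : l ^ r < l ^ g := Nat.pow_lt_pow_right hl.one_lt hr2
      have h2 : 1 < l ^ r := Nat.one_lt_pow (by omega) hl.one_lt
      have := Nat.le_of_dvd (by omega) hωd
      omega
    obtain ⟨τ, hτ, hτx⟩ := (hS x).1 ((hgS x).2 hxg)
    refine ⟨τ, hτ, ?_⟩
    show σ⁻¹ ((τ : GG) (ζ n)) = ζ n
    rw [(hχ τ x.val).2 (by rw [ZMod.natCast_zmod_val, hτx]), ← hσζ, ← AlgEquiv.mul_apply,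
      inv_mul_cancel, AlgEquiv.one_apply]
  have hclosed : ∀ n, IsClosed (C n) := by
    intro n
    refine (isClosed_inf_dec K V).inter ?_
    have h : {τ : GG | σ⁻¹ (τ (ζ n)) = ζ n} =
        (fun τ => σ⁻¹ * τ) ⁻¹' (MulAction.stabilizer GG (ζ n) : Set GG) := by
      ext τ; rfl
    rw [h]
    exact (Subgroup.isClosed_of_isOpen _ (stabilizer_isOpen_of_isIntegral (ζ n))).preimage
      (continuous_const_mul _)
  have hdvd : ∀ n, l ^ a n - 1 ∣ l ^ a (n + 1) - 1 := fun n =>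
    Nat.pow_sub_one_dvd_pow_sub_one _ (Nat.factorial_dvd_factorial (by omega))
  have hanti : ∀ n, C (n + 1) ⊆ C n := by
    intro n τ hτ
    refine ⟨hτ.1, ?_⟩
    haveI := hNne (n + 1)
    obtain ⟨i, -, hi⟩ := (hζ (n + 1)).eq_pow_of_pow_eq_one (ξ := ζ n) (by
      obtain ⟨s, hs⟩ := hdvd n
      rw [hs, pow_mul, (hζ n).pow_eq_one, one_pow])
    show σ⁻¹ (τ (ζ n)) = ζ n
    rw [← hi, map_pow, map_pow, show σ⁻¹ (τ (ζ (n + 1))) = ζ (n + 1) from hτ.2]
  obtain ⟨τ, hτ⟩ := IsCompact.nonempty_iInter_of_sequence_nonempty_isCompact_isClosed C hanti hne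
    (hclosed 0).isCompact hclosed
  rw [Set.mem_iInter] at hτ
  -- the quotient is inertial
  set ρ : V.decompositionSubgroup ℚ := ⟨σ⁻¹ * τ, mul_mem (inv_mem hσ.2) (hτ 0).1.2⟩
  have hρ : FlatLocal.IsIne V ρ := by
    refine FlatLocal.isIne_of_smul_eq fun z => ?_
    rcases eq_or_ne z 0 with rfl | hz
    · exact smul_zero _
    obtain ⟨m, hm, hzm⟩ := Carayol.exists_pow_eq_one_residue hV hz
    have hm0 : m ≠ 0 := fun e => hm (e ▸ dvd_zero l)
    haveI := hNne m.totient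
    have hmN : m ∣ l ^ a m.totient - 1 := by
      have h1 := (Nat.modEq_iff_dvd' (Nat.one_le_pow _ _ hl.pos)).1
        (Nat.ModEq.pow_totient ((hl.coprime_iff_not_dvd).2 hm)).symm
      exact h1.trans (Nat.pow_sub_one_dvd_pow_sub_one _
        (Nat.dvd_factorial (Nat.totient_pos.2 (Nat.pos_of_ne_zero hm0)) (by omega)))
    obtain ⟨x, hxV, rfl⟩ := FlatLocal.exists_res_eq z
    set N := l ^ a m.totient - 1
    have hζV : ζ m.totient ∈ V := FlatLocal.mem_of_val_le_one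
      (Mazur.valuation_root_of_unity V (hNne m.totient).ne (hζ _).pow_eq_one).le
    have hN : ¬ l ∣ N := not_dvd_pow_sub_one hl (by have := ha m.totient; omega)
    have hprim : IsPrimitiveRoot (FlatLocal.res V (ζ m.totient)) N := by
      refine IsPrimitiveRoot.mk_of_lt _ (Nat.pos_of_ne_zero (hNne _).ne) ?_ fun k hk hkN h => ?_
      · rw [← FlatLocal.res_pow hζV, (hζ _).pow_eq_one, FlatLocal.res_one]
      · rw [← FlatLocal.res_pow hζV] at h
        have h1 := eq_of_res_eq hl hV hN (x := ζ m.totient ^ k) (y := 1)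
          (by rw [← pow_mul, mul_comm, pow_mul, (hζ _).pow_eq_one, one_pow]) (one_pow _)
          (by rw [h, FlatLocal.res_one])
        exact (Nat.le_of_dvd hk ((hζ _).dvd_of_pow_eq_one k h1)).not_gt hkN
    obtain ⟨i, -, hi⟩ := hprim.eq_pow_of_pow_eq_one (ξ := FlatLocal.res V x) (by
      obtain ⟨s, hs⟩ := hmN
      rw [show N = m * s from hs, pow_mul, hzm, one_pow])
    rw [← hi, ← FlatLocal.res_pow hζV, FlatLocal.smul_res _ (pow_mem hζV _)]
    congr 1
    rw [map_pow]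
    congr 1
    exact (hτ _).2
  have hρL : σ⁻¹ * τ ∈ galOf L :=
    mul_mem (inv_mem hσ.1) (IntermediateField.fixingSubgroup_antitone hLK (hτ 0).1.1)
  have hρK : σ⁻¹ * τ ∈ galOf K := hur _ hρL hρ
  have hτK : τ ∈ galOf K := (hτ 0).1.1
  have h := mul_mem hτK (inv_mem hρK)
  rw [show τ * (σ⁻¹ * τ)⁻¹ = σ by group] at h
  exact hσK h

end FLTAgent.Lowering.P1.Loc

namespace FLTAgent.Lowering.P1.Loc

local notation "LL" => AlgebraicClosure ℚ
local notation "GG" => (AlgebraicClosure ℚ ≃ₐ[ℚ] AlgebraicClosure ℚ)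

theorem targetUnramified : LocalUnramified := by
  intro p hp L hL l V hl hV m
  classical
  haveI := hp
  haveI : Fact l.Prime := ⟨hl⟩
  haveI := hL
  haveI := finiteIndex_galOf L
  obtain ⟨φ, hφ⟩ := FlatLocal.exists_frob hV
  obtain ⟨k, hk0, hkle, hk⟩ := Subgroup.exists_pow_mem_of_index_ne_zero
    (H := galOf L) Subgroup.FiniteIndex.index_ne_zero (φ : GG)
  set b := 2 * (galOf L).index.factorial
  set a := p ^ m * b with ha_def
  have hb0 : 0 < b := by positivity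
  have ha : 2 ≤ a := by
    have h1 : 1 ≤ p ^ m := Nat.one_le_pow _ _ hp.out.pos
    have h2 : 2 ≤ b := Nat.le_mul_of_pos_right 2 (Nat.factorial_pos _)
    calc 2 ≤ 1 * b := by omega
      _ ≤ _ := Nat.mul_le_mul_right _ h1
  haveI : NeZero a := ⟨by omega⟩
  haveI : NeZero (l ^ a - 1) := ⟨by
    have : 1 < l ^ a := Nat.one_lt_pow (by omega) hl.one_lt
    omega⟩
  obtain ⟨ζ, hζ⟩ := HasEnoughRootsOfUnity.exists_primitiveRoot LL (l ^ a - 1)
  obtain ⟨χ, hχ⟩ := exists_exponent_hom hl hV ha hζ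
  set H := galOf L ⊓ V.decompositionSubgroup ℚ
  let S : AddSubgroup (ZMod a) :=
    Subgroup.toAddSubgroup' ((H.subgroupOf (V.decompositionSubgroup ℚ)).map χ)
  have hS : ∀ x : ZMod a, x ∈ S ↔
      ∃ τ : V.decompositionSubgroup ℚ, (τ : GG) ∈ H ∧ χ τ = Multiplicative.ofAdd x :=
    fun x => Iff.rfl
  obtain ⟨g, hg0, hga, hgS⟩ := exists_generator (show 0 < a by omega) S
  -- the generator divides `b`
  have hgb : g ∣ b := by
    have hζV : ζ ∈ V := FlatLocal.mem_of_val_le_one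
      (Mazur.valuation_root_of_unity V (NeZero.ne _) hζ.pow_eq_one).le
    have hφζ : (φ : GG) ζ = ζ ^ l ^ 1 := by
      refine eq_of_res_eq hl hV (not_dvd_pow_sub_one hl (show 0 < a by omega))
        (by rw [← map_pow, hζ.pow_eq_one, map_one])
        (by rw [← pow_mul, mul_comm, pow_mul, hζ.pow_eq_one, one_pow]) ?_
      rw [← FlatLocal.smul_res φ hζV, hφ, pow_one, FlatLocal.res_pow hζV]
    have h1 : χ (φ ^ k) = Multiplicative.ofAdd (k : ZMod a) := by
      rw [map_pow, (hχ φ 1).1 hφζ, ← ofAdd_nsmul]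
      simp
    have h2 : g ∣ (k : ZMod a).val := (hgS _).1 ((hS _).2 ⟨φ ^ k, ⟨by
      rw [SubmonoidClass.coe_pow]; exact hk, (φ ^ k).2⟩, h1⟩)
    rw [ZMod.val_natCast] at h2
    have h3 : g ∣ k := (Nat.dvd_mod_iff hga).1 h2
    exact h3.trans ((Nat.dvd_factorial hk0 hkle).trans (dvd_mul_left _ _))
  let F : LL → ZMod (p ^ m) := fun y =>
    if h : ∃ j : ℕ, y = ζ ^ l ^ j then (((h.choose : ZMod a).val / g : ℕ) : ZMod (p ^ m)) else 0
  have hF : ∀ (σ : GG) (hσ : σ ∈ V.decompositionSubgroup ℚ),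
      F (σ ζ) = (((χ ⟨σ, hσ⟩).toAdd.val / g : ℕ) : ZMod (p ^ m)) := by
    intro σ hσ
    have hex : ∃ j : ℕ, σ ζ = ζ ^ l ^ j := ⟨(χ ⟨σ, hσ⟩).toAdd.val,
      (hχ ⟨σ, hσ⟩ _).2 (by rw [ZMod.natCast_zmod_val, ofAdd_toAdd])⟩
    simp only [F, dif_pos hex]
    rw [(hχ ⟨σ, hσ⟩ _).1 hex.choose_spec, toAdd_ofAdd]
  have hadd : ∀ x y : ZMod a, g ∣ x.val → g ∣ y.val →
      (((x + y).val / g : ℕ) : ZMod (p ^ m)) = ((x.val / g : ℕ) : ZMod (p ^ m)) + (y.val / g : ℕ) := by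
    rintro x y ⟨i, hi⟩ ⟨j, hj⟩
    obtain ⟨c, hc⟩ := hgb
    have hac : a = g * (p ^ m * c) := by rw [ha_def, hc]; ring
    rw [ZMod.val_add, hi, hj, ← mul_add, hac, Nat.mul_mod_mul_left, Nat.mul_div_cancel_left _ hg0,
      Nat.mul_div_cancel_left _ hg0, Nat.mul_div_cancel_left _ hg0, ← Nat.cast_add,
      ZMod.natCast_eq_natCast_iff', Nat.mod_mod_of_dvd _ (dvd_mul_right _ _)]
  refine ⟨fun σ => F (σ ζ), ⟨IntermediateField.adjoin ℚ {ζ},
    IntermediateField.adjoin.finiteDimensional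
      ((AlgebraicClosure.isAlgebraic ℚ).isAlgebraic ζ).isIntegral, fun σ s hs => ?_⟩, ?_, ?_, ?_⟩
  · show F ((σ * s) ζ) = F (σ ζ)
    have hs' : s ζ = ζ := (IntermediateField.mem_fixingSubgroup_iff _ _).1 hs ζ
      (IntermediateField.mem_adjoin_simple_self ℚ ζ)
    rw [AlgEquiv.mul_apply, hs']
  · intro σ hσ τ hτ
    show F ((σ * τ) ζ) = F (σ ζ) + F (τ ζ)
    rw [hF _ (mul_mem hσ.2 hτ.2), hF _ hσ.2, hF _ hτ.2,
      show (⟨σ * τ, mul_mem hσ.2 hτ.2⟩ : V.decompositionSubgroup ℚ) = ⟨σ, hσ.2⟩ * ⟨τ, hτ.2⟩ from rfl,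
      map_mul, toAdd_mul]
    exact hadd _ _ ((hgS _).1 ((hS _).2 ⟨⟨σ, hσ.2⟩, hσ, (ofAdd_toAdd _).symm⟩))
      ((hgS _).1 ((hS _).2 ⟨⟨τ, hτ.2⟩, hτ, (ofAdd_toAdd _).symm⟩))
  · intro σ hσ
    have hσD : σ ∈ V.decompositionSubgroup ℚ := Places.inertia_le_decomposition V hσ.2
    have hζV : ζ ∈ V := FlatLocal.mem_of_val_le_one
      (Mazur.valuation_root_of_unity V (NeZero.ne _) hζ.pow_eq_one).le
    have hfix : σ ζ = ζ := eq_of_res_eq hl hV (not_dvd_pow_sub_one hl (show 0 < a by omega))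
      (by rw [← map_pow, hζ.pow_eq_one, map_one]) hζ.pow_eq_one
      (FlatLocal.IsIne.res_map (σ := ⟨σ, hσD⟩) hσ.2 hζV)
    show F (σ ζ) = 0
    rw [hF σ hσD, (hχ ⟨σ, hσD⟩ 0).1 (by simpa using hfix)]
    simp
  · intro t
    haveI : NeZero (p ^ m) := ⟨(pow_pos hp.out.pos m).ne'⟩
    obtain ⟨c, hc⟩ := hgb
    have hac : a = g * (p ^ m * c) := by rw [ha_def, hc]; ring
    have hlt : g * t.val < a := by
      rw [hac]
      refine Nat.mul_lt_mul_of_pos_left (lt_of_lt_of_le (ZMod.val_lt t) ?_) hg0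
      exact Nat.le_mul_of_pos_right _ (Nat.pos_of_ne_zero fun h => by rw [hc, h] at hb0; simp at hb0)
    obtain ⟨τ, hτ, hτx⟩ := (hS ((g * t.val : ℕ) : ZMod a)).1 ((hgS _).2
      (by rw [ZMod.val_natCast_of_lt hlt]; exact dvd_mul_right _ _))
    refine ⟨τ, hτ, ?_⟩
    show F ((τ : GG) ζ) = t
    rw [hF _ hτ.2, hτx, toAdd_ofAdd, ZMod.val_natCast_of_lt hlt, Nat.mul_div_cancel_left _ hg0,
      ZMod.natCast_zmod_val]

end FLTAgent.Lowering.P1.Loc
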