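import Fermat.Agent.Lowering.P1.Local.Cyclic

/-!
# Successive approximation: trivial cohomology of small unit groups
-/

set_option autoImplicit false
set_option linter.style.haveILetI false
set_option linter.unusedSectionVars false

noncomputable section

open scoped Pointwise

namespace FLTAgent.Lowering.P1.Loc

local notation "LL" => AlgebraicClosure ℚ
local notation "GG" => (AlgebraicClosure ℚ ≃ₐ[ℚ] AlgebraicClosure ℚ)

/-- A filtration of small unit groups on which norms and coboundaries can be approximated. -/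
structure Steps (p : ℕ) (V : ValuationSubring LL) (K : IntermediateField ℚ LL) (σ : GG) where
  W : ℕ → Subgroup LLˣ
  le : ∀ m, W m ≤ intUnits K V
  anti : ∀ m, W (m + 1) ≤ W m
  bd_le : (W 0).map (bd σ) ≤ W 0
  nm_le : (W 0).map (nm σ p) ≤ W 0
  deep : ∃ c : LL, c ≠ 0 ∧
    ∀ u ∈ intUnits K V, V.valuation ((u : LL) - 1) ≤ V.valuation c → u ∈ W 0
  small : ∀ c : LL, c ≠ 0 → ∃ m, ∀ u ∈ W m, V.valuation ((u : LL) - 1) ≤ V.valuation c
  step_nm : ∀ m, ∀ u ∈ W m, bd σ u = 1 → ∃ w ∈ W m, u / nm σ p w ∈ W (m + 1)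
  step_bd : ∀ m, ∀ u ∈ W m, nm σ p u = 1 → ∃ w ∈ W m, u / bd σ w ∈ W (m + 1)

namespace Cyc

variable {p : ℕ} [hp : Fact p.Prime] {V : ValuationSubring LL} {L K : IntermediateField ℚ LL}
  {σ : GG} (h : Cyc p V L K σ) (S : Steps p V K σ)

include h hp

theorem steps_le (m : ℕ) : S.W m ≤ S.W 0 := by
  induction m with
  | zero => exact le_rfl
  | succ m ih => exact (S.anti m).trans ih

theorem steps_mem_K {m : ℕ} {u : LLˣ} (hu : u ∈ S.W m) : u ∈ fieldUnits K V := (S.le m hu).1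

theorem iterate_nm (u : LLˣ) (hu : u ∈ S.W 0) (hfix : bd σ u = 1) :
    ∀ m, ∃ w ∈ S.W 0, u / nm σ p w ∈ S.W m ∧ bd σ (u / nm σ p w) = 1 := by
  intro m
  induction m with
  | zero => exact ⟨1, one_mem _, by simpa using hu, by simpa using hfix⟩
  | succ m ih =>
    obtain ⟨w, hw, hwm, hwf⟩ := ih
    obtain ⟨w', hw', hw'm⟩ := S.step_nm m _ hwm hwf
    refine ⟨w * w', mul_mem hw (h.steps_le S m hw'), ?_, ?_⟩
    · rwa [map_mul, ← div_div]
    · rw [map_mul, ← div_div, map_div, hwf, h.bd_nm (h.steps_mem_K S hw'), one_div_one]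

theorem iterate_bd (u : LLˣ) (hu : u ∈ S.W 0) (hN : nm σ p u = 1) :
    ∀ m, ∃ w ∈ S.W 0, u / bd σ w ∈ S.W m ∧ nm σ p (u / bd σ w) = 1 := by
  intro m
  induction m with
  | zero => exact ⟨1, one_mem _, by simpa using hu, by simpa using hN⟩
  | succ m ih =>
    obtain ⟨w, hw, hwm, hwf⟩ := ih
    obtain ⟨w', hw', hw'm⟩ := S.step_bd m _ hwm hwf
    refine ⟨w * w', mul_mem hw (h.steps_le S m hw'), ?_, ?_⟩
    · rwa [map_mul, ← div_div]
    · rw [map_mul, ← div_div, map_div, hwf, h.nm_bd (h.steps_mem_K S hw'), one_div_one]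

variable {l : ℕ} (hl : l.Prime) (hV : V.LiesOverPrime l)

include hl hV

theorem deep_root : ∃ m, ∀ u ∈ S.W m, ∃ y ∈ S.W 0, y ^ p = u ∧
    V.valuation ((y : LL) - 1) ≤ V.valuation (l * p : LL) ∧ (bd σ u = 1 → bd σ y = 1) := by
  obtain ⟨c, hc0, hc⟩ := S.deep
  obtain ⟨c', hc'0, hc'1, hc'⟩ : ∃ c' : LL, c' ≠ 0 ∧ V.valuation c' ≤ 1 ∧
      V.valuation c' ≤ V.valuation c := by
    rcases le_total (V.valuation c) 1 with h1 | h1
    · exact ⟨c, hc0, h1, le_rfl⟩
    · exact ⟨1, one_ne_zero, by simp, by simpa using h1⟩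
  have hp0 : (p : LL) ≠ 0 := Nat.cast_ne_zero.2 hp.out.ne_zero
  have hlp : V.valuation (l * p : LL) < 1 := by
    rw [map_mul]
    exact lt_of_le_of_lt (mul_le_of_le_one_right' (val_natCast_le_one p))
      (Mazur.valuation_natCast_lt_one V hV)
  obtain ⟨m, hm⟩ := S.small (p * (l * p * c')) (mul_ne_zero hp0
    (mul_ne_zero (mul_ne_zero (Nat.cast_ne_zero.2 hl.ne_zero) hp0) hc'0))
  refine ⟨m, fun u hu => ?_⟩
  have hu1 := hm u hu
  have hz : V.valuation ((u : LL) - 1) ≤ V.valuation ((l * p ^ 2 : ℕ) : LL) := by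
    refine hu1.trans ?_
    push_cast
    rw [show (p : LL) * (l * p * c') = l * p ^ 2 * c' by ring, map_mul]
    exact mul_le_of_le_one_right' hc'1
  obtain ⟨y, hyK, hy, hy1⟩ :=
    root_mem_localField (L := K) hl hV hp.out.pos (h.steps_mem_K S hu) hz
  have hy2 := val_eq_one_of_near hlp hy1
  have hy0 : y ≠ 0 := fun e => by simp [e] at hy2
  have hyc : V.valuation (y - 1) ≤ V.valuation c := by
    have h2 := val_pow_sub_one hl hV hp.out.pos hy1
    rw [hy] at h2
    rw [h2, map_mul] at hu1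
    refine (le_of_mul_le_mul_left hu1 (Mazur.valuation_pos V hp0)).trans ?_
    rw [map_mul]
    exact (mul_le_of_le_one_left' hlp.le).trans hc'
  refine ⟨Units.mk0 y hy0, hc _ ⟨hyK, hy2⟩ hyc, Units.ext (by simp [hy]), hy1, fun hfix => ?_⟩
  have huL : (u : LL) ∈ localField L V := (h.bd_eq_one_iff (h.steps_mem_K S hu)).1 hfix
  obtain ⟨y', hy'L, hy', hy'1⟩ := root_mem_localField (L := L) hl hV hp.out.pos huL hz
  obtain rfl : y = y' := root_unique hl hV hp.out.pos (hy.trans hy'.symm) hy1 hy'1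
  exact (h.bd_eq_one_iff (u := Units.mk0 y hy0) hyK).2 hy'L

theorem exact_nm : S.W 0 ⊓ (bd σ).ker ≤ (S.W 0).map (nm σ p) := by
  rintro u ⟨hu, hfix⟩
  obtain ⟨m, hm⟩ := h.deep_root S hl hV
  obtain ⟨w, hw, hwm, hwf⟩ := h.iterate_nm S u hu hfix m
  obtain ⟨y, hy, hyp, -, hyf⟩ := hm _ hwm
  refine ⟨y * w, mul_mem hy hw, ?_⟩
  rw [map_mul, h.nm_of_mem_base ((h.bd_eq_one_iff (h.steps_mem_K S hy)).1 (hyf hwf)), hyp,
    div_mul_cancel]

theorem exact_bd : S.W 0 ⊓ (nm σ p).ker ≤ (S.W 0).map (bd σ) := by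
  rintro u ⟨hu, hN⟩
  obtain ⟨m, hm⟩ := h.deep_root S hl hV
  obtain ⟨w, hw, hwm, hwN⟩ := h.iterate_bd S u hu hN m
  obtain ⟨y, hy, hyp, hy1, -⟩ := hm _ hwm
  have hmap : ∀ i : ℕ, Units.map (((σ ^ i : GG) : LL →+* LL).toMonoidHom) y ∈ S.W 0 := by
    intro i
    induction i with
    | zero =>
      convert hy using 1
      exact Units.ext (by simp)
    | succ i ih =>
      have h1 := mul_mem (S.bd_le ⟨_, ih, rfl⟩) ih
      convert h1 using 1
      refine Units.ext ?_
      rw [Units.val_mul, coe_bd, div_mul_cancel₀ _ (Units.ne_zero _)]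
      simp [pow_succ', AlgEquiv.mul_apply]
  -- the norm of the root is one
  have hNy : nm σ p y = 1 := by
    refine Units.ext ?_
    rw [Units.val_one]
    refine root_unique hl hV hp.out.pos ?_ ?_ (by simp)
    · rw [one_pow, ← Units.val_pow_eq_pow_val, ← map_pow, hyp, hwN, Units.val_one]
    · have hball : nm σ p y ∈ unitBall K V (l * p : LL) := by
        rw [nm, MonoidHom.finsetProd_apply]
        refine prod_mem fun i _ => ⟨S.le 0 (hmap i), ?_⟩
        show V.valuation ((σ ^ i) (y : LL) - 1) ≤ _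
        rw [show (σ ^ i) (y : LL) - 1 = (σ ^ i) ((y : LL) - 1) by rw [map_sub, map_one],
          val_map (pow_mem h.memD i)]
        exact hy1
      exact hball.2
  -- `y ^ p` is a coboundary
  set z : ℕ → LLˣ := fun i => ∏ j ∈ Finset.range i,
    Units.map (((σ ^ j : GG) : LL →+* LL).toMonoidHom) y
  have hz : ∀ i, bd σ (z i) = Units.map (((σ ^ i : GG) : LL →+* LL).toMonoidHom) y / y := by
    intro i
    induction i with
    | zero =>
      rw [show z 0 = 1 from Finset.prod_range_zero _, map_one, show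
        Units.map (((σ ^ 0 : GG) : LL →+* LL).toMonoidHom) y = y from Units.ext (by simp), div_self']
    | succ i ih =>
      rw [show z (i + 1) = z i * Units.map (((σ ^ i : GG) : LL →+* LL).toMonoidHom) y from
        Finset.prod_range_succ _ _, map_mul, ih]
      refine Units.ext ?_
      rw [Units.val_mul, Units.val_div_eq_div_val, Units.val_div_eq_div_val, coe_bd]
      simp only [Units.coe_map, RingHom.toMonoidHom_eq_coe, MonoidHom.coe_coe, RingHom.coe_coe,
        pow_succ', AlgEquiv.mul_apply]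
      have h1 : (σ ^ i) (y : LL) ≠ 0 := (map_ne_zero_iff _ (σ ^ i).injective).2 y.ne_zero
      field_simp
  have hyb : y ^ p = bd σ (∏ i ∈ Finset.range p, (z i)⁻¹) := by
    rw [map_prod, Finset.prod_congr rfl fun i _ => by rw [map_inv, hz, inv_div],
      Finset.prod_div_distrib, Finset.prod_const, Finset.card_range,
      show (∏ i ∈ Finset.range p, Units.map (((σ ^ i : GG) : LL →+* LL).toMonoidHom) y) = nm σ p y
        by rw [nm, MonoidHom.finsetProd_apply], hNy, div_one]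
  refine ⟨(∏ i ∈ Finset.range p, (z i)⁻¹) * w,
    mul_mem (prod_mem fun i _ => inv_mem (prod_mem fun j _ => hmap j)) hw, ?_⟩
  rw [map_mul, ← hyb, hyp, div_mul_cancel]

variable [hK : FiniteDimensional ℚ K]

include hK S

/-- The two unit indices agree. -/
theorem herbrand :
    ((intUnits K V).map (nm σ p)).relIndex (intUnits K V ⊓ (bd σ).ker) =
      ((intUnits K V).map (bd σ)).relIndex (intUnits K V ⊓ (nm σ p).ker) := by
  obtain ⟨c, hc0, hc⟩ := S.deep
  refine relIndex_eq_of_exact (bd σ) (nm σ p) (W := S.W 0) (S.le 0) ?_ ?_ S.bd_le S.nm_le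
    (fun u hu => h.nm_bd hu.1) (fun u hu => h.bd_nm hu.1) ?_ (h.exact_nm S hl hV)
    (h.exact_bd S hl hV)
  · rintro _ ⟨u, hu, rfl⟩
    exact ⟨h.bd_mem hu.1, h.val_bd⟩
  · rintro _ ⟨u, hu, rfl⟩
    exact ⟨h.localField_le (h.nm_mem hu.1), by rw [h.val_nm, hu.2, one_pow]⟩
  · exact fun h0 => relIndex_intUnits_ne_zero hl hV K hc0
      (Subgroup.relIndex_eq_zero_of_le_left (fun u hu => hc u hu.1 hu.2) h0)

end Cyc

end FLTAgent.Lowering.P1.Loc
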